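import Mathlib

set_option autoImplicit false

/-!
# S20 (L4), chunk DD2: membership in fractional ideals of a Dedekind domain via valuations

`R` a Dedekind domain with fraction field `F`.  For a nonzero fractional ideal `I` and `f : F`:
`f ∈ I ↔ ∀ w, w.valuation F f ≤ exp (-(count F w I))`.  Conversely every finitely supported
family of exponents is the family of counts of a fractional ideal `idealOf c`.
-/

namespace Fermat.Agent.S20

open IsDedekindDomain IsDedekindDomain.HeightOneSpectrum FractionalIdeal nonZeroDivisors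

variable {R : Type*} [CommRing R] [IsDedekindDomain R]
variable {F : Type*} [Field F] [Algebra R F] [IsFractionRing R F]

/-- the count of a principal fractional ideal is the additive valuation of its generator -/
theorem count_spanSingleton (w : HeightOneSpectrum R) {f : F} (hf : f ≠ 0) :
    count F w (spanSingleton R⁰ f) = -WithZero.log (w.valuation F f) := by
  obtain ⟨a, b, hb, rfl⟩ := IsFractionRing.div_surjective (A := R) f
  have hb0 : b ≠ 0 := nonZeroDivisors.ne_zero hb
  have ha0 : a ≠ 0 := by
    rintro rfl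
    simp at hf
  have hI : spanSingleton R⁰ (algebraMap R F a / algebraMap R F b) ≠ 0 := by
    rwa [ne_eq, spanSingleton_eq_zero_iff]
  have h1 : spanSingleton R⁰ (algebraMap R F a / algebraMap R F b) =
      spanSingleton R⁰ ((algebraMap R F) b)⁻¹ * ↑(Ideal.span {a} : Ideal R) := by
    rw [coeIdeal_span_singleton, spanSingleton_mul_spanSingleton, div_eq_inv_mul]
  rw [count_well_defined F w hI h1, map_div₀, valuation_of_algebraMap, valuation_of_algebraMap,
    intValuation_if_neg w ha0, intValuation_if_neg w hb0, WithZero.log_div (by simp) (by simp),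
    WithZero.log_exp, WithZero.log_exp]
  ring

/-- a nonzero fractional ideal all of whose counts are nonnegative is integral -/
theorem le_one_of_count_nonneg {I : FractionalIdeal R⁰ F} (hI : I ≠ 0)
    (h : ∀ w : HeightOneSpectrum R, 0 ≤ count F w I) : I ≤ 1 := by
  rw [← finprod_heightOneSpectrum_factorization' F hI]
  refine finprod_induction (fun J : FractionalIdeal R⁰ F => J ≤ 1) le_rfl ?_ ?_
  · intro a b ha hb
    obtain ⟨A, rfl⟩ := le_one_iff_exists_coeIdeal.mp ha
    obtain ⟨B, rfl⟩ := le_one_iff_exists_coeIdeal.mp hb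
    rw [← coeIdeal_mul]
    exact le_one_iff_exists_coeIdeal.mpr ⟨_, rfl⟩
  · intro w
    obtain ⟨n, hn⟩ := Int.eq_ofNat_of_zero_le (h w)
    rw [hn, zpow_natCast, ← coeIdeal_pow]
    exact le_one_iff_exists_coeIdeal.mpr ⟨_, rfl⟩

/-- comparison of nonzero fractional ideals via their counts -/
theorem le_iff_count {I J : FractionalIdeal R⁰ F} (hI : I ≠ 0) (hJ : J ≠ 0) :
    I ≤ J ↔ ∀ w : HeightOneSpectrum R, count F w J ≤ count F w I := by
  refine ⟨fun h w => count_mono F w hI h, fun h => ?_⟩
  have h1 : I * J⁻¹ ≤ 1 := by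
    refine le_one_of_count_nonneg (mul_ne_zero hI (inv_ne_zero hJ)) fun w => ?_
    rw [count_mul F w hI (inv_ne_zero hJ), count_inv]
    have := h w
    omega
  have h2 := mul_le_mul_right h1 J
  rwa [mul_comm J, inv_mul_cancel_right₀ hJ, mul_one] at h2

/-- **(DD2)** membership in a nonzero fractional ideal via valuations, log form. -/
theorem mem_iff_count_le {I : FractionalIdeal R⁰ F} (hI : I ≠ 0) {f : F} (hf : f ≠ 0) :
    f ∈ I ↔ ∀ w : HeightOneSpectrum R, count F w I ≤ -WithZero.log (w.valuation F f) := by
  have hs : spanSingleton R⁰ f ≠ 0 := by rwa [ne_eq, spanSingleton_eq_zero_iff]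
  rw [← spanSingleton_le_iff_mem, le_iff_count hs hI]
  refine forall_congr' fun w => ?_
  rw [count_spanSingleton w hf]

/-- **(DD2)** membership in a nonzero fractional ideal via valuations. -/
theorem mem_iff_valuation {I : FractionalIdeal R⁰ F} (hI : I ≠ 0) (f : F) :
    f ∈ I ↔ ∀ w : HeightOneSpectrum R,
      w.valuation F f ≤ WithZero.exp (-(count F w I)) := by
  rcases eq_or_ne f 0 with rfl | hf
  · simp only [map_zero, _root_.zero_le, implies_true, iff_true]
    exact zero_mem _
  rw [mem_iff_count_le hI hf]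
  refine forall_congr' fun w => ?_
  have hv : w.valuation F f ≠ 0 := (Valuation.ne_zero_iff _).mpr hf
  rw [← WithZero.log_le_log hv (by simp), WithZero.log_exp]
  omega

/-! ### The fractional ideal with prescribed counts -/

variable (F) in
/-- the fractional ideal `∏ w ^ (c w)` with prescribed (finitely supported) counts -/
noncomputable def idealOf (c : HeightOneSpectrum R →₀ ℤ) : FractionalIdeal R⁰ F :=
  c.prod fun w n => (w.asIdeal : FractionalIdeal R⁰ F) ^ n

theorem idealOf_ne_zero (c : HeightOneSpectrum R →₀ ℤ) : idealOf F c ≠ 0 := by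
  rw [idealOf, Finsupp.prod, Finset.prod_ne_zero_iff]
  exact fun w _ => zpow_ne_zero _ (coeIdeal_ne_zero.mpr w.ne_bot)

@[simp]
theorem count_idealOf (c : HeightOneSpectrum R →₀ ℤ) (w : HeightOneSpectrum R) :
    count F w (idealOf F c) = c w :=
  count_finsuppProd F w c

/-- membership in `idealOf c`: `ord_w f ≥ c w` for all `w` -/
theorem mem_idealOf_iff (c : HeightOneSpectrum R →₀ ℤ) (f : F) :
    f ∈ idealOf F c ↔ ∀ w : HeightOneSpectrum R,
      w.valuation F f ≤ WithZero.exp (-(c w)) := by
  rw [mem_iff_valuation (idealOf_ne_zero c)]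
  simp only [count_idealOf]

theorem mem_idealOf_iff_le_log (c : HeightOneSpectrum R →₀ ℤ) {f : F} (hf : f ≠ 0) :
    f ∈ idealOf F c ↔ ∀ w : HeightOneSpectrum R, c w ≤ -WithZero.log (w.valuation F f) := by
  rw [mem_iff_count_le (idealOf_ne_zero c) hf]
  simp only [count_idealOf]

theorem idealOf_le_idealOf_iff (c c' : HeightOneSpectrum R →₀ ℤ) :
    idealOf F c ≤ idealOf F c' ↔ ∀ w, c' w ≤ c w := by
  rw [le_iff_count (idealOf_ne_zero c) (idealOf_ne_zero c')]
  simp only [count_idealOf]

/-- every nonzero fractional ideal is the `idealOf` of its counts -/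
theorem eq_idealOf {I : FractionalIdeal R⁰ F} (hI : I ≠ 0) :
    ∃ c : HeightOneSpectrum R →₀ ℤ, I = idealOf F c ∧ ∀ w, c w = count F w I := by
  have hfin := finite_factors (K := F) I
  refine ⟨Finsupp.mk hfin.toFinset (fun w => count F w I) (fun _ => hfin.mem_toFinset), ?_,
    fun w => rfl⟩
  apply le_antisymm
  · rw [le_iff_count hI (idealOf_ne_zero _)]
    intro w
    rw [count_idealOf]
    rfl
  · rw [le_iff_count (idealOf_ne_zero _) hI]
    intro w
    rw [count_idealOf]
    rfl

@[simp]
theorem idealOf_zero : idealOf F (0 : HeightOneSpectrum R →₀ ℤ) = 1 := by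
  simp [idealOf]

theorem idealOf_add (c c' : HeightOneSpectrum R →₀ ℤ) :
    idealOf F (c + c') = idealOf F c * idealOf F c' := by
  rw [idealOf, idealOf, idealOf, Finsupp.prod_add_index']
  · intro w; simp
  · intro w m n
    exact zpow_add₀ (coeIdeal_ne_zero.mpr w.ne_bot) m n

theorem idealOf_neg (c : HeightOneSpectrum R →₀ ℤ) : idealOf F (-c) = (idealOf F c)⁻¹ := by
  have h := idealOf_add (F := F) c (-c)
  rw [add_neg_cancel, idealOf_zero] at h
  exact eq_inv_of_mul_eq_one_right h.symm

end Fermat.Agent.S20
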