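import Fermat.Agent.S20.DegreeC
import Fermat.Agent.S24.Real.EmbFinite
import Fermat.Agent.S24.Real.EmbInfty
import Fermat.Agent.S24.Real.Degree

set_option autoImplicit false

/-!
# S20 [C2]: the degree of `div(dx)` on the function field of `X_0(N)` over `ℂ`

Instantiation of `sum_Wdx_of_emb` at `K = ℂ`, `ι = RingHom.id ℂ`,
`F = FL ℂ N = ↥(laurentBaseChange ℂ (modularFunctionFieldFull N))`, `x = xGen ℂ N`,
using the layer (R) embeddings (`embFinite`, `embInfty`) and the degree bound of `S24/Real`.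
-/

namespace Fermat.Agent.S20

open AlgebraicCurve ModularCurve CongruenceSubgroup UpperHalfPlane IntermediateField
open Fermat.Agent.S24 Fermat.Agent.S24.FF
open scoped MatrixGroups

/-- the integer `deg div(dx)` for `X_0(N)`. -/
noncomputable def degWdx (N : ℕ) : ℤ :=
  (Nat.card (SL(2, ℤ) ⧸ Gamma0 N) : ℤ)
    - orb (MulAction.toPerm ModularGroup.S : Equiv.Perm (SL(2, ℤ) ⧸ Gamma0 N))
    - orb (MulAction.toPerm (ModularGroup.S * ModularGroup.T) :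
        Equiv.Perm (SL(2, ℤ) ⧸ Gamma0 N))
    - orb (MulAction.toPerm ModularGroup.T : Equiv.Perm (SL(2, ℤ) ⧸ Gamma0 N))

/-- **[C2]** the S24 pipeline over `ℂ`: finiteness and degree of `div(d xGen)` on `FL ℂ N`,
in the exact [C1] shape of `finrank_cuspForm_of_contract`. -/
theorem sum_Wdx_Fc (N : ℕ) [NeZero N] :
    {v : Place ℂ (FL ℂ N) | Wdx ℂ (xGen ℂ N) v ≠ 0}.Finite ∧
      ∑ᶠ v : Place ℂ (FL ℂ N), Wdx ℂ (xGen ℂ N) v = degWdx N ∧
      0 ≤ degWdx N + 2 ∧ Even (degWdx N + 2) ∧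
      ((((degWdx N + 2).toNat / 2 : ℕ)) : ℚ) = genusFormula N :=
  sum_Wdx_of_emb N (RingHom.id ℂ) (xGen ℂ N)
    (xGen_transcendental ℂ N)
    (finiteDimensional_over_xGen ℂ N (RingHom.id ℂ))
    (finrank_le_card ℂ N (RingHom.id ℂ))
    (embFinite ℂ N (RingHom.id ℂ))
    (fun τ₀ a c => embFinite_algebraMap ℂ N (RingHom.id ℂ) τ₀ a c)
    (fun τ₀ a => embFinite_xGen ℂ N (RingHom.id ℂ) τ₀ a)
    (fun τ₀ a h hh => embFinite_mul_of_mem_Gamma0 ℂ N (RingHom.id ℂ) τ₀ a h hh)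
    (fun τ₀ a b e => (embFinite_eq_iff ℂ N (RingHom.id ℂ) τ₀ a b).mp e)
    (fun τ₀ a σ hσ ζ hζ f => embFinite_stab ℂ N (RingHom.id ℂ) τ₀ a σ hσ ζ hζ f)
    (embInfty ℂ N (RingHom.id ℂ))
    (fun a c => embInfty_algebraMap ℂ N (RingHom.id ℂ) a c)
    (fun a => embInfty_xGen ℂ N (RingHom.id ℂ) a)
    (fun a h hh => embInfty_mul_of_mem_Gamma0 ℂ N (RingHom.id ℂ) a h hh)
    (fun a b e => (embInfty_eq_iff ℂ N (RingHom.id ℂ) a b).mp e)
    ModularGroup.T⁻¹ (Or.inr rfl)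
    (zetaInfty N) (zetaInfty_isPrimitiveRoot_units N)
    (fun a f => embInfty_T_inv ℂ N (RingHom.id ℂ) a f)
    (degWdx N) rfl

/-- `IsFF1 ℂ (FL ℂ N)`. -/
theorem isFF1_Fc (N : ℕ) [NeZero N] : IsFF1 ℂ (FL ℂ N) :=
  ⟨xGen ℂ N, xGen_transcendental ℂ N, finiteDimensional_over_xGen ℂ N (RingHom.id ℂ)⟩

end Fermat.Agent.S20
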