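import Mathlib
import Fermat.Prelude.Def_AlgebraicCurve_CanonicalDivisor
import Fermat.Agent.S24.FF.PlaceBasic

set_option autoImplicit false

/-!
# S20 layer (L4): Riemann–Roch spaces of a function field, definitions

`K` a field, `F / K` a field extension, places are the Prelude `AlgebraicCurve.Place K F`.
For `x : F` (the coordinate), `finPl K x` / `infPl K x` are the places where `x` is regular / has a
pole.  For a set `S` of places and `D : Place K F → ℤ`, `Lsub S D` is the `K`-subspace of
`f : F` with `ord_v f ≥ -D v` for all `v ∈ S` (and `0`).  `RRSpace D = Lsub univ D`, and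
`Wdx K x v = ord_v (dx)`.
-/

namespace Fermat.Agent.S20

open AlgebraicCurve

section defs

variable (K : Type*) {F : Type*} [Field K] [Field F] [Algebra K F]

/-- The places at which `x` is regular ("finite places"). -/
def finPl (x : F) : Set (Place K F) := {v | 0 ≤ v.ord x}

/-- The poles of `x` ("places at infinity"). -/
def infPl (x : F) : Set (Place K F) := {v | v.ord x < 0}

theorem mem_finPl {x : F} {v : Place K F} : v ∈ finPl K x ↔ 0 ≤ v.ord x := Iff.rfl

theorem mem_infPl {x : F} {v : Place K F} : v ∈ infPl K x ↔ v.ord x < 0 := Iff.rfl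

theorem finPl_union_infPl (x : F) : finPl K x ∪ infPl K x = Set.univ := by
  ext v
  simp only [Set.mem_union, mem_finPl, mem_infPl, Set.mem_univ, iff_true]
  exact le_or_gt 0 (v.ord x)

theorem finPl_disjoint_infPl (x : F) : Disjoint (finPl K x) (infPl K x) := by
  rw [Set.disjoint_left]
  intro v h1 h2
  rw [mem_finPl] at h1
  rw [mem_infPl] at h2
  omega

theorem infPl_eq_polesOf (x : F) : infPl K x = Fermat.Agent.S24.FF.polesOf K x := rfl

variable {K}

/-- The `K`-subspace of functions `f` with `ord_v f ≥ -D v` for all `v ∈ S`. -/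
def Lsub (S : Set (Place K F)) (D : Place K F → ℤ) : Submodule K F where
  carrier := {f | f = 0 ∨ ∀ v ∈ S, -D v ≤ v.ord f}
  zero_mem' := Or.inl rfl
  add_mem' := by
    intro f g hf hg
    by_cases hfg : f + g = 0
    · exact Or.inl hfg
    rcases hf with rfl | hf
    · simpa using hg
    rcases hg with rfl | hg
    · simpa using Or.inr hf
    by_cases hf0 : f = 0
    · subst hf0; simpa using Or.inr hg
    by_cases hg0 : g = 0
    · subst hg0; simpa using Or.inr hf
    refine Or.inr fun v hv => ?_
    have := Fermat.Agent.S24.FF.min_le_ord_add v hfg hf0 hg0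
    exact (le_min (hf v hv) (hg v hv)).trans this
  smul_mem' := by
    intro c f hf
    by_cases hc : c = 0
    · subst hc; left; simp
    rcases hf with rfl | hf
    · left; simp
    by_cases hf0 : f = 0
    · subst hf0; left; simp
    refine Or.inr fun v hv => ?_
    have hc' : algebraMap K F c ≠ 0 := (map_ne_zero _).mpr hc
    rw [Algebra.smul_def, v.ord_mul hc' hf0, Fermat.Agent.S24.FF.ord_algebraMap, zero_add]
    exact hf v hv

theorem mem_Lsub {S : Set (Place K F)} {D : Place K F → ℤ} {f : F} :
    f ∈ Lsub S D ↔ f = 0 ∨ ∀ v ∈ S, -D v ≤ v.ord f := Iff.rfl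

theorem mem_Lsub_of_ne_zero {S : Set (Place K F)} {D : Place K F → ℤ} {f : F} (hf : f ≠ 0) :
    f ∈ Lsub S D ↔ ∀ v ∈ S, -D v ≤ v.ord f := by
  rw [mem_Lsub, or_iff_right hf]

theorem Lsub_anti {S T : Set (Place K F)} (h : S ⊆ T) (D : Place K F → ℤ) :
    Lsub T D ≤ Lsub S D := by
  rintro f (rfl | hf)
  · exact Or.inl rfl
  · exact Or.inr fun v hv => hf v (h hv)

theorem Lsub_mono (S : Set (Place K F)) {D D' : Place K F → ℤ} (h : ∀ v ∈ S, D' v ≤ D v) :
    Lsub S D' ≤ Lsub S D := by
  rintro f (rfl | hf)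
  · exact Or.inl rfl
  · exact Or.inr fun v hv => (neg_le_neg (h v hv)).trans (hf v hv)

theorem Lsub_union (S T : Set (Place K F)) (D : Place K F → ℤ) :
    Lsub (S ∪ T) D = Lsub S D ⊓ Lsub T D := by
  ext f
  rw [Submodule.mem_inf]
  by_cases hf : f = 0
  · subst hf; simp
  rw [mem_Lsub_of_ne_zero hf, mem_Lsub_of_ne_zero hf, mem_Lsub_of_ne_zero hf]
  constructor
  · intro h
    exact ⟨fun v hv => h v (Or.inl hv), fun v hv => h v (Or.inr hv)⟩
  · rintro ⟨h1, h2⟩ v (hv | hv)
    · exact h1 v hv
    · exact h2 v hv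

/-- The Riemann–Roch space `L(D)`. -/
def RRSpace (D : Place K F → ℤ) : Submodule K F := Lsub Set.univ D

theorem mem_RRSpace {D : Place K F → ℤ} {f : F} :
    f ∈ RRSpace D ↔ f = 0 ∨ ∀ v : Place K F, -D v ≤ v.ord f := by
  simp [RRSpace, mem_Lsub]

variable (K) in
theorem RRSpace_eq_inf (x : F) (D : Place K F → ℤ) :
    RRSpace D = Lsub (finPl K x) D ⊓ Lsub (infPl K x) D := by
  rw [RRSpace, ← Lsub_union, finPl_union_infPl]

variable (K) in
/-- The divisor of the differential `dx`. -/
noncomputable def Wdx (x : F) : Place K F → ℤ :=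
  fun v => v.ordDifferential (KaehlerDifferential.D K F x)

end defs

end Fermat.Agent.S20
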