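import Fermat.Prelude.Def_ModularCurve_GenusNumerics
import Fermat.Agent.S20.RRDefs

set_option autoImplicit false

/-!
# S20: the lower bound from the three inputs

`genusFormula_le_finrank_of`: from
* the degree of `div(dx)` on the function field (`∑ᶠ v, Wdx ℂ x v = d`, numerics of `d`),
* Riemann–Roch for the canonical divisor (`2 l(W) = deg W + 2`),
* an injective linear map `L(W) → S_2(Γ₀(N))`,
* finite-dimensionality of `S_2(Γ₀(N))`,
we get `genusFormula N ≤ dim S_2(Γ₀(N))`.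
-/

namespace Fermat.Agent.S20

open AlgebraicCurve ModularCurve CongruenceSubgroup Module

theorem genusFormula_le_finrank_of (N : ℕ) [NeZero N]
    {F : Type} [Field F] [Algebra ℂ F] (x : F)
    (d : ℤ) (hsum : ∑ᶠ v : Place ℂ F, Wdx ℂ x v = d)
    (hdeven : Even (d + 2))
    (hnum : ((((d + 2).toNat / 2 : ℕ) : ℕ) : ℚ) = genusFormula N)
    (hRR : (2 * (finrank ℂ ↥(RRSpace (Wdx ℂ x)) : ℤ)) = (∑ᶠ v : Place ℂ F, Wdx ℂ x v) + 2)
    (hφ : ∃ φ : ↥(RRSpace (Wdx ℂ x)) →ₗ[ℂ] CuspForm (Gamma0 N) 2, Function.Injective φ)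
    [Module.Finite ℂ (CuspForm (Gamma0 N) 2)] :
    genusFormula N ≤ (finrank ℂ (CuspForm (Gamma0 N) 2) : ℚ) := by
  obtain ⟨φ, hφ⟩ := hφ
  have h2 : finrank ℂ ↥(RRSpace (Wdx ℂ x)) ≤ finrank ℂ (CuspForm (Gamma0 N) 2) :=
    LinearMap.finrank_le_finrank_of_injective hφ
  obtain ⟨m, hm⟩ := hdeven
  have hl : (finrank ℂ ↥(RRSpace (Wdx ℂ x)) : ℤ) = m := by
    rw [hsum] at hRR
    omega
  have hm0 : 0 ≤ m := by
    rw [← hl]
    exact Int.natCast_nonneg _
  have hnat : (d + 2).toNat / 2 = m.toNat := by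
    have : (d + 2).toNat = 2 * m.toNat := by omega
    rw [this, Nat.mul_div_cancel_left _ (by norm_num : 0 < 2)]
  have hl' : finrank ℂ ↥(RRSpace (Wdx ℂ x)) = m.toNat := by omega
  rw [← hnum, hnat, ← hl']
  exact_mod_cast h2

end Fermat.Agent.S20
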