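import Mathlib

set_option autoImplicit false

/-!
# S20 (Dedekind–Weber), one-dimensional core

For a field `K`, `polys K` is `K[X]` inside `K(X)` and `Linf K d` is the `K`-subspace of rational
functions of degree `≤ d` (i.e. `x ^ d • O_∞`).  We prove
* `K(X) = K[X] + Linf (-1)`, `K[X] ∩ Linf (-1) = 0`;
* `dim (K[X] ∩ Linf d) = max 0 (d + 1)`;
* `dim K(X) / (K[X] + Linf d) = max 0 (- d - 1)`.
-/

namespace Fermat.Agent.S20

open Polynomial

noncomputable section

variable (K : Type*) [Field K]

/-- Rational functions of degree at most `d` (together with `0`). -/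
def Linf (d : ℤ) : Submodule K (RatFunc K) where
  carrier := {f | f = 0 ∨ f.intDegree ≤ d}
  zero_mem' := Or.inl rfl
  add_mem' := by
    rintro f g (rfl | hf) (rfl | hg)
    · left; simp
    · right; simpa using hg
    · right; simpa using hf
    · by_cases hfg : f + g = 0
      · left; exact hfg
      · right
        by_cases hg0 : g = 0
        · subst hg0; simpa using hf
        · exact (RatFunc.intDegree_add_le hg0 hfg).trans (max_le hf hg)
  smul_mem' := by
    rintro c f (rfl | hf)
    · left; simp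
    · by_cases hc : c = 0
      · left; simp [hc]
      · by_cases hf0 : f = 0
        · left; simp [hf0]
        · right
          rw [Algebra.smul_def, RatFunc.algebraMap_eq_C,
            RatFunc.intDegree_mul (by simpa using hc) hf0]
          simpa using hf

variable {K}

theorem mem_Linf {d : ℤ} {f : RatFunc K} : f ∈ Linf K d ↔ f = 0 ∨ f.intDegree ≤ d := Iff.rfl

theorem Linf_mono {d e : ℤ} (h : d ≤ e) : Linf K d ≤ Linf K e := by
  rintro f (rfl | hf)
  · exact Or.inl rfl
  · exact Or.inr (hf.trans h)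

variable (K)

/-- The polynomials inside the rational functions, as a `K`-subspace. -/
def polys : Submodule K (RatFunc K) :=
  LinearMap.range ((Algebra.linearMap K[X] (RatFunc K)).restrictScalars K)

variable {K}

theorem mem_polys {f : RatFunc K} : f ∈ polys K ↔ ∃ p : K[X], algebraMap K[X] (RatFunc K) p = f :=
  Iff.rfl

theorem algebraMap_mem_polys (p : K[X]) : algebraMap K[X] (RatFunc K) p ∈ polys K := ⟨p, rfl⟩

theorem algebraMap_mem_Linf_iff {d : ℤ} {p : K[X]} :
    algebraMap K[X] (RatFunc K) p ∈ Linf K d ↔ p = 0 ∨ (p.natDegree : ℤ) ≤ d := by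
  rw [mem_Linf, RatFunc.intDegree_polynomial]
  simp

/-- A polynomial of negative degree at infinity vanishes. -/
theorem polys_inf_Linf_neg {d : ℤ} (hd : d < 0) : polys K ⊓ Linf K d = ⊥ := by
  rw [eq_bot_iff]
  rintro f ⟨⟨p, rfl⟩, hp⟩
  rcases algebraMap_mem_Linf_iff.mp hp with rfl | h
  · simp
  · exfalso
    have : (0 : ℤ) ≤ p.natDegree := Int.natCast_nonneg _
    omega

/-- Division with remainder: every rational function is a polynomial plus a proper fraction. -/
theorem exists_sub_mem_Linf (f : RatFunc K) :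
    ∃ p : K[X], f - algebraMap K[X] (RatFunc K) p ∈ Linf K (-1) := by
  refine ⟨f.num / f.denom, ?_⟩
  have hq : f.denom ≠ 0 := f.denom_ne_zero
  have hq' : algebraMap K[X] (RatFunc K) f.denom ≠ 0 := by simpa using hq
  have hdiv : f.num % f.denom + f.denom * (f.num / f.denom) = f.num :=
    EuclideanDomain.mod_add_div _ _
  have hf : f - algebraMap K[X] (RatFunc K) (f.num / f.denom) =
      algebraMap K[X] (RatFunc K) (f.num % f.denom) / algebraMap K[X] (RatFunc K) f.denom := by
    rw [eq_div_iff hq']
    have h1 := congrArg (algebraMap K[X] (RatFunc K)) hdiv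
    rw [map_add, map_mul] at h1
    have h2 : f * algebraMap K[X] (RatFunc K) f.denom = algebraMap K[X] (RatFunc K) f.num := by
      have h3 := RatFunc.num_div_denom f
      rw [div_eq_iff hq'] at h3
      exact h3.symm
    linear_combination h2 - h1
  rw [hf, mem_Linf]
  by_cases hr : f.num % f.denom = 0
  · left; simp [hr]
  · right
    have hr' : algebraMap K[X] (RatFunc K) (f.num % f.denom) ≠ 0 := by simpa using hr
    rw [RatFunc.intDegree_div hr' hq', RatFunc.intDegree_polynomial, RatFunc.intDegree_polynomial]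
    have hlt : (f.num % f.denom).natDegree < f.denom.natDegree := by
      apply natDegree_lt_natDegree hr
      exact EuclideanDomain.mod_lt _ hq
    omega

theorem polys_sup_Linf_neg_one : polys K ⊔ Linf K (-1) = ⊤ := by
  rw [eq_top_iff]
  intro f _
  obtain ⟨p, hp⟩ := exists_sub_mem_Linf f
  have : f = algebraMap K[X] (RatFunc K) p + (f - algebraMap K[X] (RatFunc K) p) := by ring
  rw [this]
  exact Submodule.add_mem_sup (algebraMap_mem_polys p) hp

theorem polys_sup_Linf_of_neg_one_le {d : ℤ} (hd : -1 ≤ d) : polys K ⊔ Linf K d = ⊤ := by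
  rw [eq_top_iff, ← polys_sup_Linf_neg_one]
  exact sup_le_sup_left (Linf_mono hd) _

/-- The inclusion of polynomials as a `K`-linear map. -/
def polyIncl : K[X] →ₗ[K] RatFunc K := (Algebra.linearMap K[X] (RatFunc K)).restrictScalars K

theorem polyIncl_apply (p : K[X]) : polyIncl p = algebraMap K[X] (RatFunc K) p := rfl

theorem polyIncl_injective : Function.Injective (polyIncl (K := K)) :=
  fun _ _ h => IsFractionRing.injective K[X] (RatFunc K) h

theorem polys_inf_Linf_eq_map (d : ℤ) :
    polys K ⊓ Linf K d = (degreeLT K (d + 1).toNat).map polyIncl := by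
  ext f
  simp only [Submodule.mem_inf, Submodule.mem_map, mem_degreeLT]
  constructor
  · rintro ⟨⟨p, rfl⟩, hp⟩
    refine ⟨p, ?_, rfl⟩
    rcases algebraMap_mem_Linf_iff.mp hp with rfl | h
    · simp
    · by_cases hp0 : p = 0
      · subst hp0
        simp
      · rw [degree_eq_natDegree hp0]
        have : p.natDegree < (d + 1).toNat := by omega
        exact_mod_cast this
  · rintro ⟨p, hp, rfl⟩
    refine ⟨algebraMap_mem_polys p, ?_⟩
    rw [polyIncl_apply, algebraMap_mem_Linf_iff]
    by_cases hp0 : p = 0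
    · exact Or.inl hp0
    · right
      rw [degree_eq_natDegree hp0] at hp
      have : p.natDegree < (d + 1).toNat := by exact_mod_cast hp
      omega

theorem finrank_polys_inf_Linf (d : ℤ) :
    Module.finrank K ↥(polys K ⊓ Linf K d) = (d + 1).toNat := by
  rw [polys_inf_Linf_eq_map]
  rw [(Submodule.equivMapOfInjective polyIncl polyIncl_injective _).symm.finrank_eq,
    (degreeLTEquiv K _).finrank_eq, Module.finrank_fin_fun]

instance finite_polys_inf_Linf (d : ℤ) : Module.Finite K ↥(polys K ⊓ Linf K d) := by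
  rw [polys_inf_Linf_eq_map]
  exact Module.Finite.equiv
    ((degreeLTEquiv K _).symm.trans (Submodule.equivMapOfInjective polyIncl polyIncl_injective _))

/-- A rational function of degree `0` differs from a constant by a function of negative degree. -/
theorem exists_sub_C_mem_Linf_of_intDegree_eq_zero {h : RatFunc K} (hh : h ≠ 0)
    (hdeg : h.intDegree = 0) : ∃ c : K, h - RatFunc.C c ∈ Linf K (-1) := by
  refine ⟨h.num.leadingCoeff, ?_⟩
  have hq : h.denom ≠ 0 := h.denom_ne_zero
  have hq' : algebraMap K[X] (RatFunc K) h.denom ≠ 0 := by simpa using hq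
  have hn : h.num ≠ 0 := RatFunc.num_ne_zero hh
  have hmonic : h.denom.Monic := RatFunc.monic_denom h
  have hdegeq : h.num.natDegree = h.denom.natDegree := by
    unfold RatFunc.intDegree at hdeg
    omega
  have hf : h - RatFunc.C h.num.leadingCoeff =
      algebraMap K[X] (RatFunc K) (h.num - C h.num.leadingCoeff * h.denom) /
        algebraMap K[X] (RatFunc K) h.denom := by
    rw [eq_div_iff hq']
    have h3 := RatFunc.num_div_denom h
    rw [div_eq_iff hq'] at h3
    rw [map_sub, map_mul, ← RatFunc.algebraMap_C, sub_mul, ← h3]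
  rw [hf, mem_Linf]
  by_cases hr : h.num - C h.num.leadingCoeff * h.denom = 0
  · left; simp [hr]
  · right
    have hr' : algebraMap K[X] (RatFunc K) (h.num - C h.num.leadingCoeff * h.denom) ≠ 0 :=
      fun h0 => hr ((map_eq_zero_iff _ (IsFractionRing.injective K[X] (RatFunc K))).mp h0)
    rw [RatFunc.intDegree_div hr' hq', RatFunc.intDegree_polynomial, RatFunc.intDegree_polynomial]
    have hlc : (C h.num.leadingCoeff * h.denom).leadingCoeff = h.num.leadingCoeff := by
      rw [leadingCoeff_mul, leadingCoeff_C, hmonic.leadingCoeff, mul_one]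
    have hlcne : h.num.leadingCoeff ≠ 0 := leadingCoeff_ne_zero.mpr hn
    have hdeg2 : (C h.num.leadingCoeff * h.denom).degree = h.num.degree := by
      rw [degree_C_mul hlcne, degree_eq_natDegree hq, degree_eq_natDegree hn, hdegeq]
    have hlt : (h.num - C h.num.leadingCoeff * h.denom).degree < h.num.degree :=
      degree_sub_lt_left hdeg2.symm hn hlc.symm
    have hlt' : (h.num - C h.num.leadingCoeff * h.denom).natDegree < h.num.natDegree :=
      natDegree_lt_natDegree hr hlt
    omega

theorem X_zpow_ne_zero (e : ℤ) : (RatFunc.X : RatFunc K) ^ e ≠ 0 :=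
  zpow_ne_zero e RatFunc.X_ne_zero

theorem intDegree_X_zpow (e : ℤ) : ((RatFunc.X : RatFunc K) ^ e).intDegree = e := by
  induction e using Int.induction_on with
  | zero => simp
  | succ n ih =>
    rw [zpow_add_one₀ RatFunc.X_ne_zero, RatFunc.intDegree_mul (X_zpow_ne_zero _)
      RatFunc.X_ne_zero, ih, RatFunc.intDegree_X]
  | pred n ih =>
    rw [zpow_sub_one₀ RatFunc.X_ne_zero, RatFunc.intDegree_mul (X_zpow_ne_zero _)
      (inv_ne_zero RatFunc.X_ne_zero), ih, RatFunc.intDegree_inv, RatFunc.intDegree_X]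
    ring

theorem X_zpow_mul_mem_Linf {d e : ℤ} {f : RatFunc K} (hf : f ∈ Linf K d) :
    (RatFunc.X : RatFunc K) ^ e * f ∈ Linf K (e + d) := by
  rcases hf with rfl | hf
  · left; simp
  · by_cases hf0 : f = 0
    · left; simp [hf0]
    · right
      rw [RatFunc.intDegree_mul (X_zpow_ne_zero e) hf0, intDegree_X_zpow]
      omega

theorem X_zpow_mem_Linf (e : ℤ) : (RatFunc.X : RatFunc K) ^ e ∈ Linf K e :=
  Or.inr (intDegree_X_zpow e).le

/-- The step of the expansion at infinity. -/
theorem exists_sub_smul_X_zpow_mem_Linf {e : ℤ} {h : RatFunc K} (hh : h ∈ Linf K e) :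
    ∃ c : K, h - c • (RatFunc.X : RatFunc K) ^ e ∈ Linf K (e - 1) := by
  rcases hh with rfl | hdeg
  · exact ⟨0, by simp⟩
  by_cases hh0 : h = 0
  · exact ⟨0, by simp [hh0]⟩
  rcases lt_or_eq_of_le hdeg with hlt | heq
  · refine ⟨0, ?_⟩
    rw [zero_smul, sub_zero]
    exact Or.inr (by omega)
  · set h' := (RatFunc.X : RatFunc K) ^ (-e) * h with hh'
    have hh'0 : h' ≠ 0 := mul_ne_zero (X_zpow_ne_zero _) hh0
    have hdeg' : h'.intDegree = 0 := by
      rw [hh', RatFunc.intDegree_mul (X_zpow_ne_zero _) hh0, intDegree_X_zpow, heq]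
      ring
    obtain ⟨c, hc⟩ := exists_sub_C_mem_Linf_of_intDegree_eq_zero hh'0 hdeg'
    refine ⟨c, ?_⟩
    have := X_zpow_mul_mem_Linf (e := e) hc
    have heq2 : (RatFunc.X : RatFunc K) ^ e * (h' - RatFunc.C c) =
        h - c • (RatFunc.X : RatFunc K) ^ e := by
      rw [hh', mul_sub, ← mul_assoc, ← zpow_add₀ RatFunc.X_ne_zero, add_neg_cancel, zpow_zero,
        one_mul, Algebra.smul_def, RatFunc.algebraMap_eq_C, mul_comm]
    rw [heq2] at this
    convert this using 2
    ring

variable (K)

/-- `c ↦ ∑ k < m, c k • x ^ (-(k+1))`. -/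
def tailMap (m : ℕ) : (Fin m → K) →ₗ[K] RatFunc K :=
  Fintype.linearCombination K (fun k : Fin m => (RatFunc.X : RatFunc K) ^ (-(k.val : ℤ) - 1))

variable {K}

theorem tailMap_apply (m : ℕ) (c : Fin m → K) :
    tailMap K m c = ∑ k : Fin m, c k • (RatFunc.X : RatFunc K) ^ (-(k.val : ℤ) - 1) := by
  simp [tailMap, Fintype.linearCombination_apply]

theorem tailMap_mem_Linf (m : ℕ) (c : Fin m → K) : tailMap K m c ∈ Linf K (-1) := by
  rw [tailMap_apply]
  refine Submodule.sum_mem _ fun k _ => Submodule.smul_mem _ _ ?_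
  exact Linf_mono (by omega) (X_zpow_mem_Linf _)

/-- Expansion at infinity up to order `m`. -/
theorem exists_tailMap_sub_mem_Linf (m : ℕ) {h : RatFunc K} (hh : h ∈ Linf K (-1)) :
    ∃ c : Fin m → K, h - tailMap K m c ∈ Linf K (-1 - m) := by
  induction m with
  | zero =>
    refine ⟨fun _ => 0, ?_⟩
    simpa [tailMap_apply] using hh
  | succ m ih =>
    obtain ⟨c, hc⟩ := ih
    obtain ⟨c', hc'⟩ := exists_sub_smul_X_zpow_mem_Linf hc
    refine ⟨Fin.snoc c c', ?_⟩
    have : h - tailMap K (m + 1) (Fin.snoc c c') =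
        h - tailMap K m c - c' • (RatFunc.X : RatFunc K) ^ (-1 - (m : ℤ)) := by
      rw [tailMap_apply, tailMap_apply, Fin.sum_univ_castSucc]
      simp only [Fin.snoc_castSucc, Fin.snoc_last, Fin.val_castSucc, Fin.val_last]
      have : (-(m : ℤ) - 1) = -1 - (m : ℤ) := by ring
      rw [this]
      ring
    rw [this]
    convert hc' using 2
    push_cast
    ring

/-- `x ^ m * tailMap c` is a polynomial of degree `< m`. -/
theorem X_pow_mul_tailMap (m : ℕ) (c : Fin m → K) :
    (RatFunc.X : RatFunc K) ^ (m : ℤ) * tailMap K m c =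
      algebraMap K[X] (RatFunc K) (∑ k : Fin m, monomial (m - 1 - k.val) (c k)) := by
  rw [tailMap_apply, Finset.mul_sum, map_sum]
  refine Finset.sum_congr rfl fun k _ => ?_
  rw [Algebra.smul_def, RatFunc.algebraMap_eq_C, mul_left_comm, ← zpow_add₀ RatFunc.X_ne_zero,
    ← C_mul_X_pow_eq_monomial, map_mul, map_pow, RatFunc.algebraMap_X, RatFunc.algebraMap_C]
  congr 1
  have hk := k.isLt
  have : (m : ℤ) + (-(k.val : ℤ) - 1) = ((m - 1 - k.val : ℕ) : ℤ) := by omega
  rw [this, zpow_natCast]

theorem tailMap_eq_zero_of_mem_Linf (m : ℕ) (c : Fin m → K)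
    (h : tailMap K m c ∈ Linf K (-1 - m)) : c = 0 := by
  have h1 := X_zpow_mul_mem_Linf (e := (m : ℤ)) h
  rw [X_pow_mul_tailMap, show (m : ℤ) + (-1 - m) = -1 by ring] at h1
  have h2 : algebraMap K[X] (RatFunc K) (∑ k : Fin m, monomial (m - 1 - k.val) (c k)) ∈
      polys K ⊓ Linf K (-1) := ⟨algebraMap_mem_polys _, h1⟩
  rw [polys_inf_Linf_neg (by norm_num), Submodule.mem_bot] at h2
  have h3 : (∑ k : Fin m, monomial (m - 1 - k.val) (c k) : K[X]) = 0 :=
    (map_eq_zero_iff _ (IsFractionRing.injective K[X] (RatFunc K))).mp h2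
  funext k₀
  have h4 := congrArg (fun q : K[X] => q.coeff (m - 1 - k₀.val)) h3
  simp only [finsetSum_coeff, coeff_monomial, coeff_zero] at h4
  rw [Finset.sum_eq_single k₀] at h4
  · simpa using h4
  · intro k _ hk
    rw [if_neg]
    intro heq
    apply hk
    apply Fin.ext
    have := k.isLt
    have := k₀.isLt
    omega
  · intro hk
    exact absurd (Finset.mem_univ _) hk

/-- The dimension of `K(X) / (K[X] + x ^ d O_∞)`. -/
theorem finrank_quotient_polys_sup_Linf (d : ℤ) :
    Module.finrank K (RatFunc K ⧸ (polys K ⊔ Linf K d)) = (-d - 1).toNat := by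
  by_cases hd : -1 ≤ d
  · rw [polys_sup_Linf_of_neg_one_le hd]
    have : (-d - 1).toNat = 0 := by omega
    rw [this]
    exact Module.finrank_zero_of_subsingleton
  · rw [not_le] at hd
    obtain ⟨m, hm⟩ : ∃ m : ℕ, d = -1 - m := ⟨(-d - 1).toNat, by omega⟩
    subst hm
    have hm' : (-(-1 - (m : ℤ)) - 1).toNat = m := by omega
    rw [hm']
    set W := polys K ⊔ Linf K (-1 - m) with hW
    have hinj : Function.Injective (W.mkQ.comp (tailMap K m)) := by
      rw [← LinearMap.ker_eq_bot, eq_bot_iff]
      intro c hc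
      rw [LinearMap.mem_ker, LinearMap.comp_apply, Submodule.mkQ_apply,
        Submodule.Quotient.mk_eq_zero, hW, Submodule.mem_sup] at hc
      obtain ⟨a, ha, g, hg, hag⟩ := hc
      have hg1 : g ∈ Linf K (-1) := Linf_mono (by omega) hg
      have ha1 : a ∈ Linf K (-1) := by
        have : a = tailMap K m c - g := by rw [← hag]; ring
        rw [this]
        exact Submodule.sub_mem _ (tailMap_mem_Linf m c) hg1
      have ha0 : a = 0 := by
        have : a ∈ polys K ⊓ Linf K (-1) := ⟨ha, ha1⟩
        rwa [polys_inf_Linf_neg (by norm_num), Submodule.mem_bot] at this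
      rw [ha0, zero_add] at hag
      rw [Submodule.mem_bot]
      exact tailMap_eq_zero_of_mem_Linf m c (hag ▸ hg)
    have hsurj : Function.Surjective (W.mkQ.comp (tailMap K m)) := by
      intro y
      obtain ⟨f, rfl⟩ := W.mkQ_surjective y
      obtain ⟨p, hp⟩ := exists_sub_mem_Linf f
      obtain ⟨c, hc⟩ := exists_tailMap_sub_mem_Linf m hp
      refine ⟨c, ?_⟩
      rw [LinearMap.comp_apply, Submodule.mkQ_apply, Submodule.mkQ_apply,
        Submodule.Quotient.eq, hW]
      have : tailMap K m c - f = -(algebraMap K[X] (RatFunc K) p) +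
          -(f - algebraMap K[X] (RatFunc K) p - tailMap K m c) := by ring
      rw [this]
      exact Submodule.add_mem_sup (Submodule.neg_mem _ (algebraMap_mem_polys p))
        (Submodule.neg_mem _ hc)
    rw [← (LinearEquiv.ofBijective _ ⟨hinj, hsurj⟩).finrank_eq, Module.finrank_fin_fun]

instance finite_quotient_polys_sup_Linf (d : ℤ) :
    Module.Finite K (RatFunc K ⧸ (polys K ⊔ Linf K d)) := by
  by_cases hd : -1 ≤ d
  · rw [polys_sup_Linf_of_neg_one_le hd]
    infer_instance
  · exact Module.finite_of_finrank_pos (by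
      rw [finrank_quotient_polys_sup_Linf]
      omega)

end

end Fermat.Agent.S20
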