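import Mathlib
import Fermat.Agent.S20.RatFuncInfty

set_option autoImplicit false

/-!
# S20 generic algebra, chunk R1: the `K`-subspaces `polyK` and `degLE m` of `K(x)`

The statements are those of the S20 skeleton; the one-dimensional core (division with remainder,
expansion at infinity, the two dimension formulas) is `Fermat.Agent.S20.RatFuncInfty`
(`polys`, `Linf`), to which `polyK` and `degLE` are definitionally equal.
-/

namespace Fermat.Agent.S20

open Polynomial

noncomputable section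

variable (K : Type*) [Field K]

/-! ### Chunk R1: the `K`-subspaces `polyK` and `degLE m` of `K(x)` -/

/-- The image of `K[x]` in `K(x)`, as a `K`-subspace. -/
def polyK : Submodule K (RatFunc K) :=
  LinearMap.range ((Algebra.linearMap K[X] (RatFunc K)).restrictScalars K)

/-- Rational functions of degree `≤ m` (together with `0`), as a `K`-subspace. -/
def degLE (m : ℤ) : Submodule K (RatFunc K) where
  carrier := {f | f = 0 ∨ f.intDegree ≤ m}
  zero_mem' := Or.inl rfl
  add_mem' := fun {_ _} ha hb => (Linf K m).add_mem' ha hb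
  smul_mem' := fun c {_} hx => (Linf K m).smul_mem' c hx

theorem polyK_eq_polys : polyK K = polys K := rfl

theorem degLE_eq_Linf (m : ℤ) : degLE K m = Linf K m := rfl

variable {K}

theorem mem_polyK_iff {f : RatFunc K} : f ∈ polyK K ↔ ∃ p : K[X], algebraMap K[X] (RatFunc K) p = f :=
  Iff.rfl

theorem mem_degLE_iff {m : ℤ} {f : RatFunc K} : f ∈ degLE K m ↔ f = 0 ∨ f.intDegree ≤ m := Iff.rfl

theorem degLE_mono {m n : ℤ} (h : m ≤ n) : degLE K m ≤ degLE K n :=
  Linf_mono h

theorem mul_mem_degLE {a b : ℤ} {f g : RatFunc K} (hf : f ∈ degLE K a) (hg : g ∈ degLE K b) :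
    f * g ∈ degLE K (a + b) := by
  rcases hf with rfl | hf
  · left; simp
  rcases hg with rfl | hg
  · left; simp
  by_cases hf0 : f = 0
  · left; simp [hf0]
  by_cases hg0 : g = 0
  · left; simp [hg0]
  right
  rw [RatFunc.intDegree_mul hf0 hg0]
  omega

theorem X_zpow_mem_degLE (m : ℤ) : (RatFunc.X : RatFunc K) ^ m ∈ degLE K m :=
  X_zpow_mem_Linf m

/-- `f ∈ degLE m ↔ x^(-m) f ∈ degLE 0`. -/
theorem mem_degLE_iff_mul_X_zpow {m : ℤ} {f : RatFunc K} :
    f ∈ degLE K m ↔ (RatFunc.X : RatFunc K) ^ (-m) * f ∈ degLE K 0 := by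
  constructor
  · intro hf
    have := mul_mem_degLE (X_zpow_mem_degLE (K := K) (-m)) hf
    rwa [neg_add_cancel] at this
  · intro hf
    have := mul_mem_degLE (X_zpow_mem_degLE (K := K) m) hf
    rwa [← mul_assoc, ← zpow_add₀ RatFunc.X_ne_zero, add_neg_cancel, zpow_zero, one_mul,
      add_zero] at this

/-- `{f | f * degLE a ⊆ degLE b} = degLE (b - a)`. -/
theorem forall_mul_mem_degLE_iff {a b : ℤ} {f : RatFunc K} :
    (∀ g ∈ degLE K a, f * g ∈ degLE K b) ↔ f ∈ degLE K (b - a) := by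
  constructor
  · intro h
    have h1 := h _ (X_zpow_mem_degLE a)
    have h2 := mul_mem_degLE h1 (X_zpow_mem_degLE (K := K) (-a))
    rwa [mul_assoc, ← zpow_add₀ RatFunc.X_ne_zero, add_neg_cancel, zpow_zero, mul_one,
      ← sub_eq_add_neg] at h2
  · intro hf g hg
    have := mul_mem_degLE hf hg
    rwa [sub_add_cancel] at this

/-- `{f | f * polyK ⊆ polyK} = polyK`. -/
theorem forall_mul_mem_polyK_iff {f : RatFunc K} :
    (∀ g ∈ polyK K, f * g ∈ polyK K) ↔ f ∈ polyK K := by
  constructor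
  · intro h
    have := h 1 ⟨1, by simp⟩
    rwa [mul_one] at this
  · rintro ⟨p, rfl⟩ g ⟨q, rfl⟩
    exact ⟨p * q, by simp⟩

/-- Division with remainder: `K(x) = K[x] ⊕ {deg ≤ -1}`. -/
theorem isCompl_polyK_degLE : IsCompl (polyK K) (degLE K (-1)) := by
  refine ⟨?_, ?_⟩
  · rw [disjoint_iff]
    exact polys_inf_Linf_neg (by norm_num)
  · rw [codisjoint_iff]
    exact polys_sup_Linf_neg_one

instance finite_polyK_inf_degLE (m : ℤ) : Module.Finite K ↥(polyK K ⊓ degLE K m) :=
  finite_polys_inf_Linf m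

/-- Polynomials of degree `≤ m` have dimension `m + 1`. -/
theorem finrank_polyK_inf_degLE (m : ℤ) :
    Module.finrank K ↥(polyK K ⊓ degLE K m) = (m + 1).toNat :=
  finrank_polys_inf_Linf m

instance finite_quot_polyK_sup_degLE (m : ℤ) :
    Module.Finite K (RatFunc K ⧸ (polyK K ⊔ degLE K m)) :=
  finite_quotient_polys_sup_Linf m

/-- `K(x) / (K[x] + {deg ≤ m})` has dimension `-m - 1` (basis `x^(-1), ..., x^(m+1)`). -/
theorem finrank_quot_polyK_sup_degLE (m : ℤ) :
    Module.finrank K (RatFunc K ⧸ (polyK K ⊔ degLE K m)) = (-m - 1).toNat :=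
  finrank_quotient_polys_sup_Linf m

/-! ### The same algebra in terms of the canonical `polys` / `Linf` (helper7's `RatFuncInfty`) -/

theorem mul_mem_Linf {a b : ℤ} {f g : RatFunc K} (hf : f ∈ Linf K a) (hg : g ∈ Linf K b) :
    f * g ∈ Linf K (a + b) :=
  mul_mem_degLE (K := K) hf hg

theorem one_mem_Linf_zero : (1 : RatFunc K) ∈ Linf K 0 :=
  Or.inr (by simp)

theorem mul_mem_Linf_zero {f g : RatFunc K} (hf : f ∈ Linf K 0) (hg : g ∈ Linf K 0) :
    f * g ∈ Linf K 0 := by
  have := mul_mem_Linf hf hg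
  rwa [add_zero] at this

theorem C_mem_Linf_zero (c : K) : (RatFunc.C c : RatFunc K) ∈ Linf K 0 :=
  Or.inr (by simp)

theorem mem_Linf_iff_mul_X_zpow {m : ℤ} {f : RatFunc K} :
    f ∈ Linf K m ↔ f * (RatFunc.X : RatFunc K) ^ (-m) ∈ Linf K 0 := by
  rw [mul_comm]
  exact mem_degLE_iff_mul_X_zpow (K := K)

theorem forall_mul_mem_Linf_iff (g : RatFunc K) (a e : ℤ) :
    (∀ f ∈ Linf K a, g * f ∈ Linf K e) ↔ g ∈ Linf K (e - a) :=
  forall_mul_mem_degLE_iff (K := K)

theorem mul_mem_polys {f g : RatFunc K} (hf : f ∈ polys K) (hg : g ∈ polys K) :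
    f * g ∈ polys K := by
  obtain ⟨p, rfl⟩ := hf
  obtain ⟨q, rfl⟩ := hg
  exact ⟨p * q, by simp⟩

theorem one_mem_polys : (1 : RatFunc K) ∈ polys K := ⟨1, by simp⟩

theorem forall_mul_mem_polys_iff (g : RatFunc K) :
    (∀ f ∈ polys K, g * f ∈ polys K) ↔ g ∈ polys K :=
  forall_mul_mem_polyK_iff (K := K)

theorem isCompl_polys_Linf : IsCompl (polys K) (Linf K (-1)) :=
  isCompl_polyK_degLE (K := K)

end

end Fermat.Agent.S20
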