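import Mathlib
import Fermat.Agent.S20.RatFuncInfty
import Fermat.Agent.S20.DegLE

set_option autoImplicit false

/-!
# S20 (Dedekind–Weber): lattice pairs in normal form, coordinate version

`V` is a finite-dimensional `K(X)`-vector space with basis `b`.  For a family `S i` of `K`-subspaces
of `K(X)` we put `coordSub b S = {v | ∀ i, b.repr v i ∈ S i}`.  For `M = coordSub b polys` (the
`K[X]`-lattice spanned by `b`) and `M' = coordSub b (Linf ∘ d)` (the `O_∞`-lattice spanned by the
`x ^ d i • b i`) we compute `dim (M ∩ M')`, `dim V / (M + M')` and the duals with respect to a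
bilinear form for which `b` has a dual basis.
-/

namespace Fermat.Agent.S20

open Polynomial Module

noncomputable section

section Pi

variable {R : Type*} [Ring R] {ι : Type*} {Ms : ι → Type*} [∀ i, AddCommGroup (Ms i)]
  [∀ i, Module R (Ms i)]

/-- The product of submodules is the product of the submodules. -/
def piSubEquiv (p : ∀ i, Submodule R (Ms i)) :
    ↥(Submodule.pi Set.univ p) ≃ₗ[R] ∀ i, ↥(p i) where
  toFun x i := ⟨x.1 i, x.2 i trivial⟩
  invFun y := ⟨fun i => (y i : Ms i), fun i _ => (y i).2⟩
  map_add' _ _ := rfl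
  map_smul' _ _ := rfl
  left_inv _ := rfl
  right_inv _ := rfl

theorem pi_inf_pi (p q : ∀ i, Submodule R (Ms i)) :
    Submodule.pi Set.univ p ⊓ Submodule.pi Set.univ q = Submodule.pi Set.univ (fun i => p i ⊓ q i) := by
  ext x
  simp only [Submodule.mem_inf, Submodule.mem_pi, Set.mem_univ, forall_true_left]
  exact ⟨fun h i => ⟨h.1 i, h.2 i⟩, fun h => ⟨fun i => (h i).1, fun i => (h i).2⟩⟩

theorem pi_sup_pi (p q : ∀ i, Submodule R (Ms i)) :
    Submodule.pi Set.univ p ⊔ Submodule.pi Set.univ q = Submodule.pi Set.univ (fun i => p i ⊔ q i) := by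
  apply le_antisymm
  · exact sup_le (Submodule.pi_mono fun i _ => le_sup_left) (Submodule.pi_mono fun i _ => le_sup_right)
  · intro x hx
    have h : ∀ i, ∃ y ∈ p i, ∃ z ∈ q i, y + z = x i := fun i =>
      Submodule.mem_sup.mp (hx i trivial)
    choose y hy z hz hyz using h
    have : x = y + z := funext fun i => (hyz i).symm
    rw [this]
    exact Submodule.add_mem_sup (fun i _ => hy i) (fun i _ => hz i)

end Pi

variable {K : Type*} [Field K] {V : Type*} [AddCommGroup V] [Module K V] [Module (RatFunc K) V]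
  [IsScalarTower K (RatFunc K) V] {ι : Type*} [Fintype ι] [DecidableEq ι]

/-- Coordinates with respect to a `K(X)`-basis, as a `K`-linear equivalence. -/
def coordEquiv (b : Basis ι (RatFunc K) V) : V ≃ₗ[K] (ι → RatFunc K) :=
  b.equivFun.restrictScalars K

omit [DecidableEq ι] in
theorem coordEquiv_apply (b : Basis ι (RatFunc K) V) (v : V) (i : ι) :
    coordEquiv b v i = b.repr v i := rfl

/-- The vectors whose `i`-th coordinate lies in `S i`. -/
def coordSub (b : Basis ι (RatFunc K) V) (S : ι → Submodule K (RatFunc K)) : Submodule K V :=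
  (Submodule.pi Set.univ S).comap (coordEquiv b).toLinearMap

omit [DecidableEq ι] in
theorem mem_coordSub {b : Basis ι (RatFunc K) V} {S : ι → Submodule K (RatFunc K)} {v : V} :
    v ∈ coordSub b S ↔ ∀ i, b.repr v i ∈ S i := by
  simp [coordSub, coordEquiv_apply]

omit [DecidableEq ι] in
theorem coordSub_inf (b : Basis ι (RatFunc K) V) (S T : ι → Submodule K (RatFunc K)) :
    coordSub b S ⊓ coordSub b T = coordSub b (fun i => S i ⊓ T i) := by
  unfold coordSub
  rw [← Submodule.comap_inf, pi_inf_pi]

omit [DecidableEq ι] in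
theorem coordSub_sup (b : Basis ι (RatFunc K) V) (S T : ι → Submodule K (RatFunc K)) :
    coordSub b S ⊔ coordSub b T = coordSub b (fun i => S i ⊔ T i) := by
  unfold coordSub
  rw [← pi_sup_pi]
  show Submodule.comap ((coordEquiv b : V ≃ₗ[K] (ι → RatFunc K)) : V →ₗ[K] (ι → RatFunc K)) _ ⊔
    Submodule.comap ((coordEquiv b : V ≃ₗ[K] (ι → RatFunc K)) : V →ₗ[K] (ι → RatFunc K)) _ =
    Submodule.comap ((coordEquiv b : V ≃ₗ[K] (ι → RatFunc K)) : V →ₗ[K] (ι → RatFunc K)) _
  rw [Submodule.comap_equiv_eq_map_symm, Submodule.comap_equiv_eq_map_symm,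
    Submodule.comap_equiv_eq_map_symm, ← Submodule.map_sup]

/-- `coordSub b S` is the product of the `S i`. -/
def coordSubEquiv (b : Basis ι (RatFunc K) V) (S : ι → Submodule K (RatFunc K)) :
    ↥(coordSub b S) ≃ₗ[K] ∀ i, ↥(S i) :=
  ((coordEquiv b).ofSubmodule' (Submodule.pi Set.univ S)).trans (piSubEquiv S)

/-- `V / coordSub b S` is the product of the `K(X) / S i`. -/
def coordQuotEquiv (b : Basis ι (RatFunc K) V) (S : ι → Submodule K (RatFunc K)) :
    (V ⧸ coordSub b S) ≃ₗ[K] ∀ i, RatFunc K ⧸ S i :=
  (Submodule.Quotient.equiv (coordSub b S) (Submodule.pi Set.univ S) (coordEquiv b)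
    (Submodule.map_comap_eq_of_surjective (coordEquiv b).surjective _)).trans
    (Submodule.quotientPi S)

variable (b : Basis ι (RatFunc K) V) (d : ι → ℤ)

/-- The `K[X]`-lattice spanned by `b`. -/
def latPoly : Submodule K V := coordSub b (fun _ => polys K)

/-- The `O_∞`-lattice spanned by the `x ^ d i • b i`. -/
def latInf : Submodule K V := coordSub b (fun i => Linf K (d i))

omit [DecidableEq ι] in
theorem latPoly_inf_latInf :
    latPoly b ⊓ latInf b d = coordSub b (fun i => polys K ⊓ Linf K (d i)) :=
  coordSub_inf b _ _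

omit [DecidableEq ι] in
theorem latPoly_sup_latInf :
    latPoly b ⊔ latInf b d = coordSub b (fun i => polys K ⊔ Linf K (d i)) :=
  coordSub_sup b _ _

omit [DecidableEq ι] in
instance finite_latPoly_inf_latInf : Module.Finite K ↥(latPoly b ⊓ latInf b d) := by
  rw [latPoly_inf_latInf]
  exact Module.Finite.equiv (coordSubEquiv b _).symm

omit [DecidableEq ι] in
theorem finrank_latPoly_inf_latInf :
    finrank K ↥(latPoly b ⊓ latInf b d) = ∑ i, (d i + 1).toNat := by
  rw [latPoly_inf_latInf, (coordSubEquiv b _).finrank_eq, Module.finrank_pi_fintype]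
  exact Finset.sum_congr rfl fun i _ => finrank_polys_inf_Linf (d i)

instance finite_quotient_latPoly_sup_latInf : Module.Finite K (V ⧸ (latPoly b ⊔ latInf b d)) := by
  rw [latPoly_sup_latInf]
  exact Module.Finite.equiv (coordQuotEquiv b _).symm

theorem finrank_quotient_latPoly_sup_latInf :
    finrank K (V ⧸ (latPoly b ⊔ latInf b d)) = ∑ i, (-d i - 1).toNat := by
  rw [latPoly_sup_latInf, (coordQuotEquiv b _).finrank_eq, Module.finrank_pi_fintype]
  exact Finset.sum_congr rfl fun i _ => finrank_quotient_polys_sup_Linf (d i)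

omit [DecidableEq ι] in
/-- `latPoly b` is the `K[X]`-span of the basis `b`. -/
theorem mem_latPoly_iff_mem_span [Module K[X] V] [IsScalarTower K[X] (RatFunc K) V] (v : V) :
    v ∈ latPoly b ↔ v ∈ Submodule.span K[X] (Set.range b) := by
  rw [Basis.mem_span_iff_repr_mem, latPoly, mem_coordSub]
  rfl

omit [DecidableEq ι] in
theorem mem_latInf_iff {v : V} : v ∈ latInf b d ↔ ∀ i, b.repr v i ∈ Linf K (d i) := mem_coordSub

omit [DecidableEq ι] in
theorem mem_latPoly_iff {v : V} : v ∈ latPoly b ↔ ∀ i, b.repr v i ∈ polys K := mem_coordSub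

omit [DecidableEq ι] in
/-- Multiplication by `x ^ e` shifts `latInf`. -/
theorem X_zpow_smul_mem_latInf_iff (e : ℤ) {v : V} :
    ((RatFunc.X : RatFunc K) ^ e) • v ∈ latInf b d ↔ v ∈ latInf b (fun i => d i - e) := by
  rw [mem_latInf_iff, mem_latInf_iff]
  refine forall_congr' fun i => ?_
  rw [map_smul, Finsupp.smul_apply, smul_eq_mul]
  constructor
  · intro h
    have h2 := X_zpow_mul_mem_Linf (e := -e) h
    rw [← mul_assoc, ← zpow_add₀ RatFunc.X_ne_zero, neg_add_cancel, zpow_zero, one_mul] at h2
    convert h2 using 2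
    ring
  · intro h
    have h2 := X_zpow_mul_mem_Linf (e := e) h
    convert h2 using 2
    ring

section Dual

variable (B : LinearMap.BilinForm (RatFunc K) V)

/-- The dual of a `K`-subspace `M` of `V` with respect to `B` and a target subspace `T ⊆ K(X)`. -/
def dualK (M : Submodule K V) (T : Submodule K (RatFunc K)) : Submodule K V where
  carrier := {y | ∀ m ∈ M, B y m ∈ T}
  zero_mem' := by
    intro m _
    simp
  add_mem' := by
    intro y z hy hz m hm
    rw [map_add, LinearMap.add_apply]
    exact T.add_mem (hy m hm) (hz m hm)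
  smul_mem' := by
    intro c y hy m hm
    rw [← IsScalarTower.algebraMap_smul (RatFunc K) c y, map_smul, LinearMap.smul_apply,
      algebraMap_smul]
    exact T.smul_mem c (hy m hm)

omit [Fintype ι] [DecidableEq ι] in
theorem mem_dualK {M : Submodule K V} {T : Submodule K (RatFunc K)} {y : V} :
    y ∈ dualK B M T ↔ ∀ m ∈ M, B y m ∈ T := Iff.rfl

variable {B} {b} {bd : Basis ι (RatFunc K) V}

omit [Module K V] [IsScalarTower K (RatFunc K) V] in
theorem bilin_eq_sum (hB : ∀ i j, B (bd i) (b j) = if i = j then 1 else 0) (y m : V) :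
    B y m = ∑ i, bd.repr y i * b.repr m i := by
  conv_lhs => rw [← bd.sum_repr y, ← b.sum_repr m]
  simp only [map_sum, LinearMap.sum_apply, map_smul, LinearMap.smul_apply, smul_eq_mul, hB,
    mul_ite, mul_one, mul_zero]
  refine Finset.sum_congr rfl fun i _ => ?_
  rw [Finset.sum_ite_eq' Finset.univ i, if_pos (Finset.mem_univ _), mul_comm]

theorem dualK_latPoly (hB : ∀ i j, B (bd i) (b j) = if i = j then 1 else 0) :
    dualK B (latPoly b) (polys K) = latPoly bd := by
  ext y
  rw [mem_dualK]
  show _ ↔ y ∈ coordSub bd _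
  rw [mem_coordSub]
  constructor
  · intro h i
    have hm : b i ∈ latPoly b := by
      rw [latPoly, mem_coordSub]
      intro j
      rw [Basis.repr_self, Finsupp.single_apply]
      split_ifs
      · exact one_mem_polys
      · exact Submodule.zero_mem _
    have := h (b i) hm
    rw [bilin_eq_sum hB] at this
    simpa [Basis.repr_self, Finsupp.single_apply] using this
  · intro h m hm
    rw [latPoly, mem_coordSub] at hm
    rw [bilin_eq_sum hB]
    exact Submodule.sum_mem _ fun i _ => mul_mem_polys (h i) (hm i)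

theorem dualK_latInf (hB : ∀ i j, B (bd i) (b j) = if i = j then 1 else 0) (e : ℤ) :
    dualK B (latInf b d) (Linf K e) = latInf bd (fun i => e - d i) := by
  ext y
  rw [mem_dualK]
  show _ ↔ y ∈ coordSub bd _
  rw [mem_coordSub]
  constructor
  · intro h i
    have hm : ((RatFunc.X : RatFunc K) ^ (d i)) • b i ∈ latInf b d := by
      rw [latInf, mem_coordSub]
      intro j
      rw [map_smul, Basis.repr_self, Finsupp.smul_apply, Finsupp.single_apply]
      split_ifs with hij
      · subst hij
        rw [smul_eq_mul, mul_one]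
        exact X_zpow_mem_Linf _
      · rw [smul_zero]
        exact Submodule.zero_mem _
    have h1 := h _ hm
    rw [bilin_eq_sum hB] at h1
    simp only [map_smul, Basis.repr_self, Finsupp.smul_apply, Finsupp.single_apply, smul_eq_mul,
      mul_ite, mul_one, mul_zero] at h1
    rw [Finset.sum_ite_eq Finset.univ i, if_pos (Finset.mem_univ _)] at h1
    have h2 := X_zpow_mul_mem_Linf (e := -(d i)) h1
    have h3 : (RatFunc.X : RatFunc K) ^ (-(d i)) * (bd.repr y i * RatFunc.X ^ d i) =
        bd.repr y i := by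
      rw [mul_comm, mul_assoc, ← zpow_add₀ RatFunc.X_ne_zero, add_neg_cancel, zpow_zero, mul_one]
    rw [h3] at h2
    convert h2 using 2
    ring
  · intro h m hm
    rw [latInf, mem_coordSub] at hm
    rw [bilin_eq_sum hB]
    refine Submodule.sum_mem _ fun i _ => ?_
    have := mul_mem_Linf (h i) (hm i)
    convert this using 2
    ring

/-- **Duality for lattice pairs in normal form**: `dim V / (M + M') = dim (M^* ∩ x⁻² M'^*)`. -/
theorem finrank_quotient_eq_finrank_dualK
    (hB : ∀ i j, B (bd i) (b j) = if i = j then 1 else 0) :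
    finrank K (V ⧸ (latPoly b ⊔ latInf b d)) =
      finrank K ↥(dualK B (latPoly b) (polys K) ⊓ dualK B (latInf b d) (Linf K (-2))) := by
  rw [dualK_latPoly hB, dualK_latInf d hB, finrank_latPoly_inf_latInf,
    finrank_quotient_latPoly_sup_latInf]
  refine Finset.sum_congr rfl fun i _ => ?_
  congr 1
  ring

end Dual

end

end Fermat.Agent.S20
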