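import Mathlib

set_option autoImplicit false
set_option linter.unusedSectionVars false

/-!
# S20 generic algebra: a fractional ideal over a PID base has a basis

`A` a PID with fraction field `Kx`, `F / Kx` finite, `B` the integral closure of `A` in `F`
(module-finite over `A`).  Every nonzero fractional ideal `I` of `B` is a free `A`-module, and an
`A`-basis of `I` is a `Kx`-basis of `F` (generic version of Mathlib's
`NumberField.basisOfFractionalIdeal`).
-/

namespace Fermat.Agent.S20

open Module
open scoped nonZeroDivisors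

section

variable {A Kx F B : Type*} [CommRing A] [IsDomain A] [IsPrincipalIdealRing A]
  [Field Kx] [Algebra A Kx] [IsFractionRing A Kx]
  [Field F] [Algebra Kx F] [Algebra A F] [IsScalarTower A Kx F]
  [CommRing B] [IsDomain B] [Algebra A B] [Algebra B F] [IsScalarTower A B F]
  [IsIntegralClosure B A F] [IsFractionRing B F] [Module.Finite A B] [Module.IsTorsionFree A B]

theorem fracIdeal_free (I : FractionalIdeal B⁰ F) : Module.Free A I := by
  have hden : (I.den : B) ≠ 0 := nonZeroDivisors.coe_ne_zero I.den
  exact Free.of_equiv (LinearEquiv.restrictScalars A (I.equivNum hden)).symm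

theorem fracIdeal_finite (I : FractionalIdeal B⁰ F) : Module.Finite A I := by
  have hden : (I.den : B) ≠ 0 := nonZeroDivisors.coe_ne_zero I.den
  exact Module.Finite.of_surjective
    (LinearEquiv.restrictScalars A (I.equivNum hden)).symm.toLinearMap (LinearEquiv.surjective _)

variable (A Kx) in
/-- A nonzero fractional ideal contains a nonzero element of the base ring `A`. -/
theorem exists_ne_zero_algebraMap_mem (I : FractionalIdeal B⁰ F) (hI : I ≠ 0) :
    ∃ n : A, n ≠ 0 ∧ ∀ b : B, algebraMap A F n * algebraMap B F b ∈ I := by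
  have hnum : I.num ≠ ⊥ := FractionalIdeal.num_eq_zero_iff.not.mpr hI
  obtain ⟨y, hy, hy0⟩ := Submodule.exists_mem_ne_zero_of_ne_bot hnum
  have hint : IsIntegral A y := IsIntegralClosure.isIntegral A F y
  have hcomap := Ideal.comap_ne_bot_of_integral_mem hy0 hy hint
  obtain ⟨n, hn, hn0⟩ := Submodule.exists_mem_ne_zero_of_ne_bot hcomap
  refine ⟨n, hn0, fun b => ?_⟩
  apply I.num_le
  refine (IsLocalization.mem_coeSubmodule _ _).mpr ⟨algebraMap A B n * b, ?_, ?_⟩
  · exact Ideal.mul_mem_right _ _ hn
  · rw [map_mul, ← IsScalarTower.algebraMap_apply]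

variable (A Kx) in
theorem fracIdeal_isLocalizedModule [Algebra.IsAlgebraic Kx F] (I : FractionalIdeal B⁰ F)
    (hI : I ≠ 0) :
    IsLocalizedModule A⁰ ((Submodule.subtype (I : Submodule B F)).restrictScalars A) where
  map_units x := by
    rw [← (Algebra.lmul _ _).commutes, Algebra.lmul_isUnit_iff, isUnit_iff_ne_zero]
    have hx : (x : A) ≠ 0 := nonZeroDivisors.coe_ne_zero x
    rw [IsScalarTower.algebraMap_apply A Kx F]
    exact (map_ne_zero _).mpr ((map_ne_zero_iff _ (IsFractionRing.injective A Kx)).mpr hx)
  surj x := by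
    have hloc : IsLocalization (Algebra.algebraMapSubmonoid B A⁰) F :=
      IsIntegralClosure.isLocalization A Kx F B
    obtain ⟨⟨a, _, d, hd, rfl⟩, h⟩ := IsLocalization.surj (Algebra.algebraMapSubmonoid B A⁰) x
    obtain ⟨n, hn0, hn⟩ := exists_ne_zero_algebraMap_mem A I hI
    refine ⟨⟨⟨algebraMap A F n * algebraMap B F a, hn a⟩, d * n, ?_⟩, ?_⟩
    · exact Submonoid.mul_mem _ hd (mem_nonZeroDivisors_of_ne_zero hn0)
    · simp_rw [LinearMap.coe_restrictScalars, Submodule.coe_subtype] at h ⊢
      rw [← h]
      simp only [Submonoid.mk_smul, Algebra.smul_def, map_mul,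
        ← IsScalarTower.algebraMap_apply A B F]
      ring
  exists_of_eq h :=
    ⟨1, by rwa [one_smul, one_smul,
      ← (Submodule.injective_subtype (I : Submodule B F)).eq_iff]⟩

variable (A Kx) in
/-- **Basis of a fractional ideal**: a nonzero fractional ideal `I` of `B` has an `A`-basis which
is a `Kx`-basis of `F`. -/
theorem exists_basis_span_eq [FiniteDimensional Kx F] (I : FractionalIdeal B⁰ F) (hI : I ≠ 0) :
    ∃ a : Module.Basis (Fin (Module.finrank Kx F)) Kx F,
      Submodule.span A (Set.range a) = (I : Submodule B F).restrictScalars A := by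
  haveI := fracIdeal_free (A := A) I
  haveI := fracIdeal_finite (A := A) I
  haveI := fracIdeal_isLocalizedModule A Kx I hI
  let f : ↥(I : Submodule B F) →ₗ[A] F := (Submodule.subtype (I : Submodule B F)).restrictScalars A
  let b : Module.Basis (Free.ChooseBasisIndex A I) A I := Free.chooseBasis A I
  let a₀ : Module.Basis (Free.ChooseBasisIndex A I) Kx F := b.ofIsLocalizedModule Kx A⁰ f
  have hspan : Submodule.span A (Set.range a₀) = LinearMap.range f :=
    b.ofIsLocalizedModule_span Kx A⁰ f
  have hcard : Fintype.card (Free.ChooseBasisIndex A I) = Module.finrank Kx F :=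
    (Module.finrank_eq_card_basis a₀).symm
  let e : Free.ChooseBasisIndex A I ≃ Fin (Module.finrank Kx F) := Fintype.equivFinOfCardEq hcard
  refine ⟨a₀.reindex e, ?_⟩
  rw [Module.Basis.range_reindex, hspan]
  ext x
  simp [f]

variable (A Kx) in
/-- The trace dual of a fractional ideal is spanned by the trace-dual basis. -/
theorem span_traceDual_eq_dual [FiniteDimensional Kx F] [Algebra.IsSeparable Kx F]
    [IsDedekindDomain B] (I : FractionalIdeal B⁰ F) (hI : I ≠ 0)
    {ι : Type*} [Finite ι] [DecidableEq ι] (a : Module.Basis ι Kx F)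
    (ha : Submodule.span A (Set.range a) = (I : Submodule B F).restrictScalars A) :
    Submodule.span A (Set.range a.traceDual) =
      ((FractionalIdeal.dual A Kx I : FractionalIdeal B⁰ F) : Submodule B F).restrictScalars A := by
  rw [FractionalIdeal.coe_dual A Kx hI,
    Submodule.traceDual_span_of_basis A (I : Submodule B F) a ha.symm]

end

end Fermat.Agent.S20
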