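import Mathlib
import Fermat.Agent.S24.FF.FundId
import Fermat.Agent.S20.RRDefs
import Fermat.Agent.S20.DedekindCount

set_option autoImplicit false
set_option linter.unusedSectionVars false

/-!
# S20 (L4), finite chart: `Lsub (finPl K x) D` is a fractional ideal of the ring of integers

Instance form (as in `S24/FF/FundId.lean`): `F` is a finite extension of `K(X)`,
`x = algebraMap K[X] F X`, `B = FunctionField.ringOfIntegers K F = integralClosure K[X] F`.
The finite places (`0 ≤ ord_v x`) are exactly the places `finPlace w` of the height one primes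
`w` of `B`, and for a divisor `D`
`Lsub (finPl K x) D = idealOf (w ↦ -D (finPlace w))` (as sets, and as `K`-submodules).
-/

noncomputable section

namespace Fermat.Agent.S20

open AlgebraicCurve Polynomial FunctionField IsDedekindDomain IsDedekindDomain.HeightOneSpectrum
open Fermat.Agent.S24.FF nonZeroDivisors

variable {K F : Type*} [Field K] [Field F] [Algebra K F] [IsAlgClosed K] [CharZero K]
  [Algebra K[X] F] [Algebra (RatFunc K) F] [IsScalarTower K K[X] F]
  [IsScalarTower K[X] (RatFunc K) F] [IsScalarTower K (RatFunc K) F]
  [FiniteDimensional (RatFunc K) F]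

attribute [local instance] fundIdAlgebra fundId_isScalarTower fundId_isSeparable

/-- the (finite) place of `F/K` attached to a height one prime of the ring of integers -/
def finPlace (w : HeightOneSpectrum (ringOfIntegers K F)) : Place K F :=
  Place.ofHeightOneSpectrum (K := K) (F := F) w

theorem finPlace_injective :
    Function.Injective (finPlace (K := K) (F := F)) :=
  ofHeightOneSpectrum_injective (K := K) (F := F)

theorem finPlace_ord (w : HeightOneSpectrum (ringOfIntegers K F)) (f : F) :
    (finPlace (K := K) w).ord f = -WithZero.log (w.valuation F f) :=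
  ord_ofHeightOneSpectrum w f

theorem finPlace_mem_finPl (w : HeightOneSpectrum (ringOfIntegers K F)) :
    finPlace (K := K) w ∈ finPl K (algebraMap K[X] F X) := by
  rw [mem_finPl]
  apply DiffOrd.ord_nonneg_of_mem
  rw [IsScalarTower.algebraMap_apply K[X] (ringOfIntegers K F) F]
  exact algebraMap_mem_ofHeightOneSpectrum (K := K) (F := F) w _

theorem exists_finPlace_eq {v : Place K F} (hv : v ∈ finPl K (algebraMap K[X] F X)) :
    ∃ w : HeightOneSpectrum (ringOfIntegers K F), finPlace w = v := by
  have hx : algebraMap K[X] F X ∈ v.toValuationSubring := DiffOrd.mem_of_ord_nonneg v hv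
  have hR : ∀ r : ringOfIntegers K F, algebraMap (ringOfIntegers K F) F r ∈ v.toValuationSubring :=
    integralClosure_mem v hx
  obtain ⟨w, hw⟩ := exists_heightOneSpectrum_of_le (K := K) (R := ringOfIntegers K F) v hR
  exact ⟨w, hw.symm⟩

theorem range_finPlace :
    Set.range (finPlace (K := K) (F := F)) = finPl K (algebraMap K[X] F X) := by
  ext v
  constructor
  · rintro ⟨w, rfl⟩
    exact finPlace_mem_finPl w
  · exact exists_finPlace_eq

/-- the exponents of the fractional ideal `Lsub (finPl K x) D` -/
def finExps (D : Place K F →₀ ℤ) : HeightOneSpectrum (ringOfIntegers K F) →₀ ℤ :=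
  Finsupp.comapDomain finPlace (-D) finPlace_injective.injOn

@[simp]
theorem finExps_apply (D : Place K F →₀ ℤ) (w : HeightOneSpectrum (ringOfIntegers K F)) :
    finExps D w = -D (finPlace w) := by
  simp [finExps, Finsupp.comapDomain_apply]

/-- **Finite output lemma**: membership in `Lsub (finPl K x) D` is membership in the fractional
ideal of `B` with exponents `-D (finPlace w)`. -/
theorem mem_Lsub_finPl_iff (D : Place K F →₀ ℤ) (f : F) :
    f ∈ Lsub (finPl K (algebraMap K[X] F X)) ⇑D ↔
      f ∈ idealOf (R := ringOfIntegers K F) F (finExps D) := by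
  rcases eq_or_ne f 0 with rfl | hf
  · exact ⟨fun _ => FractionalIdeal.zero_mem _, fun _ => zero_mem _⟩
  rw [mem_Lsub_of_ne_zero hf, mem_idealOf_iff_le_log _ hf]
  constructor
  · intro h w
    rw [finExps_apply, ← finPlace_ord (K := K)]
    exact h _ (finPlace_mem_finPl w)
  · intro h v hv
    obtain ⟨w, rfl⟩ := exists_finPlace_eq hv
    have := h w
    rwa [finExps_apply, ← finPlace_ord (K := K)] at this

theorem coe_Lsub_finPl (D : Place K F →₀ ℤ) :
    ((Lsub (finPl K (algebraMap K[X] F X)) ⇑D : Submodule K F) : Set F) =
      ((idealOf (R := ringOfIntegers K F) F (finExps D) :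
        FractionalIdeal (ringOfIntegers K F)⁰ F) : Set F) := by
  ext f
  exact mem_Lsub_finPl_iff D f

theorem Lsub_finPl_eq_restrictScalars (D : Place K F →₀ ℤ) :
    Lsub (finPl K (algebraMap K[X] F X)) ⇑D =
      ((idealOf (R := ringOfIntegers K F) F (finExps D) :
        FractionalIdeal (ringOfIntegers K F)⁰ F) : Submodule (ringOfIntegers K F) F).restrictScalars
          K := by
  ext f
  exact mem_Lsub_finPl_iff D f

end Fermat.Agent.S20
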