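import Mathlib
import Fermat.Agent.S20.L4Fin
import Fermat.Agent.S20.FracIdealBasis
import Fermat.Agent.S20.DWCoord

set_option autoImplicit false
set_option linter.unusedSectionVars false

/-!
# S20 (L4.1): the finite chart `Lsub (finPl K x) D` is a `K[X]`-lattice `latPoly a`

Instance form as in `S20/L4Fin.lean`.  For every divisor `D` there is a `K(X)`-basis `a` of `F`
(indexed by `Fin n`, `n = [F : K(X)]`) with `Lsub (finPl K x) D = latPoly a`.
-/

noncomputable section

namespace Fermat.Agent.S20

open AlgebraicCurve Polynomial FunctionField IsDedekindDomain IsDedekindDomain.HeightOneSpectrum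
open Fermat.Agent.S24.FF nonZeroDivisors

variable {K F : Type*} [Field K] [Field F] [Algebra K F] [IsAlgClosed K] [CharZero K]
  [Algebra K[X] F] [Algebra (RatFunc K) F] [IsScalarTower K K[X] F]
  [IsScalarTower K[X] (RatFunc K) F] [IsScalarTower K (RatFunc K) F]
  [FiniteDimensional (RatFunc K) F]

attribute [local instance] fundIdAlgebra fundId_isScalarTower fundId_isSeparable

/-- **(L4.1)** `Lsub (finPl K x) D` is the `K[X]`-lattice spanned by a `K(X)`-basis of `F`. -/
theorem exists_basis_Lsub_finPl_eq_latPoly (D : Place K F →₀ ℤ) :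
    ∃ a : Module.Basis (Fin (Module.finrank (RatFunc K) F)) (RatFunc K) F,
      Lsub (finPl K (algebraMap K[X] F X)) ⇑D = latPoly a ∧
      Submodule.span K[X] (Set.range a) =
        ((idealOf (R := ringOfIntegers K F) F (finExps D) :
          FractionalIdeal (ringOfIntegers K F)⁰ F) :
            Submodule (ringOfIntegers K F) F).restrictScalars K[X] := by
  have htf : Module.IsTorsionFree K[X] (ringOfIntegers K F) := fundId_isTorsionFree K F
  have hfin : Module.Finite K[X] (ringOfIntegers K F) := inferInstance
  obtain ⟨a, ha⟩ := exists_basis_span_eq K[X] (RatFunc K)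
    (idealOf (R := ringOfIntegers K F) F (finExps D)) (idealOf_ne_zero _)
  refine ⟨a, ?_, ha⟩
  ext f
  rw [mem_Lsub_finPl_iff, mem_latPoly_iff_mem_span, ha]
  rfl

end Fermat.Agent.S20
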