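import Mathlib

set_option autoImplicit false

/-!
# The different at a tamely ramified prime

For an extension `B / A` of Dedekind domains and a prime `P` of `B` over a maximal ideal `p` of `A`
with ramification index `e` and inertia degree `f` such that `e * f` is nonzero in `A ⧸ p`
(e.g. the residue field has characteristic zero), the exponent of `P` in the different ideal is
exactly `e - 1`.  Mathlib has the lower bound `pow_sub_one_dvd_differentIdeal`; here we prove that
`P ^ e` does not divide the different.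
-/

namespace Fermat.Agent.S20

open Algebra Module Ideal

attribute [local instance] FractionRing.liftAlgebra FractionRing.isScalarTower_liftAlgebra

section core

variable (A : Type*) {B : Type*} [CommRing A] [CommRing B] [Algebra A B]
  [IsDedekindDomain A] [IsDedekindDomain B] [IsTorsionFree A B] [Module.Finite A B]

/-- Core computation: if `pB = P * Q` with `P`, `Q` coprime and `dim_{A/p} (B/P)` is nonzero in
`A/p`, then `P` does not divide the different ideal. -/
theorem not_dvd_differentIdeal_of_natCast_finrank_ne_zero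
    [Algebra.IsSeparable (FractionRing A) (FractionRing B)]
    {p : Ideal A} [p.IsMaximal] (P Q : Ideal B)
    (hPQ : IsCoprime P Q) (hP : P * Q = Ideal.map (algebraMap A B) p)
    (hle : p ≤ P.comap (algebraMap A B))
    (hn : letI := Ideal.Quotient.algebraQuotientOfLEComap hle
          ((Module.finrank (A ⧸ p) (B ⧸ P) : ℕ) : A ⧸ p) ≠ 0) :
    ¬ P ∣ differentIdeal A B := by
  letI : Field (A ⧸ p) := Ideal.Quotient.field p
  letI : Algebra (A ⧸ p) (B ⧸ P) := Ideal.Quotient.algebraQuotientOfLEComap hle
  letI : Algebra (A ⧸ p) (B ⧸ Q) := Ideal.Quotient.algebraQuotientOfLEComap (by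
      rw [← Ideal.map_le_iff_le_comap, ← hP]
      exact Ideal.mul_le_right)
  have : IsScalarTower A (A ⧸ p) (B ⧸ Q) := .of_algebraMap_eq' rfl
  have : IsScalarTower A (A ⧸ p) (B ⧸ P) := .of_algebraMap_eq' rfl
  have : Module.Finite (A ⧸ p) (B ⧸ Q) :=
    Module.Finite.of_restrictScalars_finite A (A ⧸ p) (B ⧸ Q)
  have : Module.Finite (A ⧸ p) (B ⧸ P) :=
    Module.Finite.of_restrictScalars_finite A (A ⧸ p) (B ⧸ P)
  let e : (B ⧸ p.map (algebraMap A B)) ≃ₐ[A ⧸ p] ((B ⧸ P) × B ⧸ Q) :=
    { __ := (Ideal.quotEquivOfEq hP.symm).trans (Ideal.quotientMulEquivQuotientProd P Q hPQ),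
      commutes' := Quotient.ind fun _ ↦ rfl }
  obtain ⟨y, hy⟩ := Ideal.Quotient.mk_surjective (e.symm (1, 0))
  refine not_dvd_differentIdeal_of_intTrace_not_mem A P Q hP y ?_ ?_
  · have := congr((e $hy).2)
    simp at this
    simpa [e, Ideal.Quotient.eq_zero_iff_mem] using this
  · rw [← Ideal.Quotient.eq_zero_iff_mem, ← Algebra.trace_quotient_eq_of_isDedekindDomain,
      hy, Algebra.trace_eq_of_algEquiv, Algebra.trace_prod_apply]
    simp only [map_zero, add_zero]
    rw [← map_one (algebraMap (A ⧸ p) (B ⧸ P)), Algebra.trace_algebraMap]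
    simpa using hn

end core

section tame

variable {A : Type*} {B : Type*} [CommRing A] [CommRing B] [Algebra A B]
  [IsDedekindDomain A] [IsDedekindDomain B] [IsTorsionFree A B] [Module.Finite A B]
  [Algebra.IsSeparable (FractionRing A) (FractionRing B)]

set_option linter.deprecated false in
theorem not_pow_ramificationIdx'_dvd_differentIdeal
    {p : Ideal A} [p.IsMaximal] (hp : p ≠ ⊥) (P : Ideal B) [P.IsPrime] [P.LiesOver p]
    (htame : ((p.ramificationIdx' P * p.inertiaDeg' P : ℕ) : A ⧸ p) ≠ 0) :
    ¬ P ^ (p.ramificationIdx' P) ∣ differentIdeal A B := by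
  have hp' : p.map (algebraMap A B) ≠ ⊥ := Ideal.map_ne_bot_of_ne_bot hp
  have hPbot : P ≠ ⊥ := ne_bot_of_le_ne_bot hp' (map_le_of_le_comap (P.over_def p).le)
  have hPmax : P.IsMaximal := Ideal.IsPrime.isMaximal inferInstance hPbot
  obtain ⟨Q, h₁, h₂⟩ := Ideal.eq_prime_pow_mul_coprime hp' P
  rw [← IsDedekindDomain.ramificationIdx'_eq_normalizedFactors_count hp' inferInstance hPbot] at h₂
  have he : p.ramificationIdx' P ≠ 0 := by
    exact IsDedekindDomain.ramificationIdx'_ne_zero hp' inferInstance
      (map_le_of_le_comap (P.over_def p).le)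
  have hcop : IsCoprime (P ^ p.ramificationIdx' P) Q :=
    (Ideal.isCoprime_iff_sup_eq.mpr h₁).pow_left
  refine not_dvd_differentIdeal_of_natCast_finrank_ne_zero A _ Q hcop h₂.symm
    (Ideal.map_le_iff_le_comap.mp le_pow_ramificationIdx') ?_
  have := Ideal.finrank_prime_pow_ramificationIdx p P hPbot he
  have h2 : p.inertiaDeg' P = @finrank (A ⧸ p) (B ⧸ P) _ _
      (@Algebra.toModule _ _ _ _ <|
        @Quotient.algebraQuotientOfRamificationIdxNeZero _ _ _ _ _ _ _ ⟨he⟩) := by
    rw [inertiaDeg'_algebraMap]
  show ((finrank (A ⧸ p) (B ⧸ P ^ p.ramificationIdx' P) : ℕ) : A ⧸ p) ≠ 0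
  rw [this, ← h2]
  exact htame

/-- **Tame ramification**: if `e * f` is nonzero in the residue field `A ⧸ p`, then `P ^ e` does
not divide the different ideal. -/
theorem not_pow_ramificationIdx_dvd_differentIdeal
    {p : Ideal A} [p.IsMaximal] (hp : p ≠ ⊥) (P : Ideal B) [P.IsPrime] [P.LiesOver p]
    (htame : ((P.ramificationIdx A * P.inertiaDeg A : ℕ) : A ⧸ p) ≠ 0) :
    ¬ P ^ (P.ramificationIdx A) ∣ differentIdeal A B := by
  have hp' : p.map (algebraMap A B) ≠ ⊥ := Ideal.map_ne_bot_of_ne_bot hp
  have hPbot : P ≠ ⊥ := ne_bot_of_le_ne_bot hp' (map_le_of_le_comap (P.over_def p).le)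
  have hPmax : P.IsMaximal := Ideal.IsPrime.isMaximal inferInstance hPbot
  rw [← ramificationIdx'_eq_ramificationIdx p P hp]
  apply not_pow_ramificationIdx'_dvd_differentIdeal hp P
  rwa [ramificationIdx'_eq_ramificationIdx p P hp, inertiaDeg'_eq_inertiaDeg p P]

/-- Lower bound (Mathlib), restated with `Ideal.ramificationIdx`. -/
theorem pow_ramificationIdx_sub_one_dvd_differentIdeal
    {p : Ideal A} [p.IsMaximal] (hp : p ≠ ⊥) (P : Ideal B) [P.IsPrime] [P.LiesOver p] :
    P ^ (P.ramificationIdx A - 1) ∣ differentIdeal A B := by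
  have hp' : p.map (algebraMap A B) ≠ ⊥ := Ideal.map_ne_bot_of_ne_bot hp
  apply pow_sub_one_dvd_differentIdeal A P _ hp
  rw [IsDedekindDomain.ramificationIdx_eq_multiplicity p P hp']
  exact pow_multiplicity_dvd _ _

/-- **Tame ramification**: the exact exponent of `P` in the different is `e - 1`. -/
theorem emultiplicity_differentIdeal_of_tame
    {p : Ideal A} [p.IsMaximal] (hp : p ≠ ⊥) (P : Ideal B) [P.IsPrime] [P.LiesOver p]
    (htame : ((P.ramificationIdx A * P.inertiaDeg A : ℕ) : A ⧸ p) ≠ 0) :
    emultiplicity P (differentIdeal A B) = ((P.ramificationIdx A - 1 : ℕ) : ℕ∞) := by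
  rw [emultiplicity_eq_coe]
  refine ⟨pow_ramificationIdx_sub_one_dvd_differentIdeal hp P, ?_⟩
  have hpos : 0 < P.ramificationIdx A := ramificationIdx_pos P A
  rw [Nat.sub_add_cancel hpos]
  exact not_pow_ramificationIdx_dvd_differentIdeal hp P htame

omit [IsDedekindDomain A] [IsDedekindDomain B] [IsTorsionFree A B]
  [Algebra.IsSeparable (FractionRing A) (FractionRing B)] in
/-- The tameness hypothesis is automatic when the residue field has characteristic zero. -/
theorem natCast_ramificationIdx_mul_inertiaDeg_ne_zero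
    {p : Ideal A} [p.IsMaximal] [CharZero (A ⧸ p)] (P : Ideal B) [P.IsPrime] [P.LiesOver p] :
    ((P.ramificationIdx A * P.inertiaDeg A : ℕ) : A ⧸ p) ≠ 0 := by
  have h1 : 0 < P.ramificationIdx A := ramificationIdx_pos P A
  have h2 : 0 < P.inertiaDeg A := inertiaDeg_pos P A
  exact_mod_cast (Nat.mul_pos h1 h2).ne'

/-- In residue characteristic zero the exponent of `P` in the different is exactly `e - 1`. -/
theorem emultiplicity_differentIdeal_of_charZero
    {p : Ideal A} [p.IsMaximal] [CharZero (A ⧸ p)] (hp : p ≠ ⊥) (P : Ideal B) [P.IsPrime]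
    [P.LiesOver p] :
    emultiplicity P (differentIdeal A B) = ((P.ramificationIdx A - 1 : ℕ) : ℕ∞) :=
  emultiplicity_differentIdeal_of_tame hp P (natCast_ramificationIdx_mul_inertiaDeg_ne_zero P)

open UniqueFactorizationMonoid in
/-- Count form: the prime `P` occurs exactly `e - 1` times in the different. -/
theorem count_normalizedFactors_differentIdeal_of_tame
    {p : Ideal A} [p.IsMaximal] (hp : p ≠ ⊥) (P : Ideal B) [P.IsPrime] [P.LiesOver p]
    (htame : ((P.ramificationIdx A * P.inertiaDeg A : ℕ) : A ⧸ p) ≠ 0) :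
    Multiset.count P (normalizedFactors (differentIdeal A B)) = P.ramificationIdx A - 1 := by
  have hpos : 0 < P.ramificationIdx A := ramificationIdx_pos P A
  apply Ideal.count_normalizedFactors_eq
  · exact Ideal.le_of_dvd (pow_ramificationIdx_sub_one_dvd_differentIdeal hp P)
  · rw [Nat.sub_add_cancel hpos, ← Ideal.dvd_iff_le]
    exact not_pow_ramificationIdx_dvd_differentIdeal hp P htame

end tame

section sep

/-- Separability of the abstract fraction fields from separability of any model `L / K`. -/
theorem isSeparable_fractionRing (A B K L : Type*) [CommRing A] [CommRing B] [Algebra A B]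
    [IsDomain A] [IsDomain B] [IsTorsionFree A B]
    [Field K] [Field L] [Algebra A K] [IsFractionRing A K] [Algebra B L]
    [IsFractionRing B L] [Algebra K L] [Algebra A L] [IsScalarTower A K L] [IsScalarTower A B L]
    [Algebra.IsSeparable K L] :
    Algebra.IsSeparable (FractionRing A) (FractionRing B) := by
  refine Algebra.IsSeparable.of_equiv_equiv (FractionRing.algEquiv A K).symm.toRingEquiv
    (FractionRing.algEquiv B L).symm.toRingEquiv ?_
  apply IsLocalization.ringHom_ext (nonZeroDivisors A)
  ext x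
  simp only [RingHom.coe_comp, RingHom.coe_coe, Function.comp_apply, AlgEquiv.coe_ringEquiv,
    AlgEquiv.commutes, ← IsScalarTower.algebraMap_apply]
  rw [IsScalarTower.algebraMap_apply A B L, AlgEquiv.commutes,
    ← IsScalarTower.algebraMap_apply]

end sep

section count

open IsDedekindDomain

variable {A : Type*} {B : Type*} [CommRing A] [CommRing B] [Algebra A B]
  [IsDedekindDomain A] [IsDedekindDomain B] [IsTorsionFree A B] [Module.Finite A B]
  (K L : Type*) [Field K] [Field L] [Algebra A K] [IsFractionRing A K] [Algebra B L]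
  [IsFractionRing B L] [Algebra K L] [Algebra A L] [IsScalarTower A K L] [IsScalarTower A B L]
  [Algebra.IsSeparable K L]

include K in
/-- Valuation form: `ord_P (different) = e - 1` at a tame prime. -/
theorem count_differentIdeal_of_tame
    {p : Ideal A} [p.IsMaximal] (hp : p ≠ ⊥) (v : HeightOneSpectrum B) [v.asIdeal.LiesOver p]
    (htame : ((v.asIdeal.ramificationIdx A * v.asIdeal.inertiaDeg A : ℕ) : A ⧸ p) ≠ 0) :
    FractionalIdeal.count L v (differentIdeal A B : FractionalIdeal (nonZeroDivisors B) L) =
      ((v.asIdeal.ramificationIdx A - 1 : ℕ) : ℤ) := by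
  have := isSeparable_fractionRing A B K L
  have hD : differentIdeal A B ≠ 0 := differentIdeal_ne_bot
  rw [FractionalIdeal.count_coe L v hD,
    Ideal.count_associates_factors_eq hD v.isPrime v.ne_bot,
    count_normalizedFactors_differentIdeal_of_tame hp v.asIdeal htame]

variable [FiniteDimensional K L] [IsIntegralClosure B A L]

/-- Valuation form: `ord_P (codifferent) = -(e - 1)` at a tame prime, where the codifferent is
`FractionalIdeal.dual A K 1`. -/
theorem count_dual_one_of_tame
    {p : Ideal A} [p.IsMaximal] (hp : p ≠ ⊥) (v : HeightOneSpectrum B) [v.asIdeal.LiesOver p]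
    (htame : ((v.asIdeal.ramificationIdx A * v.asIdeal.inertiaDeg A : ℕ) : A ⧸ p) ≠ 0) :
    FractionalIdeal.count L v
        (FractionalIdeal.dual A K (1 : FractionalIdeal (nonZeroDivisors B) L)) =
      -((v.asIdeal.ramificationIdx A - 1 : ℕ) : ℤ) := by
  rw [← count_differentIdeal_of_tame K L hp v htame, coeIdeal_differentIdeal A K L B,
    FractionalIdeal.count_inv, neg_neg]

/-- Residue characteristic zero: `ord_P (codifferent) = -(e - 1)`. -/
theorem count_dual_one_of_charZero
    {p : Ideal A} [p.IsMaximal] [CharZero (A ⧸ p)] (hp : p ≠ ⊥) (v : HeightOneSpectrum B)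
    [v.asIdeal.LiesOver p] :
    FractionalIdeal.count L v
        (FractionalIdeal.dual A K (1 : FractionalIdeal (nonZeroDivisors B) L)) =
      -((v.asIdeal.ramificationIdx A - 1 : ℕ) : ℤ) := by
  exact count_dual_one_of_tame K L hp v
    (natCast_ramificationIdx_mul_inertiaDeg_ne_zero v.asIdeal)

end count

end Fermat.Agent.S20
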