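import Mathlib
import Fermat.Agent.S20.TameDifferent

/-!
# S20 (L4) chunks DD3 + DD4: the trace dual of a fractional ideal, valuation form

`A ⊆ B` Dedekind domains, `B` finite torsion-free over `A`, `K = Frac A`, `L = Frac B` separable
over `K`, residue characteristic zero.

* `count_dual_of_charZero`: `ord_w (dual I) = -(e_w - 1) - ord_w I`.
* `finite_ramificationIdx_ne_one`: only finitely many primes are ramified.
* `coe_dual_eq`: the trace-form description of the dual.
* `valuation_algebraMap_generator`: `w (π) = exp (-e_w)` for a generator `π` of the prime below.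
-/

set_option autoImplicit false
set_option linter.unusedSectionVars false
set_option linter.style.haveILetI false

namespace Fermat.Agent.S20

open IsDedekindDomain Ideal Module

section

variable {A : Type*} {B : Type*} [CommRing A] [CommRing B] [Algebra A B]
  [IsDedekindDomain A] [IsDedekindDomain B] [IsTorsionFree A B] [Module.Finite A B]
  (K L : Type*) [Field K] [Field L] [Algebra A K] [IsFractionRing A K] [Algebra B L]
  [IsFractionRing B L] [Algebra K L] [Algebra A L] [IsScalarTower A K L] [IsScalarTower A B L]
  [Algebra.IsSeparable K L] [FiniteDimensional K L] [IsIntegralClosure B A L]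

/-- **(DD3a)** `ord_w (dual I) = -(e_w - 1) - ord_w I` in residue characteristic zero. -/
theorem count_dual_of_charZero {p : Ideal A} [p.IsMaximal] [CharZero (A ⧸ p)] (hp : p ≠ ⊥)
    (v : HeightOneSpectrum B) [v.asIdeal.LiesOver p]
    {I : FractionalIdeal (nonZeroDivisors B) L} (hI : I ≠ 0) :
    FractionalIdeal.count L v (FractionalIdeal.dual A K I) =
      -((v.asIdeal.ramificationIdx A - 1 : ℕ) : ℤ) - FractionalIdeal.count L v I := by
  rw [FractionalIdeal.dual_eq_mul_inv,
    FractionalIdeal.count_mul L v (FractionalIdeal.dual_ne_zero A K one_ne_zero) (inv_ne_zero hI),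
    count_dual_one_of_charZero K L hp v, FractionalIdeal.count_inv]
  ring

theorem under_isMaximal (w : HeightOneSpectrum B) : (w.asIdeal.under A).IsMaximal := by
  haveI : w.asIdeal.IsMaximal := w.isMaximal
  exact Ideal.isMaximal_comap_of_isIntegral_of_isMaximal w.asIdeal

theorem under_ne_bot (w : HeightOneSpectrum B) : w.asIdeal.under A ≠ ⊥ := by
  intro h
  exact w.ne_bot (Ideal.eq_bot_of_comap_eq_bot h)

/-- **(DD3a')** the same with the prime below computed from `w`. -/
theorem count_dual_of_forall_charZero (hchar : ∀ p : Ideal A, p.IsMaximal → CharZero (A ⧸ p))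
    (v : HeightOneSpectrum B) {I : FractionalIdeal (nonZeroDivisors B) L} (hI : I ≠ 0) :
    FractionalIdeal.count L v (FractionalIdeal.dual A K I) =
      -((v.asIdeal.ramificationIdx A - 1 : ℕ) : ℤ) - FractionalIdeal.count L v I := by
  haveI := under_isMaximal (A := A) v
  haveI := hchar _ (under_isMaximal (A := A) v)
  haveI : v.asIdeal.LiesOver (v.asIdeal.under A) := ⟨rfl⟩
  exact count_dual_of_charZero K L (under_ne_bot (A := A) v) v hI

include K L in
/-- **(DD3b)** only finitely many primes of `B` are ramified over `A`. -/
theorem finite_ramificationIdx_ne_one :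
    {w : HeightOneSpectrum B | w.asIdeal.ramificationIdx A ≠ 1}.Finite := by
  have := isSeparable_fractionRing A B K L
  have hD : differentIdeal A B ≠ 0 := differentIdeal_ne_bot
  refine (Ideal.finite_factors hD).subset ?_
  intro w hw
  haveI := under_isMaximal (A := A) w
  haveI : w.asIdeal.LiesOver (w.asIdeal.under A) := ⟨rfl⟩
  have hpos : 0 < w.asIdeal.ramificationIdx A := ramificationIdx_pos w.asIdeal A
  have h2 : 1 ≤ w.asIdeal.ramificationIdx A - 1 := by
    have : w.asIdeal.ramificationIdx A ≠ 1 := hw
    omega
  have hdvd := pow_ramificationIdx_sub_one_dvd_differentIdeal (under_ne_bot (A := A) w) w.asIdeal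
  exact dvd_trans (dvd_pow_self _ (by omega)) hdvd

/-- **(DD3c)** the trace dual in terms of the trace form. -/
theorem coe_dual_eq
    {I : FractionalIdeal (nonZeroDivisors B) L} (hI : I ≠ 0) :
    ((FractionalIdeal.dual A K I : FractionalIdeal (nonZeroDivisors B) L) : Set L) =
      {y | ∀ m ∈ I, Algebra.traceForm K L y m ∈ (algebraMap A K).range} := by
  ext y
  exact FractionalIdeal.mem_dual hI

/-- **(DD4)** ramification index = order of a generator of the prime below. -/
theorem valuation_algebraMap_generator {p : Ideal A} (w : HeightOneSpectrum B)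
    [w.asIdeal.LiesOver p] {π : A} (hπ : π ≠ 0) (hpπ : p = Ideal.span {π}) :
    w.valuation L (algebraMap A L π) =
      WithZero.exp (-(w.asIdeal.ramificationIdx A : ℤ)) := by
  have hinj : Function.Injective (algebraMap A B) := FaithfulSMul.algebraMap_injective A B
  have hπB : algebraMap A B π ≠ 0 := fun h => hπ (hinj (by rw [h, map_zero]))
  have hmap : p.map (algebraMap A B) = Ideal.span {algebraMap A B π} := by
    rw [hpπ, Ideal.map_span, Set.image_singleton]
  have hmap0 : p.map (algebraMap A B) ≠ ⊥ := by
    rw [hmap, Ne, Ideal.span_singleton_eq_bot]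
    exact hπB
  haveI := w.isPrime
  rw [IsScalarTower.algebraMap_apply A B L, HeightOneSpectrum.valuation_of_algebraMap,
    HeightOneSpectrum.intValuation_eq_exp_neg_multiplicity w hπB, ← hmap,
    ← IsDedekindDomain.ramificationIdx_eq_multiplicity p w.asIdeal hmap0]

end

end Fermat.Agent.S20
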