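import Mathlib

set_option autoImplicit false

/-!
# S20 generic algebra: fractional ideals of a Dedekind domain via valuations

For a Dedekind domain `B` with fraction field `F`:
* `valuation_eq_exp_neg_count`: `w(f) = exp (-(count w (f)))` for `f ≠ 0`;
* `le_iff_forall_count_le`: `J ≤ I ↔ ∀ w, count w I ≤ count w J`;
* `mem_iff_forall_valuation_le`: `f ∈ I ↔ ∀ w, w(f) ≤ exp (-(count w I))`.
-/

namespace Fermat.Agent.S20

open IsDedekindDomain
open scoped nonZeroDivisors

section

variable {B F : Type*} [CommRing B] [IsDedekindDomain B] [Field F] [Algebra B F]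
  [IsFractionRing B F]

/-- The valuation of a nonzero element is given by the count of its principal fractional ideal. -/
theorem valuation_eq_exp_neg_count (w : HeightOneSpectrum B) {f : F} (hf : f ≠ 0) :
    w.valuation F f =
      WithZero.exp (-(FractionalIdeal.count F w (FractionalIdeal.spanSingleton B⁰ f))) := by
  obtain ⟨r, s, hs, rfl⟩ := IsFractionRing.div_surjective B f
  have hs0 : s ≠ 0 := nonZeroDivisors.ne_zero hs
  have hr0 : r ≠ 0 := by
    rintro rfl
    simp at hf
  have hI : FractionalIdeal.spanSingleton B⁰ (algebraMap B F r / algebraMap B F s) ≠ 0 := by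
    rwa [ne_eq, FractionalIdeal.spanSingleton_eq_zero_iff]
  have heq : FractionalIdeal.spanSingleton B⁰ (algebraMap B F r / algebraMap B F s) =
      FractionalIdeal.spanSingleton B⁰ (algebraMap B F s)⁻¹ * ((Ideal.span {r} : Ideal B) :
        FractionalIdeal B⁰ F) := by
    rw [FractionalIdeal.coeIdeal_span_singleton, FractionalIdeal.spanSingleton_mul_spanSingleton,
      div_eq_inv_mul]
  rw [FractionalIdeal.count_well_defined F w hI heq, map_div₀, HeightOneSpectrum.valuation_of_algebraMap,
    HeightOneSpectrum.valuation_of_algebraMap, w.intValuation_if_neg hr0, w.intValuation_if_neg hs0,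
    ← WithZero.exp_sub]
  congr 1
  ring

/-- A finite product of nonnegative powers of primes is an integral ideal. -/
theorem finprod_zpow_le_one (n : HeightOneSpectrum B → ℤ) (hn : ∀ w, 0 ≤ n w) :
    ∏ᶠ w : HeightOneSpectrum B, ((w.asIdeal : FractionalIdeal B⁰ F)) ^ (n w) ≤ 1 := by
  refine finprod_induction (p := fun J : FractionalIdeal B⁰ F => J ≤ 1) le_rfl ?_ ?_
  · intro x y hx hy
    calc x * y ≤ 1 * 1 := mul_le_mul' hx hy
      _ = 1 := one_mul 1
  · intro w
    obtain ⟨m, hm⟩ := Int.eq_ofNat_of_zero_le (hn w)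
    rw [hm, zpow_natCast, ← FractionalIdeal.coeIdeal_pow]
    exact FractionalIdeal.coeIdeal_le_one

/-- Containment of nonzero fractional ideals is detected by counts. -/
theorem le_iff_forall_count_le {I J : FractionalIdeal B⁰ F} (hI : I ≠ 0) (hJ : J ≠ 0) :
    J ≤ I ↔ ∀ w : HeightOneSpectrum B,
      FractionalIdeal.count F w I ≤ FractionalIdeal.count F w J := by
  refine ⟨fun h w => FractionalIdeal.count_mono F w hJ h, fun h => ?_⟩
  have hQ : J * I⁻¹ ≠ 0 := mul_ne_zero hJ (inv_ne_zero hI)
  have hle : J * I⁻¹ ≤ 1 := by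
    rw [← FractionalIdeal.finprod_heightOneSpectrum_factorization' F hQ]
    apply finprod_zpow_le_one
    intro w
    rw [FractionalIdeal.count_mul F w hJ (inv_ne_zero hI), FractionalIdeal.count_inv]
    linarith [h w]
  calc J = J * I⁻¹ * I := by rw [mul_assoc, inv_mul_cancel₀ hI, mul_one]
    _ ≤ 1 * I := mul_le_mul' hle le_rfl
    _ = I := one_mul I

/-- Membership in a nonzero fractional ideal is detected by valuations. -/
theorem mem_iff_forall_valuation_le {I : FractionalIdeal B⁰ F} (hI : I ≠ 0) (f : F) :
    f ∈ I ↔ ∀ w : HeightOneSpectrum B,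
      w.valuation F f ≤ WithZero.exp (-(FractionalIdeal.count F w I)) := by
  rcases eq_or_ne f 0 with rfl | hf
  · simp only [map_zero, zero_le, implies_true, iff_true]
    exact (I : Submodule B F).zero_mem
  have hJ : FractionalIdeal.spanSingleton B⁰ f ≠ 0 := by
    rwa [ne_eq, FractionalIdeal.spanSingleton_eq_zero_iff]
  rw [← FractionalIdeal.spanSingleton_le_iff_mem, le_iff_forall_count_le hI hJ]
  refine forall_congr' fun w => ?_
  rw [valuation_eq_exp_neg_count w hf, WithZero.exp_le_exp, neg_le_neg_iff]

end

end Fermat.Agent.S20
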