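import Mathlib
import Fermat.Agent.S20.RRDefs
import Fermat.Agent.S24.FF.FundId

set_option autoImplicit false
set_option linter.unusedSectionVars false

/-!
# S20 layer (L4.6): `L(0) = K`

A function without poles is constant.
-/

namespace Fermat.Agent.S20

open AlgebraicCurve Polynomial IntermediateField
open Fermat.Agent.S24.FF

section

variable {K F : Type*} [Field K] [Field F] [Algebra K F] [IsAlgClosed K] [CharZero K]

/-- A nonconstant function has a pole. -/
theorem exists_pole_of_not_mem_range (hF : IsFF1 K F) {f : F}
    (hf : f ∉ Set.range (algebraMap K F)) : ∃ v : Place K F, v.ord f < 0 := by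
  have htr : Transcendental K f := transcendental_of_not_mem_range hf
  have hsum := sum_ord_polesOf hF htr
  have hfd : FiniteDimensional K⟮f⟯ F := hF.finiteDimensional htr
  have hpos : 0 < Module.finrank K⟮f⟯ F := Module.finrank_pos
  by_contra hno
  push Not at hno
  have hempty : polesOf K f = ∅ := by
    ext v
    simp only [Set.mem_empty_iff_false, iff_false]
    intro hv
    exact absurd (hno v) (not_le.mpr hv)
  rw [hempty, finsum_mem_empty] at hsum
  omega

/-- (L4.6) `L(0) = K`. -/
theorem RRSpace_zero_of_isFF1 (hF : IsFF1 K F) :
    RRSpace (0 : Place K F → ℤ) = LinearMap.range (Algebra.linearMap K F) := by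
  ext f
  rw [mem_RRSpace, LinearMap.mem_range]
  constructor
  · rintro (rfl | hf)
    · exact ⟨0, by simp⟩
    · by_contra hne
      have hnr : f ∉ Set.range (algebraMap K F) := by
        rintro ⟨a, rfl⟩
        exact hne ⟨a, rfl⟩
      obtain ⟨v, hv⟩ := exists_pole_of_not_mem_range hF hnr
      have := hf v
      simp only [Pi.zero_apply, neg_zero] at this
      omega
  · rintro ⟨a, rfl⟩
    right
    intro v
    simp only [Pi.zero_apply, neg_zero, Algebra.linearMap_apply]
    rw [ord_algebraMap]

theorem finrank_RRSpace_zero_of_isFF1 (hF : IsFF1 K F) :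
    Module.finrank K (RRSpace (0 : Place K F → ℤ)) = 1 := by
  rw [RRSpace_zero_of_isFF1 hF]
  have hinj : Function.Injective (Algebra.linearMap K F) := (algebraMap K F).injective
  rw [LinearMap.finrank_range_of_inj hinj, Module.finrank_self]

end

section InstanceForm

variable {K F : Type*} [Field K] [Field F] [Algebra K F] [IsAlgClosed K] [CharZero K]
  [Algebra K[X] F] [Algebra (RatFunc K) F] [IsScalarTower K K[X] F]
  [IsScalarTower K[X] (RatFunc K) F] [IsScalarTower K (RatFunc K) F]
  [FiniteDimensional (RatFunc K) F]

omit [IsAlgClosed K] [CharZero K] in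
/-- In the instance form, `x = algebraMap K[X] F X` is transcendental. -/
theorem transcendental_xOf : Transcendental K (algebraMap K[X] F X) := by
  rintro ⟨p, hp0, hp⟩
  apply hp0
  rw [Polynomial.aeval_algebraMap_apply, Polynomial.aeval_X_left_apply] at hp
  have hinj : Function.Injective (algebraMap K[X] F) := by
    rw [IsScalarTower.algebraMap_eq K[X] (RatFunc K) F]
    exact (algebraMap (RatFunc K) F).injective.comp (IsFractionRing.injective K[X] (RatFunc K))
  exact hinj (by rw [hp, map_zero])

omit [IsAlgClosed K] [CharZero K] in
/-- The instance form gives a function field in one variable. -/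
theorem isFF1_of_instances : IsFF1 K F :=
  ⟨algebraMap K[X] F X, transcendental_xOf,
    FunctionField.finiteDimensional_of_adjoin_transcendental (F := K) (K := F) transcendental_xOf⟩

/-- (L4.6), instance form: `L(0) = K`. -/
theorem RRSpace_zero_of_instances :
    RRSpace (0 : Place K F → ℤ) = LinearMap.range (Algebra.linearMap K F) :=
  RRSpace_zero_of_isFF1 isFF1_of_instances

theorem finrank_RRSpace_zero_of_instances : Module.finrank K (RRSpace (0 : Place K F → ℤ)) = 1 :=
  finrank_RRSpace_zero_of_isFF1 isFF1_of_instances

end InstanceForm

end Fermat.Agent.S20
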