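import Mathlib
import Fermat.Agent.S20.L4Fin
import Fermat.Agent.S20.DDDual
import Fermat.Agent.S20.FracIdealVal
import Fermat.Agent.S20.DWCoord
import Fermat.Agent.S20.RRConst
import Fermat.Agent.S24.FF.DiffOrdFF

set_option autoImplicit false

/-!
# S20 (L4.3) + finite half of (L4.W): the trace dual of the finite part of `L(D)`

Instance form (same context and local instances as `S20/L4Fin.lean`): `x = algebraMap K[X] F X`,
`B = FunctionField.ringOfIntegers K F`.

* `exists_liesOver_X_sub_C w`: every height one prime of `B` lies over some `(X - c)` and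
  `ord_v (x - c) = e_w`;
* `Wdx_finPlace w : Wdx K x (finPlace w) = e_w - 1`;
* `dualK_Lsub_finPl D : dualK Tr (Lsub (finPl K x) D) (polys K) = Lsub (finPl K x) (Wdx - D)`.
-/

noncomputable section

namespace Fermat.Agent.S20

open AlgebraicCurve Polynomial FunctionField IsDedekindDomain IsDedekindDomain.HeightOneSpectrum
open Fermat.Agent.S24.FF nonZeroDivisors IntermediateField


variable {K F : Type*} [Field K] [Field F] [Algebra K F] [IsAlgClosed K] [CharZero K]
  [Algebra K[X] F] [Algebra (RatFunc K) F] [IsScalarTower K K[X] F]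
  [IsScalarTower K[X] (RatFunc K) F] [IsScalarTower K (RatFunc K) F]
  [FiniteDimensional (RatFunc K) F]

attribute [local instance] fundIdAlgebra fundId_isScalarTower fundId_isSeparable

/-- every height one prime of the ring of integers lies over some `(X - c)`, and the order of
`x - c` at its place is the ramification index. -/
theorem exists_liesOver_X_sub_C (w : HeightOneSpectrum (ringOfIntegers K F)) :
    ∃ c : K, w.asIdeal.LiesOver (Ideal.span {X - C c} : Ideal K[X]) ∧
      (finPlace (K := K) w).ord (algebraMap K[X] F X - algebraMap K F c) =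
        (w.asIdeal.ramificationIdx K[X] : ℤ) := by
  have hF : IsFF1 K F := isFF1_of_instances
  have hx := transcendental_xOf (K := K) (F := F)
  set v := finPlace (K := K) w with hv
  have hv0 : 0 ≤ v.ord (algebraMap K[X] F X) := finPlace_mem_finPl w
  obtain ⟨c, hc | hc⟩ := exists_const_sub_ord_pos hF v hv0
  · exact absurd (hc ▸ isAlgebraic_algebraMap c) hx
  refine ⟨c, ?_⟩
  have hxc : algebraMap K[X] F (X - C c) = algebraMap K[X] F X - algebraMap K F c := by
    rw [map_sub, IsScalarTower.algebraMap_apply K K[X] F]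
    rfl
  have hne0 : algebraMap K[X] F (X - C c) ≠ 0 := by
    intro h0
    rw [← hxc, h0, Place.ord_zero] at hc
    exact lt_irrefl _ hc
  have hlt : w.valuation F (algebraMap K[X] F (X - C c)) < 1 := by
    rw [← hxc, hv, finPlace_ord] at hc
    have h2 : WithZero.log (w.valuation F (algebraMap K[X] F (X - C c))) < 0 := by linarith
    have h3 : w.valuation F (algebraMap K[X] F (X - C c)) ≠ 0 :=
      (Valuation.ne_zero_iff _).mpr hne0
    rwa [← WithZero.log_one, WithZero.log_lt_log h3 one_ne_zero] at h2
  have hlt' : w.valuation F (algebraMap (ringOfIntegers K F) F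
      (algebraMap K[X] (ringOfIntegers K F) (X - C c))) < 1 := by
    rwa [← IsScalarTower.algebraMap_apply]
  have hmem : algebraMap K[X] (ringOfIntegers K F) (X - C c) ∈ w.asIdeal :=
    (w.valuation_lt_one_iff_mem _).mp hlt'
  have hle : (Ideal.span {X - C c} : Ideal K[X]) ≤ w.asIdeal.under K[X] := by
    rw [Ideal.span_singleton_le_iff_mem]
    exact hmem
  have hp := fundId_isMaximal_span_X_sub_C K c
  have hlies : w.asIdeal.LiesOver (Ideal.span {X - C c} : Ideal K[X]) := by
    refine ⟨?_⟩
    have hpr : (w.asIdeal.under K[X]).IsPrime := Ideal.IsPrime.under K[X] w.asIdeal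
    exact hp.eq_of_le hpr.ne_top hle
  refine ⟨hlies, ?_⟩
  rw [← hxc, hv, finPlace_ord, fundId_valuation_eq K F c w, WithZero.log_exp, neg_neg]

/-- (L4.W), finite half: `ord_v (dx) = e_v - 1` at the finite places. -/
theorem Wdx_finPlace (w : HeightOneSpectrum (ringOfIntegers K F)) :
    Wdx K (algebraMap K[X] F X) (finPlace w) = (w.asIdeal.ramificationIdx K[X] : ℤ) - 1 := by
  have hF : IsFF1 K F := isFF1_of_instances
  obtain ⟨c, -, hc⟩ := exists_liesOver_X_sub_C w
  have hpos : 0 < w.asIdeal.ramificationIdx K[X] := by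
    have := w.isPrime
    exact Ideal.ramificationIdx_pos w.asIdeal K[X]
  unfold Wdx
  rw [ordDifferential_D_sub_const hF _ c (by rw [hc]; exact_mod_cast hpos.ne'), hc]

omit [IsAlgClosed K] in
theorem charZero_quotient_polynomial (p : Ideal K[X]) (hp : p.IsMaximal) : CharZero (K[X] ⧸ p) := by
  have : Nontrivial (K[X] ⧸ p) := Ideal.Quotient.nontrivial_iff.mpr hp.ne_top
  exact charZero_of_injective_algebraMap (algebraMap K (K[X] ⧸ p)).injective

/-- (L4.3) the trace dual of the finite part. -/
theorem dualK_Lsub_finPl (D : Place K F →₀ ℤ) :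
    dualK (Algebra.traceForm (RatFunc K) F) (Lsub (finPl K (algebraMap K[X] F X)) ⇑D) (polys K) =
      Lsub (finPl K (algebraMap K[X] F X)) (fun v => Wdx K (algebraMap K[X] F X) v - D v) := by
  have hTF : Module.IsTorsionFree K[X] (ringOfIntegers K F) := fundId_isTorsionFree K F
  have hfin : Module.Finite K[X] (ringOfIntegers K F) :=
    IsIntegralClosure.finite K[X] (RatFunc K) F (ringOfIntegers K F)
  set I : FractionalIdeal (ringOfIntegers K F)⁰ F := idealOf F (finExps D) with hI
  have hI0 : I ≠ 0 := idealOf_ne_zero (finExps D)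
  ext y
  rw [mem_dualK]
  have hdual0 : FractionalIdeal.dual K[X] (RatFunc K) I ≠ 0 :=
    FractionalIdeal.dual_ne_zero K[X] (RatFunc K) hI0
  have h1 : (∀ m ∈ Lsub (finPl K (algebraMap K[X] F X)) ⇑D,
      (Algebra.traceForm (RatFunc K) F) y m ∈ polys K) ↔
      y ∈ FractionalIdeal.dual K[X] (RatFunc K) I := by
    rw [FractionalIdeal.mem_dual hI0]
    constructor
    · intro h m hm
      have := h m ((mem_Lsub_finPl_iff D m).mpr hm)
      rw [mem_polys] at this
      exact this
    · intro h m hm
      have := h m ((mem_Lsub_finPl_iff D m).mp hm)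
      rw [mem_polys]
      exact this
  have h2 : y ∈ FractionalIdeal.dual K[X] (RatFunc K) I ↔
      ∀ w : HeightOneSpectrum (ringOfIntegers K F), w.valuation F y ≤ WithZero.exp
        (((w.asIdeal.ramificationIdx K[X] - 1 : ℕ) : ℤ) + FractionalIdeal.count F w I) := by
    rw [mem_iff_forall_valuation_le hdual0 y]
    refine forall_congr' fun w => ?_
    rw [count_dual_of_forall_charZero (RatFunc K) F charZero_quotient_polynomial w hI0]
    have : -(-((w.asIdeal.ramificationIdx K[X] - 1 : ℕ) : ℤ) - FractionalIdeal.count F w I) =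
        ((w.asIdeal.ramificationIdx K[X] - 1 : ℕ) : ℤ) + FractionalIdeal.count F w I := by ring
    rw [this]
  rw [h1, h2]
  rcases eq_or_ne y 0 with rfl | hy
  · simp only [map_zero, _root_.zero_le, implies_true, true_iff]
    exact zero_mem _
  rw [mem_Lsub_of_ne_zero hy]
  have key : ∀ w : HeightOneSpectrum (ringOfIntegers K F),
      (w.valuation F y ≤ WithZero.exp
        (((w.asIdeal.ramificationIdx K[X] - 1 : ℕ) : ℤ) + FractionalIdeal.count F w I)) ↔
      -(Wdx K (algebraMap K[X] F X) (finPlace w) - D (finPlace w)) ≤ (finPlace (K := K) w).ord y := by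
    intro w
    have hpos : 0 < w.asIdeal.ramificationIdx K[X] := by
      have := w.isPrime
      exact Ideal.ramificationIdx_pos w.asIdeal K[X]
    have hv : w.valuation F y ≠ 0 := (Valuation.ne_zero_iff _).mpr hy
    rw [← WithZero.log_le_iff_le_exp hv, Wdx_finPlace, finPlace_ord, hI, count_idealOf,
      finExps_apply, Nat.cast_sub hpos]
    push_cast
    constructor <;> intro h <;> linarith
  constructor
  · intro h v hv
    obtain ⟨w, rfl⟩ := exists_finPlace_eq hv
    exact (key w).mp (h w)
  · intro h w
    exact (key w).mpr (h _ (finPlace_mem_finPl w))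

end Fermat.Agent.S20
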