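import Mathlib
import Fermat.Agent.S20.DegLE

set_option autoImplicit false

/-!
# S20 (L4.0): the ring `O_∞ ⊂ K(X)` of rational functions of degree `≤ 0`

`OInf K : Subalgebra K (RatFunc K)` has carrier `Linf K 0`.  It is a discrete valuation ring with
uniformiser `X⁻¹`, fraction field `K(X)` and residue field `K`:

* instances `IsFractionRing (OInf K) (RatFunc K)`, `IsPrincipalIdealRing (OInf K)` (hence
  `IsDedekindDomain`), `IsLocalRing (OInf K)`; `Algebra K (OInf K)`, `Algebra (OInf K) (RatFunc K)`,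
  `Algebra (OInf K) F` for every `K(X)`-algebra `F` and the scalar towers are the subalgebra
  instances of Mathlib;
* `range_algebraMap_OInf`, `OInf.isUnit_iff`, `OInf.maximalIdeal_eq`, `OInf.maximalIdeal_ne_bot`,
  `OInf.prime_Xinv`, `OInf.eq_span_Xinv_of_isPrime`, `OInf.heightOneSpectrum_asIdeal`,
  `OInf.exists_sub_algebraMap_mem` (residue field `K`), `OInf.charZero_quotient`,
  `OInf.associated_Xinv_pow`, `OInf.exists_eq_span_Xinv_pow`.
-/

namespace Fermat.Agent.S20

open Polynomial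

noncomputable section

variable (K : Type*) [Field K]

/-- The ring `O_∞` of rational functions of degree `≤ 0`, as a `K`-subalgebra of `K(X)`. -/
def OInf : Subalgebra K (RatFunc K) where
  carrier := {f | f = 0 ∨ f.intDegree ≤ 0}
  mul_mem' := fun {_ _} ha hb => mul_mem_Linf_zero (K := K) ha hb
  one_mem' := one_mem_Linf_zero
  add_mem' := fun {_ _} ha hb => (Linf K 0).add_mem ha hb
  zero_mem' := (Linf K 0).zero_mem
  algebraMap_mem' := fun c => by
    rw [RatFunc.algebraMap_eq_C]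
    exact C_mem_Linf_zero c

variable {K}

theorem mem_OInf_iff {f : RatFunc K} : f ∈ OInf K ↔ f ∈ Linf K 0 := Iff.rfl

theorem mem_OInf_iff' {f : RatFunc K} : f ∈ OInf K ↔ f = 0 ∨ f.intDegree ≤ 0 := Iff.rfl

theorem coe_OInf :
    ((OInf K : Subalgebra K (RatFunc K)) : Set (RatFunc K)) = (Linf K 0 : Set (RatFunc K)) :=
  rfl

theorem algebraMap_OInf_apply (a : OInf K) :
    algebraMap (OInf K) (RatFunc K) a = (a : RatFunc K) := rfl

theorem range_algebraMap_OInf :
    Set.range (algebraMap (OInf K) (RatFunc K)) = (Linf K 0 : Set (RatFunc K)) := by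
  ext f
  constructor
  · rintro ⟨a, rfl⟩
    exact a.2
  · intro hf
    exact ⟨⟨f, hf⟩, rfl⟩

theorem mem_OInf_or_inv_mem (f : RatFunc K) : f ∈ OInf K ∨ f⁻¹ ∈ OInf K := by
  by_cases hf : f = 0
  · left; left; exact hf
  rcases le_total f.intDegree 0 with h | h
  · left; right; exact h
  · right; right
    rw [RatFunc.intDegree_inv]
    omega

instance : IsFractionRing (OInf K) (RatFunc K) where
  map_units := fun ⟨y, hy⟩ =>
    (Units.mk0 (y : RatFunc K) fun c => nonZeroDivisors.ne_zero hy <| Subtype.ext c).isUnit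
  surj z := by
    by_cases h : z = 0
    · use (0, 1); simp [h]
    rcases mem_OInf_or_inv_mem z with hh | hh
    · use (⟨z, hh⟩, 1); simp
    · refine ⟨⟨1, ⟨⟨_, hh⟩, ?_⟩⟩, ?_⟩
      · exact mem_nonZeroDivisors_iff_ne_zero.2 fun c => h (inv_eq_zero.mp (congr_arg Subtype.val c))
      · simp [mul_inv_cancel₀ h]
  exists_of_eq {a b} h := ⟨1, by ext; simpa [algebraMap_OInf_apply] using h⟩

/-- Divisibility in `O_∞` is comparison of degrees. -/
theorem OInf.dvd_of_intDegree_le {a b : OInf K} (ha : a ≠ 0)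
    (h : b = 0 ∨ (b : RatFunc K).intDegree ≤ (a : RatFunc K).intDegree) : a ∣ b := by
  have ha' : (a : RatFunc K) ≠ 0 := fun c => ha (Subtype.ext c)
  rcases h with rfl | h
  · exact dvd_zero a
  by_cases hb : b = 0
  · rw [hb]; exact dvd_zero a
  have hb' : (b : RatFunc K) ≠ 0 := fun c => hb (Subtype.ext c)
  refine ⟨⟨(b : RatFunc K) / a, Or.inr ?_⟩, ?_⟩
  · rw [RatFunc.intDegree_div hb' ha']
    omega
  · apply Subtype.ext
    show (b : RatFunc K) = a * ((b : RatFunc K) / a)
    field_simp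

theorem OInf.intDegree_le_of_dvd {a b : OInf K} (hb : b ≠ 0) (h : a ∣ b) :
    (b : RatFunc K).intDegree ≤ (a : RatFunc K).intDegree := by
  obtain ⟨c, rfl⟩ := h
  have ha : a ≠ 0 := left_ne_zero_of_mul hb
  have hc : c ≠ 0 := right_ne_zero_of_mul hb
  have ha' : (a : RatFunc K) ≠ 0 := fun h => ha (Subtype.ext h)
  have hc' : (c : RatFunc K) ≠ 0 := fun h => hc (Subtype.ext h)
  have : ((a * c : OInf K) : RatFunc K) = (a : RatFunc K) * c := rfl
  rw [this, RatFunc.intDegree_mul ha' hc']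
  have := c.2
  rcases this with h0 | h0
  · exact absurd h0 hc'
  · omega

instance : IsPrincipalIdealRing (OInf K) where
  principal I := by
    by_cases hI : I = ⊥
    · exact ⟨⟨0, by rw [hI]; simp⟩⟩
    obtain ⟨a₀, ha₀I, ha₀⟩ : ∃ a ∈ I, a ≠ 0 := by
      by_contra hcon
      apply hI
      rw [Submodule.eq_bot_iff]
      intro x hx
      by_contra hx0
      exact hcon ⟨x, hx, hx0⟩
    obtain ⟨d, ⟨a, haI, ha, rfl⟩, hmax⟩ :=
      Int.exists_greatest_of_bdd
        (P := fun z => ∃ a ∈ I, a ≠ 0 ∧ (a : RatFunc K).intDegree = z)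
        ⟨0, by
          rintro z ⟨a, -, ha, rfl⟩
          rcases a.2 with h | h
          · exact absurd (Subtype.ext h) ha
          · exact h⟩
        ⟨_, a₀, ha₀I, ha₀, rfl⟩
    refine ⟨⟨a, le_antisymm ?_ ?_⟩⟩
    · intro b hb
      rw [Ideal.mem_span_singleton]
      have hdvd : a ∣ b := by
        apply OInf.dvd_of_intDegree_le ha
        by_cases hb0 : b = 0
        · exact Or.inl hb0
        · exact Or.inr (hmax _ ⟨b, hb, hb0, rfl⟩)
      exact hdvd
    · rw [Submodule.span_singleton_le_iff_mem]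
      exact haI

variable (K) in
/-- The uniformiser `X⁻¹` of `O_∞`. -/
def OInf.Xinv : OInf K := ⟨(RatFunc.X : RatFunc K)⁻¹, Or.inr (by simp)⟩

@[simp] theorem OInf.coe_Xinv : ((OInf.Xinv K : OInf K) : RatFunc K) = (RatFunc.X : RatFunc K)⁻¹ := rfl

theorem OInf.Xinv_ne_zero : OInf.Xinv K ≠ 0 := fun h =>
  inv_ne_zero (RatFunc.X_ne_zero (K := K)) (congrArg Subtype.val h)

theorem OInf.coe_ne_zero {a : OInf K} (ha : a ≠ 0) : (a : RatFunc K) ≠ 0 :=
  fun h => ha (Subtype.ext h)

theorem OInf.intDegree_nonpos {a : OInf K} : (a : RatFunc K).intDegree ≤ 0 := by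
  rcases a.2 with h | h
  · rw [h]; simp
  · exact h

/-- The units of `O_∞` are the nonzero elements of degree `0`. -/
theorem OInf.isUnit_iff {a : OInf K} : IsUnit a ↔ a ≠ 0 ∧ (a : RatFunc K).intDegree = 0 := by
  constructor
  · intro h
    have ha : a ≠ 0 := h.ne_zero
    refine ⟨ha, le_antisymm OInf.intDegree_nonpos ?_⟩
    have h1 : a ∣ 1 := h.dvd
    have := OInf.intDegree_le_of_dvd one_ne_zero h1
    simpa using this
  · rintro ⟨ha, hd⟩
    apply isUnit_of_dvd_one
    apply OInf.dvd_of_intDegree_le ha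
    right
    simp [hd]

theorem OInf.mem_span_Xinv_iff {a : OInf K} :
    a ∈ Ideal.span {OInf.Xinv K} ↔ a = 0 ∨ (a : RatFunc K).intDegree ≤ -1 := by
  rw [Ideal.mem_span_singleton]
  constructor
  · intro h
    by_cases ha : a = 0
    · exact Or.inl ha
    · right
      have := OInf.intDegree_le_of_dvd ha h
      simpa using this
  · intro h
    apply OInf.dvd_of_intDegree_le OInf.Xinv_ne_zero
    rcases h with h | h
    · exact Or.inl h
    · right
      simpa using h

theorem OInf.mem_span_Xinv_iff_not_isUnit {a : OInf K} :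
    a ∈ Ideal.span {OInf.Xinv K} ↔ ¬ IsUnit a := by
  rw [OInf.mem_span_Xinv_iff, OInf.isUnit_iff]
  have := OInf.intDegree_nonpos (a := a)
  constructor
  · rintro (h | h) ⟨h1, h2⟩
    · exact h1 h
    · omega
  · intro h
    by_cases ha : a = 0
    · exact Or.inl ha
    · right
      by_contra hcon
      exact h ⟨ha, by omega⟩

instance : IsLocalRing (OInf K) :=
  IsLocalRing.of_nonunits_add fun {a b} ha hb => by
    rw [mem_nonunits_iff, ← OInf.mem_span_Xinv_iff_not_isUnit] at *
    exact Ideal.add_mem _ ha hb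

theorem OInf.maximalIdeal_eq : IsLocalRing.maximalIdeal (OInf K) = Ideal.span {OInf.Xinv K} := by
  ext a
  rw [IsLocalRing.mem_maximalIdeal, mem_nonunits_iff, OInf.mem_span_Xinv_iff_not_isUnit]

theorem OInf.maximalIdeal_ne_bot : IsLocalRing.maximalIdeal (OInf K) ≠ ⊥ := by
  rw [OInf.maximalIdeal_eq, Ne, Ideal.span_singleton_eq_bot]
  exact OInf.Xinv_ne_zero

instance : (Ideal.span {OInf.Xinv K}).IsMaximal := by
  rw [← OInf.maximalIdeal_eq]
  infer_instance

theorem OInf.prime_Xinv : Prime (OInf.Xinv K) := by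
  rw [← Ideal.span_singleton_prime OInf.Xinv_ne_zero]
  exact Ideal.IsMaximal.isPrime inferInstance

/-- Every nonzero prime of `O_∞` is `(X⁻¹)`. -/
theorem OInf.eq_span_Xinv_of_isPrime {p : Ideal (OInf K)} [hp : p.IsPrime] (h0 : p ≠ ⊥) :
    p = Ideal.span {OInf.Xinv K} := by
  have hmax : p.IsMaximal := hp.isMaximal h0
  rw [← OInf.maximalIdeal_eq]
  exact IsLocalRing.eq_maximalIdeal hmax

theorem OInf.heightOneSpectrum_asIdeal (w : IsDedekindDomain.HeightOneSpectrum (OInf K)) :
    w.asIdeal = Ideal.span {OInf.Xinv K} :=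
  OInf.eq_span_Xinv_of_isPrime w.ne_bot

/-- The residue field of `O_∞` is `K`. -/
theorem OInf.exists_sub_algebraMap_mem (a : OInf K) :
    ∃ c : K, a - algebraMap K (OInf K) c ∈ Ideal.span {OInf.Xinv K} := by
  by_cases hu : IsUnit a
  · obtain ⟨ha, hd⟩ := OInf.isUnit_iff.mp hu
    obtain ⟨c, hc⟩ := exists_sub_C_mem_Linf_of_intDegree_eq_zero (OInf.coe_ne_zero ha) hd
    refine ⟨c, ?_⟩
    rw [OInf.mem_span_Xinv_iff]
    rcases hc with hc | hc
    · left
      apply Subtype.ext
      simpa [RatFunc.algebraMap_eq_C] using hc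
    · right
      simpa [RatFunc.algebraMap_eq_C] using hc
  · exact ⟨0, by simpa using OInf.mem_span_Xinv_iff_not_isUnit.mpr hu⟩

theorem OInf.exists_sub_algebraMap_mem_maximalIdeal (a : OInf K) :
    ∃ c : K, a - algebraMap K (OInf K) c ∈ IsLocalRing.maximalIdeal (OInf K) := by
  rw [OInf.maximalIdeal_eq]
  exact OInf.exists_sub_algebraMap_mem a

/-- Any proper quotient of `O_∞` has characteristic zero when `K` has. -/
theorem OInf.charZero_quotient [CharZero K] (p : Ideal (OInf K)) (hp : p ≠ ⊤) :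
    CharZero (OInf K ⧸ p) := by
  have : Nontrivial (OInf K ⧸ p) := Ideal.Quotient.nontrivial_iff.mpr hp
  exact charZero_of_injective_algebraMap (algebraMap K (OInf K ⧸ p)).injective

instance [CharZero K] : CharZero (OInf K ⧸ Ideal.span {OInf.Xinv K}) :=
  OInf.charZero_quotient _ (Ideal.IsMaximal.ne_top inferInstance)

instance [CharZero K] : CharZero (OInf K ⧸ IsLocalRing.maximalIdeal (OInf K)) :=
  OInf.charZero_quotient _ (Ideal.IsMaximal.ne_top inferInstance)

theorem OInf.coe_Xinv_pow (k : ℕ) :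
    ((OInf.Xinv K ^ k : OInf K) : RatFunc K) = (RatFunc.X : RatFunc K) ^ (-(k : ℤ)) := by
  rw [SubmonoidClass.coe_pow, OInf.coe_Xinv, zpow_neg, zpow_natCast, inv_pow]

theorem OInf.intDegree_Xinv_pow (k : ℕ) :
    ((OInf.Xinv K ^ k : OInf K) : RatFunc K).intDegree = -(k : ℤ) := by
  rw [OInf.coe_Xinv_pow, intDegree_X_zpow]

/-- Every nonzero element of `O_∞` is a unit times `X⁻¹ ^ (-deg)`. -/
theorem OInf.associated_Xinv_pow {a : OInf K} (ha : a ≠ 0) :
    Associated a (OInf.Xinv K ^ (-(a : RatFunc K).intDegree).toNat) := by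
  have hnp := OInf.intDegree_nonpos (a := a)
  apply associated_of_dvd_dvd
  · apply OInf.dvd_of_intDegree_le ha
    right
    rw [OInf.intDegree_Xinv_pow]
    omega
  · apply OInf.dvd_of_intDegree_le (pow_ne_zero _ OInf.Xinv_ne_zero)
    right
    rw [OInf.intDegree_Xinv_pow]
    omega

/-- Every nonzero ideal of `O_∞` is a power of `(X⁻¹)`. -/
theorem OInf.exists_eq_span_Xinv_pow {I : Ideal (OInf K)} (hI : I ≠ ⊥) :
    ∃ k : ℕ, I = Ideal.span {OInf.Xinv K ^ k} := by
  obtain ⟨a, rfl⟩ := (IsPrincipalIdealRing.principal I).principal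
  have ha : a ≠ 0 := by
    rintro rfl
    exact hI (by simp)
  refine ⟨(-(a : RatFunc K).intDegree).toNat, ?_⟩
  exact Ideal.span_singleton_eq_span_singleton.mpr (OInf.associated_Xinv_pow ha)

end
end Fermat.Agent.S20
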