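/-
S20 (L4.4) (owner: helper12): the trace dual of the lattice at infinity,
`dualK Tr (Lsub infPl D) (Linf K (-2)) = Lsub infPl (Wdx - D)`,
proved from an abstract "place dictionary" for the Dedekind domain `B₀` over `O_∞`
(to be instantiated with `integralClosure (OInf K) F`).
-/
import Fermat.Agent.S20.RRDefs
import Fermat.Agent.S20.DWCoord
import Fermat.Agent.S20.DegLE
import Fermat.Agent.S20.OInf
import Fermat.Agent.S20.DDDual
import Fermat.Agent.S20.DedekindCount
import Fermat.Agent.S24.FF.DiffOrdFF

set_option autoImplicit false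
set_option linter.style.haveILetI false

noncomputable section

namespace Fermat.Agent.S20

open AlgebraicCurve IsDedekindDomain
open scoped nonZeroDivisors

section generic

variable {K : Type*} [Field K] {V : Type*} [AddCommGroup V] [Module K V] [Module (RatFunc K) V]
  [IsScalarTower K (RatFunc K) V]

/-- shifting the target `x^e O_∞` of the dual to `O_∞` -/
theorem mem_dualK_Linf_iff (B : LinearMap.BilinForm (RatFunc K) V) (M : Submodule K V) (e : ℤ)
    (y : V) :
    y ∈ dualK B M (Linf K e) ↔ ((RatFunc.X : RatFunc K) ^ (-e) • y) ∈ dualK B M (Linf K 0) := by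
  rw [mem_dualK, mem_dualK]
  refine forall_congr' fun m => forall_congr' fun _ => ?_
  rw [map_smul, LinearMap.smul_apply, smul_eq_mul, mem_Linf_iff_mul_X_zpow (m := e), mul_comm]

end generic

section main

variable {K F : Type*} [Field K] [IsAlgClosed K] [CharZero K] [Field F] [Algebra K F]
  [Algebra (RatFunc K) F] [IsScalarTower K (RatFunc K) F] [FiniteDimensional (RatFunc K) F]
  {B0 : Type*} [CommRing B0] [IsDedekindDomain B0] [Algebra (OInf K) B0] [Algebra B0 F]
  [IsFractionRing B0 F] [IsScalarTower (OInf K) B0 F] [IsIntegralClosure B0 (OInf K) F]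
  [Module.Finite (OInf K) B0] [Module.IsTorsionFree (OInf K) B0]

omit [IsAlgClosed K] [CharZero K] [IsScalarTower K (RatFunc K) F]
  [FiniteDimensional (RatFunc K) F] in
/-- the order of `x` at the place attached to a prime `w` of `B₀` is `-e_w` -/
theorem ord_X_of_dict (place : HeightOneSpectrum B0 → Place K F)
    (hord : ∀ w (f : F), (place w).ord f = -WithZero.log (w.valuation F f))
    (w : HeightOneSpectrum B0) :
    (place w).ord (algebraMap (RatFunc K) F RatFunc.X) =
      -(w.asIdeal.ramificationIdx (OInf K) : ℤ) := by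
  have hmax := under_isMaximal (A := OInf K) w
  have hne := under_ne_bot (A := OInf K) w
  haveI : (w.asIdeal.under (OInf K)).IsPrime := hmax.isPrime
  have hp := OInf.eq_span_Xinv_of_isPrime hne
  haveI : w.asIdeal.LiesOver (w.asIdeal.under (OInf K)) := ⟨rfl⟩
  have hval := valuation_algebraMap_generator F w OInf.Xinv_ne_zero hp
  have hxi : algebraMap (OInf K) F (OInf.Xinv K) =
      (algebraMap (RatFunc K) F RatFunc.X)⁻¹ := by
    rw [IsScalarTower.algebraMap_apply (OInf K) (RatFunc K) F, algebraMap_OInf_apply,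
      OInf.coe_Xinv, map_inv₀]
  rw [hxi] at hval
  have h1 := hord w (algebraMap (RatFunc K) F RatFunc.X)⁻¹
  rw [hval, WithZero.log_exp, neg_neg, Place.ord_inv] at h1
  omega

/-- **(L4.4)**, abstract form: the trace dual of the lattice at infinity, given the dictionary
between the primes of `B₀` and the places at infinity. -/
theorem dualK_Lsub_infPl_of_dict (hF : Fermat.Agent.S24.FF.IsFF1 K F)
    (place : HeightOneSpectrum B0 → Place K F)
    (hmem : ∀ w, place w ∈ infPl K (algebraMap (RatFunc K) F RatFunc.X))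
    (hsurj : ∀ v ∈ infPl K (algebraMap (RatFunc K) F RatFunc.X), ∃ w, place w = v)
    (hord : ∀ w (f : F), (place w).ord f = -WithZero.log (w.valuation F f))
    (D : Place K F → ℤ) (I : FractionalIdeal B0⁰ F) (hI : I ≠ 0)
    (hcount : ∀ w, FractionalIdeal.count F w I = -D (place w))
    (hcoe : ∀ f : F, f ∈ I ↔ f ∈ Lsub (infPl K (algebraMap (RatFunc K) F RatFunc.X)) D) :
    dualK (Algebra.traceForm (RatFunc K) F)
        (Lsub (infPl K (algebraMap (RatFunc K) F RatFunc.X)) D) (Linf K (-2)) =
      Lsub (infPl K (algebraMap (RatFunc K) F RatFunc.X))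
        (fun v => Wdx K (algebraMap (RatFunc K) F RatFunc.X) v - D v) := by
  set x : F := algebraMap (RatFunc K) F RatFunc.X with hx
  have hx0 : x ≠ 0 := (map_ne_zero _).mpr RatFunc.X_ne_zero
  have hordx : ∀ w, (place w).ord x = -(w.asIdeal.ramificationIdx (OInf K) : ℤ) :=
    fun w => ord_X_of_dict place hord w
  have hW : ∀ w, Wdx K x (place w) = (place w).ord x - 1 := by
    intro w
    have h1 : (place w).ord x ≠ 0 := ne_of_lt (hmem w)
    exact Fermat.Agent.S24.FF.ordDifferential_D hF (place w) h1
  have hepos : ∀ w : HeightOneSpectrum B0, 0 < w.asIdeal.ramificationIdx (OInf K) := by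
    intro w
    have := hordx w
    have h2 : (place w).ord x < 0 := hmem w
    omega
  have hchar : ∀ p : Ideal (OInf K), p.IsMaximal → CharZero (OInf K ⧸ p) :=
    fun p hp => OInf.charZero_quotient p hp.ne_top
  have hdual0 : FractionalIdeal.dual (OInf K) (RatFunc K) I ≠ 0 :=
    FractionalIdeal.dual_ne_zero (OInf K) (RatFunc K) hI
  ext y
  rcases eq_or_ne y 0 with rfl | hy
  · simp only [Submodule.zero_mem]
  rw [mem_dualK_Linf_iff, mem_Lsub_of_ne_zero hy]
  have hg : ((RatFunc.X : RatFunc K) ^ (-(-2 : ℤ)) • y) = x ^ 2 * y := by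
    rw [Algebra.smul_def, neg_neg, hx]
    congr 1
    rw [show ((2 : ℤ)) = ((2 : ℕ) : ℤ) from rfl, zpow_natCast, map_pow]
  rw [hg]
  have hg0 : x ^ 2 * y ≠ 0 := mul_ne_zero (pow_ne_zero 2 hx0) hy
  have hmemdual : x ^ 2 * y ∈ dualK (Algebra.traceForm (RatFunc K) F)
      (Lsub (infPl K x) D) (Linf K 0) ↔
      x ^ 2 * y ∈ FractionalIdeal.dual (OInf K) (RatFunc K) I := by
    have hrange : ∀ f : RatFunc K,
        f ∈ (algebraMap (OInf K) (RatFunc K)).range ↔ f ∈ Linf K 0 := by
      intro f
      rw [RingHom.mem_range, ← Set.mem_range, range_algebraMap_OInf]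
      rfl
    rw [mem_dualK, FractionalIdeal.mem_dual hI]
    constructor
    · intro h m hm
      exact (hrange _).mpr (h m ((hcoe m).mp hm))
    · intro h m hm
      exact (hrange _).mp (h m ((hcoe m).mpr hm))
  rw [hmemdual, mem_iff_count_le hdual0 hg0]
  constructor
  · intro h v hv
    obtain ⟨w, rfl⟩ := hsurj v hv
    have h1 := h w
    rw [count_dual_of_forall_charZero (RatFunc K) F hchar w hI, hcount w, ← hord w,
      (place w).ord_mul (pow_ne_zero 2 hx0) hy, Fermat.Agent.S24.FF.ord_pow, hordx w] at h1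
    have h2 := hW w
    rw [hordx w] at h2
    have h3 := hepos w
    simp only [h2]
    push_cast at h1 ⊢
    omega
  · intro h w
    have h1 := h (place w) (hmem w)
    rw [count_dual_of_forall_charZero (RatFunc K) F hchar w hI, hcount w, ← hord w,
      (place w).ord_mul (pow_ne_zero 2 hx0) hy, Fermat.Agent.S24.FF.ord_pow, hordx w]
    have h2 := hW w
    rw [hordx w] at h2
    have h3 := hepos w
    simp only [h2] at h1
    push_cast at h1 ⊢
    omega

end main

end Fermat.Agent.S20
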