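import Mathlib
import Fermat.Agent.S24.FF.PlaceOfDedekind
import Fermat.Agent.S24.FF.PlaceBasic
import Fermat.Agent.S20.RRDefs
import Fermat.Agent.S20.DedekindCount
import Fermat.Agent.S20.OInf

set_option autoImplicit false
set_option linter.unusedSectionVars false

/-!
# S20 (L4), infinite chart: `Lsub (infPl K x) D` is a fractional ideal of `Binf`

Instance form (as in `S20/L4Fin.lean`): `F` is a finite extension of `K(X)`,
`x = algebraMap K[X] F X`, `Binf K F = integralClosure (OInf K) F`.  The infinite places
(`ord_v x < 0`) are exactly the places `infPlaceOf w` of the height one primes `w` of `Binf K F`,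
and for a divisor `D`, `Lsub (infPl K x) D = idealOf (cinf D)` with `cinf D w = -D (infPlaceOf w)`.

Also: for a place `v` with `ord_v x < 0` the restriction of `ord_v` to `K(x)` is
`intDegree * ord_v x` (`ord_algebraMap_ratFunc_of_ord_neg`).
-/

noncomputable section

namespace Fermat.Agent.S20

open AlgebraicCurve Polynomial IsDedekindDomain IsDedekindDomain.HeightOneSpectrum
open Fermat.Agent.S24.FF nonZeroDivisors

/-! ### Orders of rational functions of `x` at a pole of `x` -/

section OrdAtPole

variable {K F : Type*} [Field K] [Field F] [Algebra K F] (v : Place K F)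

/-- A valuation ring of a place containing `t` contains `K[t]`. -/
theorem aeval_mem_of_mem {t : F} (ht : t ∈ v.toValuationSubring) (g : K[X]) :
    aeval t g ∈ v.toValuationSubring := by
  induction g using Polynomial.induction_on with
  | C a =>
    rw [aeval_C]
    exact v.algebraMap_mem' a
  | add p q hp hq =>
    rw [map_add]
    exact v.toValuationSubring.add_mem _ _ hp hq
  | monomial n a h =>
    rw [pow_succ, ← mul_assoc, map_mul, aeval_X]
    exact v.toValuationSubring.mul_mem _ _ h ht

/-- If `ord_v t > 0` and `g(0) ≠ 0` then `g(t)` is a unit at `v`. -/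
theorem ord_aeval_eq_zero_of_pos {t : F} (ht : 0 < v.ord t) {g : K[X]} (hg : g.coeff 0 ≠ 0) :
    v.ord (aeval t g) = 0 := by
  have ht0 : t ≠ 0 := by
    rintro rfl
    simp at ht
  have htm : t ∈ v.toValuationSubring := mem_of_ord_nonneg v ht.le
  have hdecomp : aeval t g = algebraMap K F (g.coeff 0) + t * aeval t g.divX := by
    conv_lhs => rw [← Polynomial.divX_mul_X_add g]
    rw [map_add, map_mul, aeval_X, aeval_C]
    ring
  have hc0 : algebraMap K F (g.coeff 0) ≠ 0 := (_root_.map_ne_zero _).mpr hg
  rw [hdecomp]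
  by_cases h2 : aeval t g.divX = 0
  · rw [h2, mul_zero, add_zero]
    exact ord_algebraMap v _
  · have h3 : 0 ≤ v.ord (aeval t g.divX) :=
      ord_nonneg_of_mem v (aeval_mem_of_mem v htm _)
    have h4 : v.ord (algebraMap K F (g.coeff 0)) < v.ord (t * aeval t g.divX) := by
      rw [ord_algebraMap, v.ord_mul ht0 h2]
      omega
    rw [ord_add_eq_of_lt v hc0 (mul_ne_zero ht0 h2) h4, ord_algebraMap]

/-- At a pole of `x`, `ord_v (p(x)) = deg p * ord_v x`. -/
theorem ord_aeval_of_ord_neg {x : F} (hx : v.ord x < 0) {p : K[X]} (hp : p ≠ 0) :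
    v.ord (aeval x p) = (p.natDegree : ℤ) * v.ord x := by
  have hx0 : x ≠ 0 := by
    rintro rfl
    simp at hx
  have hinv : 0 < v.ord x⁻¹ := by
    rw [v.ord_inv]
    omega
  letI : Invertible x := invertibleOfNonzero hx0
  have h1 : aeval x p = aeval x⁻¹ p.reverse * x ^ p.natDegree := by
    have := Polynomial.eval₂_reverse_mul_pow (algebraMap K F) x p
    rw [invOf_eq_inv] at this
    exact this.symm
  have hrev : p.reverse.coeff 0 ≠ 0 := by
    rw [Polynomial.coeff_zero_reverse]
    exact Polynomial.leadingCoeff_ne_zero.mpr hp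
  have h2 : v.ord (aeval x⁻¹ p.reverse) = 0 := ord_aeval_eq_zero_of_pos v hinv hrev
  have h3 : aeval x⁻¹ p.reverse ≠ 0 := by
    intro h0
    have hx1 : aeval x p = 0 := by rw [h1, h0, zero_mul]
    -- then `p.reverse(x⁻¹) = 0`; its order would be `0` by convention, no contradiction:
    -- use the decomposition instead
    have hdecomp : aeval x⁻¹ p.reverse =
        algebraMap K F (p.reverse.coeff 0) + x⁻¹ * aeval x⁻¹ p.reverse.divX := by
      conv_lhs => rw [← Polynomial.divX_mul_X_add p.reverse]
      rw [map_add, map_mul, aeval_X, aeval_C]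
      ring
    rw [h0] at hdecomp
    have hc0 : algebraMap K F (p.reverse.coeff 0) ≠ 0 := (_root_.map_ne_zero _).mpr hrev
    have h5 : x⁻¹ * aeval x⁻¹ p.reverse.divX = -algebraMap K F (p.reverse.coeff 0) := by
      linear_combination -hdecomp
    have h6 : aeval x⁻¹ p.reverse.divX ≠ 0 := by
      intro h7
      rw [h7, mul_zero] at h5
      exact hc0 (neg_eq_zero.mp h5.symm)
    have h8 : v.ord (x⁻¹ * aeval x⁻¹ p.reverse.divX) = 0 := by
      rw [h5, ord_neg, ord_algebraMap]
    rw [v.ord_mul (inv_ne_zero hx0) h6] at h8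
    have h9 : 0 ≤ v.ord (aeval x⁻¹ p.reverse.divX) :=
      ord_nonneg_of_mem v (aeval_mem_of_mem v (mem_of_ord_nonneg v hinv.le) _)
    omega
  rw [h1, v.ord_mul h3 (pow_ne_zero _ hx0), h2, ord_pow, zero_add]

end OrdAtPole

/-! ### The infinite chart -/

variable {K F : Type*} [Field K] [Field F] [Algebra K F] [IsAlgClosed K] [CharZero K]
  [Algebra K[X] F] [Algebra (RatFunc K) F] [IsScalarTower K K[X] F]
  [IsScalarTower K[X] (RatFunc K) F] [IsScalarTower K (RatFunc K) F]
  [FiniteDimensional (RatFunc K) F]

omit [IsAlgClosed K] [CharZero K] [IsScalarTower K K[X] F] [IsScalarTower K (RatFunc K) F]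
  [FiniteDimensional (RatFunc K) F] [Algebra K F] in
theorem algebraMap_X_eq : algebraMap K[X] F X = algebraMap (RatFunc K) F RatFunc.X := by
  rw [IsScalarTower.algebraMap_apply K[X] (RatFunc K) F, RatFunc.algebraMap_X]

omit [IsAlgClosed K] [CharZero K] [IsScalarTower K (RatFunc K) F]
  [FiniteDimensional (RatFunc K) F] in
theorem algebraMap_polynomial_eq_aeval (p : K[X]) :
    algebraMap K[X] F p = aeval (algebraMap K[X] F X) p := by
  have h : (IsScalarTower.toAlgHom K K[X] F) = aeval (algebraMap K[X] F X) := by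
    apply Polynomial.algHom_ext
    simp
  exact congrArg (fun φ : K[X] →ₐ[K] F => φ p) h

omit [IsAlgClosed K] [CharZero K] [IsScalarTower K (RatFunc K) F]
  [FiniteDimensional (RatFunc K) F] in
/-- At a pole `v` of `x`, the restriction of `ord_v` to `K(x)` is `intDegree * ord_v x`. -/
theorem ord_algebraMap_ratFunc_of_ord_neg (v : Place K F)
    (hx : v.ord (algebraMap K[X] F X) < 0) {f : RatFunc K} (hf : f ≠ 0) :
    v.ord (algebraMap (RatFunc K) F f) = f.intDegree * v.ord (algebraMap K[X] F X) := by
  have hnum : f.num ≠ 0 := RatFunc.num_ne_zero hf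
  have hden : f.denom ≠ 0 := RatFunc.denom_ne_zero f
  have hf' : algebraMap (RatFunc K) F f =
      algebraMap K[X] F f.num / algebraMap K[X] F f.denom := by
    conv_lhs => rw [← RatFunc.num_div_denom f]
    rw [map_div₀, ← IsScalarTower.algebraMap_apply, ← IsScalarTower.algebraMap_apply]
  have hinj : Function.Injective (algebraMap K[X] F) := by
    rw [IsScalarTower.algebraMap_eq K[X] (RatFunc K) F]
    exact (algebraMap (RatFunc K) F).injective.comp (IsFractionRing.injective K[X] (RatFunc K))
  have h1 : algebraMap K[X] F f.num ≠ 0 := (map_ne_zero_iff _ hinj).mpr hnum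
  have h2 : algebraMap K[X] F f.denom ≠ 0 := (map_ne_zero_iff _ hinj).mpr hden
  rw [hf', ord_div v h1 h2, algebraMap_polynomial_eq_aeval f.num,
    algebraMap_polynomial_eq_aeval f.denom, ord_aeval_of_ord_neg v hx hnum,
    ord_aeval_of_ord_neg v hx hden, RatFunc.intDegree]
  push_cast
  ring

variable (K F) in
/-- infinite chart: the integral closure of `OInf K` in `F` -/
abbrev Binf : Subalgebra (OInf K) F := integralClosure (OInf K) F

omit [IsAlgClosed K] [IsScalarTower K K[X] F] [IsScalarTower K[X] (RatFunc K) F] [Algebra K[X] F]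
  [IsScalarTower K (RatFunc K) F] [Algebra K F] in
theorem isSeparable_ratFunc : Algebra.IsSeparable (RatFunc K) F := by
  have : CharZero (RatFunc K) :=
    charZero_of_injective_algebraMap (algebraMap K (RatFunc K)).injective
  exact Algebra.IsAlgebraic.isSeparable_of_perfectField

instance Binf.isDedekindDomain : IsDedekindDomain (Binf K F) :=
  haveI := isSeparable_ratFunc (K := K) (F := F)
  integralClosure.isDedekindDomain (OInf K) (RatFunc K) F

instance Binf.isFractionRing : IsFractionRing (Binf K F) F :=
  integralClosure.isFractionRing_of_finite_extension (RatFunc K) F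

instance Binf.moduleFinite : Module.Finite (OInf K) (Binf K F) :=
  haveI := isSeparable_ratFunc (K := K) (F := F)
  IsIntegralClosure.finite (OInf K) (RatFunc K) F (Binf K F)

instance Binf.isScalarTowerMid : IsScalarTower (OInf K) (Binf K F) F :=
  IsScalarTower.of_algebraMap_eq fun _ => rfl

instance Binf.isTorsionFree : Module.IsTorsionFree (OInf K) (Binf K F) := by
  apply Module.isTorsionFree_iff_algebraMap_injective.mpr
  intro a b hab
  have h := congrArg (algebraMap (Binf K F) F) hab
  rw [← IsScalarTower.algebraMap_apply, ← IsScalarTower.algebraMap_apply,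
    IsScalarTower.algebraMap_apply (OInf K) (RatFunc K) F,
    IsScalarTower.algebraMap_apply (OInf K) (RatFunc K) F] at h
  exact IsFractionRing.injective (OInf K) (RatFunc K) ((algebraMap (RatFunc K) F).injective h)

/-- the place of a prime of the infinite chart -/
def infPlaceOf (w : HeightOneSpectrum (Binf K F)) : Place K F :=
  Place.ofHeightOneSpectrum (K := K) (F := F) w

theorem infPlaceOf_injective : Function.Injective (infPlaceOf (K := K) (F := F)) :=
  ofHeightOneSpectrum_injective (K := K) (F := F)

theorem ord_infPlaceOf (w : HeightOneSpectrum (Binf K F)) (f : F) :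
    (infPlaceOf (K := K) w).ord f = -WithZero.log (w.valuation F f) :=
  ord_ofHeightOneSpectrum w f

/-- `X⁻¹` lies in every height one prime of `Binf`. -/
theorem algebraMap_Xinv_mem (w : HeightOneSpectrum (Binf K F)) :
    algebraMap (OInf K) (Binf K F) (OInf.Xinv K) ∈ w.asIdeal := by
  have hne : w.asIdeal.under (OInf K) ≠ ⊥ := Ideal.under_ne_bot (OInf K) w.ne_bot
  have hprime : (w.asIdeal.under (OInf K)).IsPrime := inferInstance
  have := OInf.eq_span_Xinv_of_isPrime hne
  have hmem : OInf.Xinv K ∈ w.asIdeal.under (OInf K) := by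
    rw [this]
    exact Ideal.mem_span_singleton_self _
  exact hmem

theorem infPlaceOf_mem_infPl (w : HeightOneSpectrum (Binf K F)) :
    infPlaceOf (K := K) w ∈ infPl K (algebraMap K[X] F X) := by
  rw [mem_infPl]
  have hx0 : algebraMap K[X] F X ≠ 0 := by
    rw [algebraMap_X_eq]
    exact (_root_.map_ne_zero _).mpr RatFunc.X_ne_zero
  have h1 : algebraMap (Binf K F) F (algebraMap (OInf K) (Binf K F) (OInf.Xinv K)) =
      (algebraMap K[X] F X)⁻¹ := by
    rw [← IsScalarTower.algebraMap_apply, IsScalarTower.algebraMap_apply (OInf K) (RatFunc K) F,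
      algebraMap_OInf_apply, OInf.coe_Xinv, map_inv₀, algebraMap_X_eq]
  have h2 : w.valuation F (algebraMap K[X] F X)⁻¹ < 1 := by
    rw [← h1, HeightOneSpectrum.valuation_lt_one_iff_mem]
    exact algebraMap_Xinv_mem w
  have h3 : 0 < (infPlaceOf (K := K) w).ord (algebraMap K[X] F X)⁻¹ := by
    rw [ord_infPlaceOf]
    have hne : w.valuation F (algebraMap K[X] F X)⁻¹ ≠ 0 :=
      (Valuation.ne_zero_iff _).mpr (inv_ne_zero hx0)
    have : WithZero.log (w.valuation F (algebraMap K[X] F X)⁻¹) < 0 := by
      rw [← WithZero.log_one]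
      exact (WithZero.log_lt_log hne one_ne_zero).mpr h2
    omega
  rw [Place.ord_inv] at h3
  omega

/-- At a pole of `x`, the valuation ring of the place contains `OInf K`. -/
theorem algebraMap_OInf_mem {v : Place K F} (hv : v ∈ infPl K (algebraMap K[X] F X))
    (a : OInf K) : algebraMap (OInf K) F a ∈ v.toValuationSubring := by
  rw [mem_infPl] at hv
  rw [IsScalarTower.algebraMap_apply (OInf K) (RatFunc K) F, algebraMap_OInf_apply]
  by_cases ha : (a : RatFunc K) = 0
  · rw [ha, map_zero]
    exact zero_mem _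
  apply mem_of_ord_nonneg v
  rw [ord_algebraMap_ratFunc_of_ord_neg v hv ha]
  have h1 : (a : RatFunc K).intDegree ≤ 0 := OInf.intDegree_nonpos
  nlinarith

theorem exists_infPlaceOf_eq {v : Place K F} (hv : v ∈ infPl K (algebraMap K[X] F X)) :
    ∃ w : HeightOneSpectrum (Binf K F), infPlaceOf w = v := by
  have hR : ∀ r : Binf K F, algebraMap (Binf K F) F r ∈ v.toValuationSubring := fun r =>
    mem_of_isIntegral_of_le v.toValuationSubring (algebraMap_OInf_mem hv) r.2
  obtain ⟨w, hw⟩ := exists_heightOneSpectrum_of_le (K := K) (R := Binf K F) v hR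
  exact ⟨w, hw.symm⟩

theorem range_infPlaceOf :
    Set.range (infPlaceOf (K := K) (F := F)) = infPl K (algebraMap K[X] F X) := by
  ext v
  constructor
  · rintro ⟨w, rfl⟩
    exact infPlaceOf_mem_infPl w
  · exact exists_infPlaceOf_eq

/-- the exponent function of a divisor on the infinite chart: `w ↦ -D (infPlaceOf w)` -/
def cinf (D : Place K F →₀ ℤ) : HeightOneSpectrum (Binf K F) →₀ ℤ :=
  Finsupp.comapDomain infPlaceOf (-D) infPlaceOf_injective.injOn

@[simp]
theorem cinf_apply (D : Place K F →₀ ℤ) (w : HeightOneSpectrum (Binf K F)) :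
    cinf D w = -D (infPlaceOf w) := by
  simp [cinf, Finsupp.comapDomain_apply]

/-- **Infinite output lemma**: membership in `Lsub (infPl K x) D` is membership in the fractional
ideal of `Binf` with exponents `-D (infPlaceOf w)`. -/
theorem mem_Lsub_infPl_iff (D : Place K F →₀ ℤ) (f : F) :
    f ∈ Lsub (infPl K (algebraMap K[X] F X)) ⇑D ↔
      f ∈ idealOf (R := Binf K F) F (cinf D) := by
  rcases eq_or_ne f 0 with rfl | hf
  · exact ⟨fun _ => FractionalIdeal.zero_mem _, fun _ => zero_mem _⟩
  rw [mem_Lsub_of_ne_zero hf, mem_idealOf_iff_le_log _ hf]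
  constructor
  · intro h w
    rw [cinf_apply, ← ord_infPlaceOf (K := K)]
    exact h _ (infPlaceOf_mem_infPl w)
  · intro h v hv
    obtain ⟨w, rfl⟩ := exists_infPlaceOf_eq hv
    have := h w
    rwa [cinf_apply, ← ord_infPlaceOf (K := K)] at this

theorem coe_Lsub_infPl (D : Place K F →₀ ℤ) :
    ((Lsub (infPl K (algebraMap K[X] F X)) ⇑D : Submodule K F) : Set F) =
      ((idealOf (R := Binf K F) F (cinf D) : FractionalIdeal (Binf K F)⁰ F) : Set F) := by
  ext f
  exact mem_Lsub_infPl_iff D f

/-- **OUTPUT of the infinite chart.** -/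
theorem Lsub_infPl_eq (D : Place K F →₀ ℤ) :
    Lsub (infPl K (algebraMap K[X] F X)) ⇑D =
      ((idealOf (R := Binf K F) F (cinf D) :
        FractionalIdeal (Binf K F)⁰ F) : Submodule (Binf K F) F).restrictScalars K := by
  ext f
  exact mem_Lsub_infPl_iff D f

end Fermat.Agent.S20
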