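import Mathlib
import Fermat.Agent.S20.L4InfDual
import Fermat.Agent.S20.PlaceDictInf
import Fermat.Agent.S20.RRConst

set_option autoImplicit false
set_option linter.unusedSectionVars false

/-!
# S20 (L4.4): the trace dual of the lattice at infinity, instance form

Instantiation of the abstract `dualK_Lsub_infPl_of_dict` (`S20/L4InfDual.lean`) with the
prime-place dictionary of the infinite chart `Binf K F` (`S20/PlaceDictInf.lean`):
`dualK Tr (Lsub (infPl K x) D) (Linf K (-2)) = Lsub (infPl K x) (Wdx - D)`,
`x = algebraMap K[X] F X`.  This is hypothesis `h44` of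
`RRCanonicalCore.rrData_of_dictionary` verbatim.
-/

noncomputable section

namespace Fermat.Agent.S20

open AlgebraicCurve Polynomial IsDedekindDomain IsDedekindDomain.HeightOneSpectrum
open Fermat.Agent.S24.FF nonZeroDivisors

variable {K F : Type*} [Field K] [Field F] [Algebra K F] [IsAlgClosed K] [CharZero K]
  [Algebra K[X] F] [Algebra (RatFunc K) F] [IsScalarTower K K[X] F]
  [IsScalarTower K[X] (RatFunc K) F] [IsScalarTower K (RatFunc K) F]
  [FiniteDimensional (RatFunc K) F]

/-- **(L4.4)**, general exponent function: the trace dual of `Lsub (infPl K x) D` with respect to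
`x⁻² O_∞` is `Lsub (infPl K x) (div(dx) - D)`. -/
theorem dualK_Lsub_infPl (D : Place K F →₀ ℤ) :
    dualK (Algebra.traceForm (RatFunc K) F) (Lsub (infPl K (algebraMap K[X] F X)) ⇑D)
        (Linf K (-2)) =
      Lsub (infPl K (algebraMap K[X] F X))
        (fun v => Wdx K (algebraMap K[X] F X) v - D v) := by
  have hx : algebraMap K[X] F X = algebraMap (RatFunc K) F RatFunc.X := algebraMap_X_eq
  rw [hx]
  refine dualK_Lsub_infPl_of_dict (B0 := Binf K F) isFF1_of_instances
    (infPlaceOf (K := K) (F := F)) ?_ ?_ ord_infPlaceOf (⇑D)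
    (idealOf (R := Binf K F) F (cinf D)) (idealOf_ne_zero _) ?_ ?_
  · intro w
    rw [← hx]
    exact infPlaceOf_mem_infPl w
  · intro v hv
    rw [← hx] at hv
    exact exists_infPlaceOf_eq hv
  · intro w
    rw [count_idealOf, cinf_apply]
  · intro f
    rw [← hx]
    exact (mem_Lsub_infPl_iff D f).symm

end Fermat.Agent.S20
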