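import Mathlib
import Fermat.Agent.S20.L4FinDual

set_option autoImplicit false
set_option linter.unusedSectionVars false

/-!
# S20 (L4.W): `div(dx)` has finite support (instance form)

Same context and local instances as `S20/L4Fin.lean`, `x = algebraMap K[X] F X`.
* `finite_ramified_finPlace`: only finitely many primes of the ring of integers are ramified;
* `infPl_finite`: `x` has finitely many poles;
* `Wdx_support_finite`, `WdxDiv : Place K F →₀ ℤ`, `WdxDiv_apply`.
-/

noncomputable section
namespace Fermat.Agent.S20
open AlgebraicCurve Polynomial FunctionField IsDedekindDomain IsDedekindDomain.HeightOneSpectrum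
open Fermat.Agent.S24.FF nonZeroDivisors IntermediateField

variable {K F : Type*} [Field K] [Field F] [Algebra K F] [IsAlgClosed K] [CharZero K]
  [Algebra K[X] F] [Algebra (RatFunc K) F] [IsScalarTower K K[X] F]
  [IsScalarTower K[X] (RatFunc K) F] [IsScalarTower K (RatFunc K) F]
  [FiniteDimensional (RatFunc K) F]

attribute [local instance] fundIdAlgebra fundId_isScalarTower fundId_isSeparable

/-- only finitely many finite places are ramified over `K[X]` -/
theorem finite_ramified_finPlace :
    {w : HeightOneSpectrum (ringOfIntegers K F) | w.asIdeal.ramificationIdx K[X] ≠ 1}.Finite := by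
  have hTF : Module.IsTorsionFree K[X] (ringOfIntegers K F) := fundId_isTorsionFree K F
  have hfin : Module.Finite K[X] (ringOfIntegers K F) :=
    IsIntegralClosure.finite K[X] (RatFunc K) F (ringOfIntegers K F)
  exact finite_ramificationIdx_ne_one (RatFunc K) F

/-- the set of poles of `x` is finite -/
theorem infPl_finite : (infPl K (algebraMap K[X] F X)).Finite := by
  have hF : IsFF1 K F := isFF1_of_instances
  have hx := transcendental_xOf (K := K) (F := F)
  have hx0 : algebraMap K[X] F X ≠ 0 := by
    intro h
    apply hx
    rw [h]
    exact isAlgebraic_zero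
  exact polesOf_finite hF hx0

/-- (L4.W) `dx` has finitely many zeros and poles. -/
theorem Wdx_support_finite : (Function.support (Wdx K (algebraMap K[X] F X))).Finite := by
  refine (((finite_ramified_finPlace (K := K) (F := F)).image finPlace).union
    (infPl_finite (K := K) (F := F))).subset ?_
  intro v hv
  by_cases hvf : v ∈ finPl K (algebraMap K[X] F X)
  · obtain ⟨w, rfl⟩ := exists_finPlace_eq hvf
    left
    refine ⟨w, ?_, rfl⟩
    intro h1
    apply hv
    rw [Wdx_finPlace, h1]
    simp
  · right
    rw [mem_finPl, not_le] at hvf
    exact hvf

/-- the canonical divisor `div(dx)` as a finitely supported function -/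
def WdxDiv : Place K F →₀ ℤ :=
  Finsupp.ofSupportFinite (Wdx K (algebraMap K[X] F X)) Wdx_support_finite

theorem WdxDiv_apply (v : Place K F) :
    (WdxDiv : Place K F →₀ ℤ) v = Wdx K (algebraMap K[X] F X) v := rfl

end Fermat.Agent.S20
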