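import Fermat.Agent.S20.ColReduce
import Fermat.Agent.S20.DegLE

set_option autoImplicit false

/-!
# S20 (Dedekind–Weber): Birkhoff-type factorisation over `K[X]` and `O_∞`

Every invertible matrix `G` over `K(X)` can be written as `G * U = W * diag (X ^ δ j)` with `U`
unimodular over `K[X]` and `W` invertible over `O_∞ = Linf K 0` (entries of degree `≤ 0`, and
`(det W)⁻¹` of degree `≤ 0`).
-/

namespace Fermat.Agent.S20

open Polynomial Matrix

variable {K : Type*} [Field K] {ι : Type*} [Fintype ι] [DecidableEq ι]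

/-- Coefficient of a product at the sum of (non-uniform) degree bounds. -/
theorem coeff_prod_of_natDegree_le' {α : Type*} (s : Finset α) (f : α → K[X]) (d : α → ℕ)
    (h : ∀ i ∈ s, (f i).natDegree ≤ d i) :
    (∏ i ∈ s, f i).natDegree ≤ ∑ i ∈ s, d i ∧
      (∏ i ∈ s, f i).coeff (∑ i ∈ s, d i) = ∏ i ∈ s, (f i).coeff (d i) := by
  classical
  induction s using Finset.induction_on with
  | empty => simp
  | insert a s ha ih =>
    have ih' := ih fun i hi => h i (Finset.mem_insert_of_mem hi)
    have hfa : (f a).natDegree ≤ d a := h a (Finset.mem_insert_self a s)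
    rw [Finset.prod_insert ha, Finset.sum_insert ha, Finset.prod_insert ha]
    refine ⟨(natDegree_mul_le).trans (add_le_add hfa ih'.1), ?_⟩
    rw [coeff_mul_add_eq_of_natDegree_le hfa ih'.1, ih'.2]

/-- Degree bound and top coefficient of the determinant of a polynomial matrix with column degree
bounds `d`. -/
theorem det_natDegree_le_and_coeff (B : Matrix ι ι K[X]) (d : ι → ℕ)
    (h : ∀ i j, (B i j).natDegree ≤ d j) :
    B.det.natDegree ≤ ∑ j, d j ∧
      B.det.coeff (∑ j, d j) = (Matrix.of fun i j => (B i j).coeff (d j)).det := by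
  have key : ∀ σ : Equiv.Perm ι, (∏ i, B (σ i) i).natDegree ≤ ∑ j, d j ∧
      (∏ i, B (σ i) i).coeff (∑ j, d j) = ∏ i, (B (σ i) i).coeff (d i) := fun σ =>
    coeff_prod_of_natDegree_le' Finset.univ (fun i => B (σ i) i) d fun i _ => h (σ i) i
  constructor
  · rw [Matrix.det_apply]
    refine (natDegree_sum_le_of_forall_le _ _ ?_)
    intro σ _
    refine (natDegree_smul_le _ _).trans (key σ).1
  · rw [Matrix.det_apply, Matrix.det_apply, finsetSum_coeff]
    refine Finset.sum_congr rfl fun σ _ => ?_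
    rcases Int.units_eq_one_or (Equiv.Perm.sign σ) with hs | hs
    · simp only [hs, one_smul, Matrix.of_apply]
      exact (key σ).2
    · simp only [hs, Units.neg_smul, one_smul, coeff_neg, Matrix.of_apply, neg_inj]
      exact (key σ).2


omit [DecidableEq ι] in
theorem prod_X_zpow (e : ι → ℤ) :
    ∏ j, (RatFunc.X : RatFunc K) ^ e j = RatFunc.X ^ ∑ j, e j := by
  classical
  induction (Finset.univ : Finset ι) using Finset.induction_on with
  | empty => simp
  | insert a s ha ih =>
    rw [Finset.prod_insert ha, Finset.sum_insert ha, zpow_add₀ RatFunc.X_ne_zero, ih]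

theorem intDegree_pow' {f : RatFunc K} (hf : f ≠ 0) (n : ℕ) :
    (f ^ n).intDegree = n * f.intDegree := by
  induction n with
  | zero => simp
  | succ n ih =>
    rw [pow_succ, RatFunc.intDegree_mul (pow_ne_zero n hf) hf, ih]
    push_cast
    ring

/-- **Birkhoff / Dedekind–Weber factorisation.** -/
theorem exists_birkhoff (G : Matrix ι ι (RatFunc K)) (hG : G.det ≠ 0) :
    ∃ (U : Matrix ι ι K[X]) (δ : ι → ℤ) (W : Matrix ι ι (RatFunc K)),
      IsUnit U.det ∧ (∀ i j, W i j ∈ Linf K 0) ∧ W.det ≠ 0 ∧ W.det⁻¹ ∈ Linf K 0 ∧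
        G * U.map (algebraMap K[X] (RatFunc K)) =
          W * Matrix.diagonal fun j => (RatFunc.X : RatFunc K) ^ δ j := by
  classical
  set φ : K[X] →+* RatFunc K := algebraMap K[X] (RatFunc K) with hφ
  have hφinj : Function.Injective φ := IsFractionRing.injective K[X] (RatFunc K)
  -- clear denominators
  obtain ⟨b, hb⟩ := IsLocalization.exist_integer_multiples_of_finite (nonZeroDivisors K[X])
    (fun ij : ι × ι => G ij.1 ij.2)
  choose P' hP' using hb
  set p : K[X] := (b : K[X]) with hp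
  have hp0 : p ≠ 0 := nonZeroDivisors.coe_ne_zero b
  have hφp : φ p ≠ 0 := fun h => hp0 (hφinj (by rw [h, map_zero]))
  let P : Matrix ι ι K[X] := Matrix.of fun i j => P' (i, j)
  have hPij : ∀ i j, φ (P i j) = φ p * G i j := by
    intro i j
    have := hP' (i, j)
    simpa [P, Algebra.smul_def] using this
  have hP : P.map φ = φ p • G := by
    ext i j
    simp [hPij]
  have hdetP : P.det ≠ 0 := by
    intro h0
    have h1 : (P.map φ).det = φ P.det := (RingHom.map_det φ P).symm
    rw [hP, Matrix.det_smul, h0, map_zero] at h1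
    exact (mul_ne_zero (pow_ne_zero _ hφp) hG) h1
  obtain ⟨U, hU, hlead⟩ := exists_colReduced P hdetP
  set B : Matrix ι ι K[X] := P * U with hB
  set d : ι → ℕ := colDeg B with hd
  obtain ⟨hdeg, hcoeff⟩ := det_natDegree_le_and_coeff B d (natDegree_le_colDeg B)
  have hcoeff' : B.det.coeff (∑ j, d j) ≠ 0 := by
    rw [hcoeff]
    exact hlead
  have hdetB : B.det ≠ 0 := by
    intro h0
    rw [h0] at hcoeff'
    simp at hcoeff'
  have hnat : B.det.natDegree = ∑ j, d j :=
    le_antisymm hdeg (le_natDegree_of_ne_zero hcoeff')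
  -- the scalar `c = X ^ deg p / p` of degree `0`
  set c : RatFunc K := RatFunc.X ^ (p.natDegree : ℤ) * (φ p)⁻¹ with hc
  have hc0 : c ≠ 0 := mul_ne_zero (X_zpow_ne_zero _) (inv_ne_zero hφp)
  have hcdeg : c.intDegree = 0 := by
    rw [hc, RatFunc.intDegree_mul (X_zpow_ne_zero _) (inv_ne_zero hφp), intDegree_X_zpow,
      RatFunc.intDegree_inv, hφ, RatFunc.intDegree_polynomial]
    ring
  set D1 : Matrix ι ι (RatFunc K) := Matrix.diagonal fun j => RatFunc.X ^ (-(d j : ℤ)) with hD1
  set W : Matrix ι ι (RatFunc K) := c • (B.map φ * D1) with hW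
  have hWij : ∀ i j, W i j = c * (φ (B i j) * RatFunc.X ^ (-(d j : ℤ))) := by
    intro i j
    simp [hW, hD1, Matrix.mul_diagonal]
  have hdetW : W.det = c ^ Fintype.card ι * (φ B.det * RatFunc.X ^ (-∑ j, (d j : ℤ))) := by
    rw [hW, Matrix.det_smul, Matrix.det_mul, hD1, Matrix.det_diagonal, prod_X_zpow,
      Finset.sum_neg_distrib]
    congr 2
    exact (RingHom.map_det φ B).symm
  have hφdetB : φ B.det ≠ 0 := fun h => hdetB (hφinj (by rw [h, map_zero]))
  have hdetW0 : W.det ≠ 0 := by
    rw [hdetW]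
    exact mul_ne_zero (pow_ne_zero _ hc0) (mul_ne_zero hφdetB (X_zpow_ne_zero _))
  have hdetWdeg : W.det.intDegree = 0 := by
    rw [hdetW, RatFunc.intDegree_mul (pow_ne_zero _ hc0)
      (mul_ne_zero hφdetB (X_zpow_ne_zero _)), intDegree_pow' hc0, hcdeg,
      RatFunc.intDegree_mul hφdetB (X_zpow_ne_zero _), intDegree_X_zpow, hφ,
      RatFunc.intDegree_polynomial, hnat]
    push_cast
    ring
  refine ⟨U, fun j => (d j : ℤ) - p.natDegree, W, hU, ?_, hdetW0, ?_, ?_⟩
  · intro i j
    rw [hWij]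
    have h1 : c ∈ Linf K 0 := Or.inr hcdeg.le
    have h2 : φ (B i j) ∈ Linf K (d j : ℤ) := by
      rw [hφ, algebraMap_mem_Linf_iff]
      right
      exact_mod_cast natDegree_le_colDeg B i j
    have h3 := mul_mem_Linf h1 (mul_mem_Linf h2 (X_zpow_mem_Linf (K := K) (-(d j : ℤ))))
    simpa using h3
  · right
    rw [RatFunc.intDegree_inv, hdetWdeg]
    simp
  · have hscal : ∀ j, c * RatFunc.X ^ (-(d j : ℤ)) * RatFunc.X ^ ((d j : ℤ) - p.natDegree) =
        (φ p)⁻¹ := by
      intro j
      have hX : (RatFunc.X : RatFunc K) ^ (p.natDegree : ℤ) * RatFunc.X ^ (-(d j : ℤ)) *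
          RatFunc.X ^ ((d j : ℤ) - p.natDegree) = 1 := by
        rw [← zpow_add₀ RatFunc.X_ne_zero, ← zpow_add₀ RatFunc.X_ne_zero]
        have : (p.natDegree : ℤ) + -(d j : ℤ) + ((d j : ℤ) - p.natDegree) = 0 := by ring
        rw [this, zpow_zero]
      calc c * RatFunc.X ^ (-(d j : ℤ)) * RatFunc.X ^ ((d j : ℤ) - p.natDegree)
          = (RatFunc.X ^ (p.natDegree : ℤ) * RatFunc.X ^ (-(d j : ℤ)) *
              RatFunc.X ^ ((d j : ℤ) - p.natDegree)) * (φ p)⁻¹ := by rw [hc]; ring
        _ = (φ p)⁻¹ := by rw [hX, one_mul]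
    ext i j
    rw [Matrix.mul_diagonal, hWij, Matrix.mul_apply]
    have hBij : φ (B i j) = ∑ k, φ p * G i k * φ (U k j) := by
      rw [hB, Matrix.mul_apply, map_sum]
      refine Finset.sum_congr rfl fun k _ => ?_
      rw [map_mul, hPij]
    calc ∑ k, G i k * (U.map φ) k j
        = (φ p)⁻¹ * ∑ k, φ p * G i k * φ (U k j) := by
          rw [Finset.mul_sum]
          refine Finset.sum_congr rfl fun k _ => ?_
          rw [Matrix.map_apply]
          field_simp
      _ = c * (φ (B i j) * RatFunc.X ^ (-(d j : ℤ))) *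
            RatFunc.X ^ ((d j : ℤ) - p.natDegree) := by
          rw [← hBij, ← hscal j]
          ring

end Fermat.Agent.S20
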