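import Mathlib
import Fermat.Agent.S20.DWCoord

set_option autoImplicit false

/-!
# S20 (Dedekind–Weber), chunk R4: the normal form of a lattice pair

Given a Birkhoff factorisation `G U = W diag(x^δ)` for every invertible matrix `G` over `K(x)`
(`U ∈ GL_n(K[x])`, `W ∈ GL_n(O_∞)`), a `K[x]`-lattice (basis `a`) and an `O_∞`-lattice (basis `a'`)
of a finite dimensional `K(x)`-space have a common adapted basis.
-/

namespace Fermat.Agent.S20

open Polynomial Module Matrix

noncomputable section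

variable {K : Type*} [Field K] {ι : Type*} [Fintype ι] [DecidableEq ι]

omit [DecidableEq ι] in
theorem nf_mulVec_mem (S : Submodule K (RatFunc K))
    (hmul : ∀ f g, f ∈ S → g ∈ S → f * g ∈ S) (M : Matrix ι ι (RatFunc K))
    (hM : ∀ i j, M i j ∈ S) (x : ι → RatFunc K) (hx : ∀ i, x i ∈ S) (i : ι) :
    (M *ᵥ x) i ∈ S := by
  rw [Matrix.mulVec, dotProduct]
  exact S.sum_mem fun j _ => hmul _ _ (hM i j) (hx j)

theorem nf_mulVec_mem_iff (S : Submodule K (RatFunc K))
    (hmul : ∀ f g, f ∈ S → g ∈ S → f * g ∈ S) (M Minv : Matrix ι ι (RatFunc K))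
    (hM : ∀ i j, M i j ∈ S) (hMinv : ∀ i j, Minv i j ∈ S) (hinv : Minv * M = 1)
    (x : ι → RatFunc K) :
    (∀ i, (M *ᵥ x) i ∈ S) ↔ ∀ i, x i ∈ S := by
  constructor
  · intro h i
    have := nf_mulVec_mem S hmul Minv hMinv (M *ᵥ x) h i
    rwa [Matrix.mulVec_mulVec, hinv, Matrix.one_mulVec] at this
  · intro h i
    exact nf_mulVec_mem S hmul M hM x h i

variable (K) in
/-- `O_∞ = Linf K 0` as a subring of `K(x)`. -/
def linfZeroSubring : Subring (RatFunc K) where
  carrier := {f | f ∈ Linf K 0}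
  mul_mem' := mul_mem_Linf_zero
  one_mem' := one_mem_Linf_zero
  add_mem' := (Linf K 0).add_mem
  zero_mem' := (Linf K 0).zero_mem
  neg_mem' := (Linf K 0).neg_mem

theorem nf_adjugate_mem (W : Matrix ι ι (RatFunc K)) (hW : ∀ i j, W i j ∈ Linf K 0) (i j : ι) :
    W.adjugate i j ∈ Linf K 0 := by
  let W' : Matrix ι ι (linfZeroSubring K) := fun i j => ⟨W i j, hW i j⟩
  have hWW' : W = (linfZeroSubring K).subtype.mapMatrix W' := by
    ext i j
    rfl
  rw [hWW', ← RingHom.map_adjugate]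
  exact (W'.adjugate i j).2

theorem nf_inv_mem (W : Matrix ι ι (RatFunc K)) (hW : ∀ i j, W i j ∈ Linf K 0)
    (hdetinv : W.det⁻¹ ∈ Linf K 0) (i j : ι) : W⁻¹ i j ∈ Linf K 0 := by
  rw [Matrix.inv_def, Ring.inverse_eq_inv', Matrix.smul_apply, smul_eq_mul]
  exact mul_mem_Linf_zero hdetinv (nf_adjugate_mem W hW i j)

variable {V : Type*} [AddCommGroup V] [Module K V] [Module (RatFunc K) V]
  [IsScalarTower K (RatFunc K) V]

/-- the basis `a · P` for an invertible matrix `P` with inverse `Pinv`. -/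
def nfBasis (a : Basis ι (RatFunc K) V) (P Pinv : Matrix ι ι (RatFunc K)) (h1 : P * Pinv = 1)
    (h2 : Pinv * P = 1) : Basis ι (RatFunc K) V :=
  Basis.ofEquivFun (a.equivFun.trans (Matrix.toLinearEquiv' Pinv ⟨P, h1, h2⟩))

omit [Module K V] [IsScalarTower K (RatFunc K) V] in
theorem nfBasis_repr (a : Basis ι (RatFunc K) V) (P Pinv : Matrix ι ι (RatFunc K))
    (h1 : P * Pinv = 1) (h2 : Pinv * P = 1) (v : V) :
    (fun i => (nfBasis a P Pinv h1 h2).repr v i) = Pinv *ᵥ (fun i => a.repr v i) := by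
  funext i
  rw [nfBasis, Basis.ofEquivFun_repr_apply]
  rfl

omit [Module K V] [IsScalarTower K (RatFunc K) V] in
theorem repr_eq_mulVec_nfBasis_repr (a : Basis ι (RatFunc K) V) (P Pinv : Matrix ι ι (RatFunc K))
    (h1 : P * Pinv = 1) (h2 : Pinv * P = 1) (v : V) :
    (fun i => a.repr v i) = P *ᵥ (fun i => (nfBasis a P Pinv h1 h2).repr v i) := by
  rw [nfBasis_repr, Matrix.mulVec_mulVec, h1, Matrix.one_mulVec]

/-- **Dedekind–Weber normal form** from a Birkhoff factorisation. -/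
theorem exists_normalForm_of_birkhoff
    (hbirk : ∀ G : Matrix ι ι (RatFunc K), G.det ≠ 0 →
      ∃ (U : Matrix ι ι K[X]) (δ : ι → ℤ) (W : Matrix ι ι (RatFunc K)),
        IsUnit U.det ∧ (∀ i j, W i j ∈ Linf K 0) ∧ W.det ≠ 0 ∧ W.det⁻¹ ∈ Linf K 0 ∧
        G * U.map (algebraMap K[X] (RatFunc K)) =
          W * Matrix.diagonal fun j => (RatFunc.X : RatFunc K) ^ δ j)
    (a a' : Basis ι (RatFunc K) V) :
    ∃ (c : Basis ι (RatFunc K) V) (d : ι → ℤ),
      latPoly c = latPoly a ∧ latInf c d = latInf a' 0 := by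
  set G : Matrix ι ι (RatFunc K) := a'.toMatrix a with hG
  have hGdet : G.det ≠ 0 := by
    have : Invertible G := Basis.invertibleToMatrix a' a
    exact (Matrix.isUnit_det_of_invertible G).ne_zero
  obtain ⟨U, δ, W, hU, hW, hWdet, hWdetinv, hGU⟩ := hbirk G hGdet
  set φ := algebraMap K[X] (RatFunc K) with hφ
  set P : Matrix ι ι (RatFunc K) := U.map φ with hP
  set Pinv : Matrix ι ι (RatFunc K) := U⁻¹.map φ with hPinv
  have h1 : P * Pinv = 1 := by
    rw [hP, hPinv, ← Matrix.map_mul, Matrix.mul_nonsing_inv U hU, Matrix.map_one _ (map_zero φ)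
      (map_one φ)]
  have h2 : Pinv * P = 1 := by
    rw [hP, hPinv, ← Matrix.map_mul, Matrix.nonsing_inv_mul U hU, Matrix.map_one _ (map_zero φ)
      (map_one φ)]
  refine ⟨nfBasis a P Pinv h1 h2, fun j => -δ j, ?_, ?_⟩
  · ext v
    rw [mem_latPoly_iff, mem_latPoly_iff]
    have hrepr := repr_eq_mulVec_nfBasis_repr a P Pinv h1 h2 v
    have key := nf_mulVec_mem_iff (polys K) (fun f g hf hg => mul_mem_polys hf hg) P Pinv
      (fun i j => algebraMap_mem_polys _) (fun i j => algebraMap_mem_polys _) h2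
      (fun i => (nfBasis a P Pinv h1 h2).repr v i)
    rw [← hrepr] at key
    exact key.symm
  · ext v
    rw [mem_latInf_iff, mem_latInf_iff]
    have hrepr := repr_eq_mulVec_nfBasis_repr a P Pinv h1 h2 v
    have hrepr' : (fun i => a'.repr v i) = G *ᵥ (fun i => a.repr v i) :=
      (Basis.toMatrix_mulVec_repr a a' v).symm
    set x : ι → RatFunc K := fun i => (nfBasis a P Pinv h1 h2).repr v i with hx
    have hcoord : (fun i => a'.repr v i) =
        W *ᵥ ((Matrix.diagonal fun j => (RatFunc.X : RatFunc K) ^ δ j) *ᵥ x) := by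
      rw [hrepr', hrepr, Matrix.mulVec_mulVec, hGU, ← Matrix.mulVec_mulVec]
    have hWinv : W⁻¹ * W = 1 := Matrix.nonsing_inv_mul W (isUnit_iff_ne_zero.2 hWdet)
    have key := nf_mulVec_mem_iff (Linf K 0) (fun f g hf hg => mul_mem_Linf_zero hf hg) W W⁻¹
      hW (nf_inv_mem W hW hWdetinv) hWinv
      ((Matrix.diagonal fun j => (RatFunc.X : RatFunc K) ^ δ j) *ᵥ x)
    rw [← hcoord] at key
    have key' : (∀ i, a'.repr v i ∈ Linf K 0) ↔
        ∀ i, ((Matrix.diagonal fun j => (RatFunc.X : RatFunc K) ^ δ j) *ᵥ x) i ∈ Linf K 0 := key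
    simp only [Pi.zero_apply]
    rw [key']
    refine forall_congr' fun i => ?_
    rw [Matrix.mulVec_diagonal, mem_Linf_iff_mul_X_zpow, neg_neg, mul_comm]

end

end Fermat.Agent.S20
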