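import Mathlib
import Fermat.Agent.S20.NormalForm

set_option autoImplicit false

/-!
# S20 (Dedekind–Weber), chunk G5: Riemann–Roch for an arbitrary lattice pair

For ANY two bases `a`, `a'` of a finite dimensional `K(x)`-space `V` (a `K[x]`-lattice `latPoly a`
and an `O_∞`-lattice `latInf a' 0`) and a nondegenerate bilinear form `B`:
* `latPoly a ⊓ latInf a' 0` and `V ⧸ (latPoly a ⊔ latInf a' 0)` are finite dimensional over `K`;
* `dim V ⧸ (M ⊔ M') = dim (M^* ⊓ x⁻² M'^*)` (Serre duality).
Everything is stated with the Birkhoff factorisation as a hypothesis `hbirk`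
(= the conclusion of `exists_birkhoff`).
-/

namespace Fermat.Agent.S20

open Polynomial Module Matrix

noncomputable section

variable {K : Type*} [Field K] {ι : Type*} [Fintype ι] [DecidableEq ι]
  {V : Type*} [AddCommGroup V] [Module K V] [Module (RatFunc K) V]
  [IsScalarTower K (RatFunc K) V]

/-- The Birkhoff factorisation property for `ι × ι` matrices over `K(x)`. -/
def BirkhoffProp (K : Type*) [Field K] (ι : Type*) [Fintype ι] [DecidableEq ι] : Prop :=
  ∀ G : Matrix ι ι (RatFunc K), G.det ≠ 0 →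
    ∃ (U : Matrix ι ι K[X]) (δ : ι → ℤ) (W : Matrix ι ι (RatFunc K)),
      IsUnit U.det ∧ (∀ i j, W i j ∈ Linf K 0) ∧ W.det ≠ 0 ∧ W.det⁻¹ ∈ Linf K 0 ∧
      G * U.map (algebraMap K[X] (RatFunc K)) =
        W * Matrix.diagonal fun j => (RatFunc.X : RatFunc K) ^ δ j

theorem finite_latPoly_inf_latInf_of_birkhoff (hbirk : BirkhoffProp K ι)
    (a a' : Basis ι (RatFunc K) V) : Module.Finite K ↥(latPoly a ⊓ latInf a' 0) := by
  obtain ⟨c, d, h1, h2⟩ := exists_normalForm_of_birkhoff hbirk a a'
  rw [← h1, ← h2]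
  infer_instance

theorem finite_quotient_latPoly_sup_latInf_of_birkhoff (hbirk : BirkhoffProp K ι)
    (a a' : Basis ι (RatFunc K) V) : Module.Finite K (V ⧸ (latPoly a ⊔ latInf a' 0)) := by
  obtain ⟨c, d, h1, h2⟩ := exists_normalForm_of_birkhoff hbirk a a'
  rw [← h1, ← h2]
  infer_instance

/-- **Serre duality for an arbitrary lattice pair.** -/
theorem finrank_quotient_eq_finrank_dualK_of_birkhoff (hbirk : BirkhoffProp K ι)
    (B : LinearMap.BilinForm (RatFunc K) V) (hB : B.Nondegenerate)
    (a a' : Basis ι (RatFunc K) V) :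
    finrank K (V ⧸ (latPoly a ⊔ latInf a' 0)) =
      finrank K ↥(dualK B (latPoly a) (polys K) ⊓ dualK B (latInf a' 0) (Linf K (-2))) := by
  obtain ⟨c, d, h1, h2⟩ := exists_normalForm_of_birkhoff hbirk a a'
  rw [← h1, ← h2]
  refine finrank_quotient_eq_finrank_dualK (b := c) (bd := B.dualBasis hB c) d ?_
  intro i j
  rw [LinearMap.BilinForm.apply_dualBasis_left]
  by_cases h : i = j
  · rw [if_pos h, if_pos h.symm]
  · rw [if_neg h, if_neg (fun h' => h h'.symm)]

/-- Euler characteristic of a lattice pair in normal form: `∑ (d i + 1)`. -/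
theorem finrank_sub_finrank_latPoly_latInf (b : Basis ι (RatFunc K) V) (d : ι → ℤ) :
    (finrank K ↥(latPoly b ⊓ latInf b d) : ℤ) - finrank K (V ⧸ (latPoly b ⊔ latInf b d)) =
      ∑ i, (d i + 1) := by
  rw [finrank_latPoly_inf_latInf, finrank_quotient_latPoly_sup_latInf]
  push_cast
  rw [← Finset.sum_sub_distrib]
  refine Finset.sum_congr rfl fun i _ => ?_
  omega

end

end Fermat.Agent.S20
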