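import Mathlib
import Fermat.Agent.S20.Birkhoff
import Fermat.Agent.S20.LatticeRR
import Fermat.Agent.S20.OInf

set_option autoImplicit false

/-!
# S20 (Dedekind–Weber): the generic lattice layer, unconditional final statements

`exists_birkhoff` discharges the hypothesis `BirkhoffProp` of `NormalForm.lean` / `LatticeRR.lean`.
-/

namespace Fermat.Agent.S20

open Polynomial Module Matrix

noncomputable section

variable {K : Type*} [Field K] {ι : Type*} [Fintype ι] [DecidableEq ι]
  {V : Type*} [AddCommGroup V] [Module K V] [Module (RatFunc K) V]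
  [IsScalarTower K (RatFunc K) V]

theorem birkhoffProp (K : Type*) [Field K] (ι : Type*) [Fintype ι] [DecidableEq ι] :
    BirkhoffProp K ι :=
  fun G hG => exists_birkhoff G hG

/-- **Dedekind–Weber normal form**: a `K[x]`-lattice (basis `a`) and an `O_∞`-lattice (basis `a'`)
have a common adapted basis. -/
theorem exists_normalForm (a a' : Basis ι (RatFunc K) V) :
    ∃ (c : Basis ι (RatFunc K) V) (d : ι → ℤ),
      latPoly c = latPoly a ∧ latInf c d = latInf a' 0 :=
  exists_normalForm_of_birkhoff (birkhoffProp K ι) a a'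

/-- (A1) `M ⊓ M'` is finite dimensional over `K`. -/
theorem finite_latPoly_inf_latInf_zero (a a' : Basis ι (RatFunc K) V) :
    Module.Finite K ↥(latPoly a ⊓ latInf a' 0) :=
  finite_latPoly_inf_latInf_of_birkhoff (birkhoffProp K ι) a a'

/-- (A2) `V ⧸ (M ⊔ M')` is finite dimensional over `K`. -/
theorem finite_quotient_latPoly_sup_latInf_zero (a a' : Basis ι (RatFunc K) V) :
    Module.Finite K (V ⧸ (latPoly a ⊔ latInf a' 0)) :=
  finite_quotient_latPoly_sup_latInf_of_birkhoff (birkhoffProp K ι) a a'

/-- (B) **Serre duality for an arbitrary lattice pair**: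
`dim V ⧸ (M ⊔ M') = dim (M^* ⊓ x⁻² M'^*)`. -/
theorem finrank_quotient_eq_finrank_dualK_zero (B : LinearMap.BilinForm (RatFunc K) V)
    (hB : B.Nondegenerate) (a a' : Basis ι (RatFunc K) V) :
    finrank K (V ⧸ (latPoly a ⊔ latInf a' 0)) =
      finrank K ↥(dualK B (latPoly a) (polys K) ⊓ dualK B (latInf a' 0) (Linf K (-2))) :=
  finrank_quotient_eq_finrank_dualK_of_birkhoff (birkhoffProp K ι) B hB a a'

omit [DecidableEq ι] in
/-- Bridge to spans: for a domain `A0` with fraction field `K(x)` whose image in `K(x)` is the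
`K`-subspace `T` (e.g. `A0 = K[X]`, `T = polys K`; `A0 = OInf K`, `T = Linf K 0`),
the `A0`-span of a basis is the coordinate lattice. -/
theorem span_eq_coordSub {A0 : Type*} [CommRing A0] [IsDomain A0] [Algebra A0 (RatFunc K)]
    [IsFractionRing A0 (RatFunc K)] [Module A0 V] [IsScalarTower A0 (RatFunc K) V]
    (b : Basis ι (RatFunc K) V) (T : Submodule K (RatFunc K))
    (hT : (T : Set (RatFunc K)) = Set.range (algebraMap A0 (RatFunc K))) :
    (Submodule.span A0 (Set.range b) : Set V) = (coordSub b (fun _ => T) : Set V) := by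
  ext v
  rw [SetLike.mem_coe, SetLike.mem_coe, Basis.mem_span_iff_repr_mem, mem_coordSub]
  refine forall_congr' fun i => ?_
  rw [← hT]
  rfl

omit [DecidableEq ι] in
theorem span_polynomial_eq_latPoly [Module K[X] V] [IsScalarTower K[X] (RatFunc K) V]
    (b : Basis ι (RatFunc K) V) :
    (Submodule.span K[X] (Set.range b) : Set V) = (latPoly b : Set V) := by
  refine span_eq_coordSub b (polys K) ?_
  ext f
  rw [SetLike.mem_coe, mem_polys]
  rfl

omit [DecidableEq ι] in
theorem span_OInf_eq_latInf_zero (b : Basis ι (RatFunc K) V) :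
    (Submodule.span (OInf K) (Set.range b) : Set V) = (latInf b 0 : Set V) := by
  have h := span_eq_coordSub (A0 := OInf K) b (Linf K 0) (range_algebraMap_OInf (K := K)).symm
  rw [h]
  rfl

end

end Fermat.Agent.S20
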