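import Mathlib

set_option autoImplicit false

/-!
# S20 generic algebra, chunk R6: additivity of the Euler characteristic of a lattice pair

For `K`-subspaces `M₂ ≤ M₁` and `M'` of a `K`-vector space `W` there is a five-term exact sequence
`0 → M₂ ⊓ M' → M₁ ⊓ M' → M₁ / M₂ → W / (M₂ ⊔ M') → W / (M₁ ⊔ M') → 0`.
Counting dimensions gives `χ(M₁, M') - χ(M₂, M') = dim M₁ / M₂`.
-/

namespace Fermat.Agent.S20

open Module

section chi

variable {K : Type*} [Field K] {W : Type*} [AddCommGroup W] [Module K W]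

/-- The map `M₁ ⊓ M' → M₁ / M₂` of the five-term sequence. -/
noncomputable def chiB (M₁ M₂ M' : Submodule K W) :
    ↥(M₁ ⊓ M') →ₗ[K] ↥M₁ ⧸ (M₂.comap M₁.subtype) :=
  (M₂.comap M₁.subtype).mkQ ∘ₗ Submodule.inclusion (inf_le_left : M₁ ⊓ M' ≤ M₁)

/-- The map `M₁ / M₂ → W / (M₂ ⊔ M')` of the five-term sequence. -/
noncomputable def chiC (M₁ M₂ M' : Submodule K W) :
    (↥M₁ ⧸ (M₂.comap M₁.subtype)) →ₗ[K] W ⧸ (M₂ ⊔ M') :=
  Submodule.liftQ _ ((M₂ ⊔ M').mkQ ∘ₗ M₁.subtype) (by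
    intro x hx
    rw [Submodule.mem_comap] at hx
    rw [LinearMap.mem_ker, LinearMap.comp_apply, Submodule.mkQ_apply,
      Submodule.Quotient.mk_eq_zero]
    exact Submodule.mem_sup_left hx)

/-- The map `W / (M₂ ⊔ M') → W / (M₁ ⊔ M')` of the five-term sequence. -/
noncomputable def chiD (M₁ M₂ M' : Submodule K W) (h : M₂ ≤ M₁) :
    (W ⧸ (M₂ ⊔ M')) →ₗ[K] W ⧸ (M₁ ⊔ M') :=
  Submodule.mapQ _ _ LinearMap.id (by
    rw [Submodule.comap_id]
    exact sup_le_sup_right h M')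

theorem chiD_surjective (M₁ M₂ M' : Submodule K W) (h : M₂ ≤ M₁) :
    Function.Surjective (chiD M₁ M₂ M' h) := by
  intro y
  obtain ⟨w, rfl⟩ := Submodule.Quotient.mk_surjective _ y
  exact ⟨Submodule.Quotient.mk w, rfl⟩

theorem chiB_apply (M₁ M₂ M' : Submodule K W) (x : ↥(M₁ ⊓ M')) :
    chiB M₁ M₂ M' x = Submodule.Quotient.mk ⟨x.1, x.2.1⟩ := rfl

theorem chiC_mk (M₁ M₂ M' : Submodule K W) (x : ↥M₁) :
    chiC M₁ M₂ M' (Submodule.Quotient.mk x) = Submodule.Quotient.mk x.1 := rfl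

theorem chiD_mk (M₁ M₂ M' : Submodule K W) (h : M₂ ≤ M₁) (w : W) :
    chiD M₁ M₂ M' h (Submodule.Quotient.mk w) = Submodule.Quotient.mk w := rfl

/-- Exactness at `M₁ ⊓ M'`: the kernel of `chiB` is `M₂ ⊓ M'`. -/
noncomputable def chiKerBEquiv (M₁ M₂ M' : Submodule K W) (h : M₂ ≤ M₁) :
    ↥(LinearMap.ker (chiB M₁ M₂ M')) ≃ₗ[K] ↥(M₂ ⊓ M') where
  toFun x := ⟨x.1.1, by
    have hx := x.2
    rw [LinearMap.mem_ker, chiB_apply, Submodule.Quotient.mk_eq_zero, Submodule.mem_comap] at hx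
    exact ⟨hx, x.1.2.2⟩⟩
  map_add' _ _ := rfl
  map_smul' _ _ := rfl
  invFun y := ⟨⟨y.1, h y.2.1, y.2.2⟩, by
    rw [LinearMap.mem_ker, chiB_apply, Submodule.Quotient.mk_eq_zero, Submodule.mem_comap]
    exact y.2.1⟩
  left_inv _ := rfl
  right_inv _ := rfl

/-- Exactness at `M₁ / M₂`. -/
theorem range_chiB_eq_ker_chiC (M₁ M₂ M' : Submodule K W) (h : M₂ ≤ M₁) :
    LinearMap.range (chiB M₁ M₂ M') = LinearMap.ker (chiC M₁ M₂ M') := by
  apply le_antisymm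
  · rintro _ ⟨x, rfl⟩
    rw [LinearMap.mem_ker, chiB_apply, chiC_mk, Submodule.Quotient.mk_eq_zero]
    exact Submodule.mem_sup_right x.2.2
  · intro y hy
    obtain ⟨x, rfl⟩ := Submodule.Quotient.mk_surjective _ y
    rw [LinearMap.mem_ker, chiC_mk, Submodule.Quotient.mk_eq_zero, Submodule.mem_sup] at hy
    obtain ⟨m₂, hm₂, m', hm', hsum⟩ := hy
    have hm'eq : m' = x.1 - m₂ := by rw [← hsum]; abel
    have hm'1 : m' ∈ M₁ := by
      rw [hm'eq]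
      exact M₁.sub_mem x.2 (h hm₂)
    refine ⟨⟨m', hm'1, hm'⟩, ?_⟩
    rw [chiB_apply, Submodule.Quotient.eq, Submodule.mem_comap]
    have : M₁.subtype (⟨m', hm'1⟩ - x) = -m₂ := by
      simp only [map_sub, Submodule.subtype_apply]
      rw [hm'eq]; abel
    rw [this]
    exact M₂.neg_mem hm₂

/-- Exactness at `W / (M₂ ⊔ M')`. -/
theorem range_chiC_eq_ker_chiD (M₁ M₂ M' : Submodule K W) (h : M₂ ≤ M₁) :
    LinearMap.range (chiC M₁ M₂ M') = LinearMap.ker (chiD M₁ M₂ M' h) := by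
  apply le_antisymm
  · rintro _ ⟨y, rfl⟩
    obtain ⟨x, rfl⟩ := Submodule.Quotient.mk_surjective _ y
    rw [LinearMap.mem_ker, chiC_mk, chiD_mk, Submodule.Quotient.mk_eq_zero]
    exact Submodule.mem_sup_left x.2
  · intro y hy
    obtain ⟨w, rfl⟩ := Submodule.Quotient.mk_surjective _ y
    rw [LinearMap.mem_ker, chiD_mk, Submodule.Quotient.mk_eq_zero, Submodule.mem_sup] at hy
    obtain ⟨m₁, hm₁, m', hm', hsum⟩ := hy
    refine ⟨Submodule.Quotient.mk ⟨m₁, hm₁⟩, ?_⟩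
    rw [chiC_mk, Submodule.Quotient.eq]
    have : m₁ - w = -m' := by rw [← hsum]; abel
    rw [this]
    exact Submodule.mem_sup_right (M'.neg_mem hm')

/-- **Additivity of the Euler characteristic**: `χ(M₁, M') - χ(M₂, M') = dim_K (M₁ / M₂)`. -/
theorem chi_sub_chi (M₁ M₂ M' : Submodule K W)
    (h : M₂ ≤ M₁) [Module.Finite K ↥(M₁ ⊓ M')] [Module.Finite K ↥(M₂ ⊓ M')]
    [Module.Finite K (W ⧸ (M₁ ⊔ M'))] [Module.Finite K (W ⧸ (M₂ ⊔ M'))]
    [Module.Finite K (↥M₁ ⧸ (M₂.comap M₁.subtype))] :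
    ((Module.finrank K ↥(M₁ ⊓ M') : ℤ) - Module.finrank K (W ⧸ (M₁ ⊔ M'))) -
      ((Module.finrank K ↥(M₂ ⊓ M') : ℤ) - Module.finrank K (W ⧸ (M₂ ⊔ M'))) =
      Module.finrank K (↥M₁ ⧸ (M₂.comap M₁.subtype)) := by
  have hb := LinearMap.finrank_range_add_finrank_ker (chiB M₁ M₂ M')
  have hc := LinearMap.finrank_range_add_finrank_ker (chiC M₁ M₂ M')
  have hd := LinearMap.finrank_range_add_finrank_ker (chiD M₁ M₂ M' h)
  rw [(chiKerBEquiv M₁ M₂ M' h).finrank_eq, range_chiB_eq_ker_chiC M₁ M₂ M' h] at hb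
  rw [range_chiC_eq_ker_chiD M₁ M₂ M' h] at hc
  rw [LinearMap.range_eq_top.mpr (chiD_surjective M₁ M₂ M' h), finrank_top] at hd
  omega

end chi

end Fermat.Agent.S20
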