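import Mathlib
import Fermat.Agent.S20.Chi

/-! # S20 layer (L4.7), abstract part: the Euler characteristic argument.

Two families of `K`-subspaces `I D`, `J D` of `V` indexed by divisors `D : P →₀ ℤ` (think
`I D = {f | ord_v f ≥ -D v at the finite places}`, `J D =` same at the infinite places), with
finite `H⁰ = I D ⊓ J E` and `H¹ = V ⧸ (I D ⊔ J E)`, quotient dimensions given by partial degrees,
Serre duality `h¹(D) = h⁰(W - D)` and `h⁰(0) = 1`.  Then `2 h⁰(W) = deg W + 2`. -/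

set_option autoImplicit false

namespace Fermat.Agent.S20

open Module

section Abstract

variable {K V P : Type*} [Field K] [AddCommGroup V] [Module K V]

/-- Euler characteristic of a pair of subspaces. -/
noncomputable def chiPair (M M' : Submodule K V) : ℤ :=
  (finrank K ↥(M ⊓ M') : ℤ) - (finrank K (V ⧸ (M ⊔ M')) : ℤ)

theorem chiPair_comm (M M' : Submodule K V) : chiPair M M' = chiPair M' M := by
  unfold chiPair
  rw [inf_comm, sup_comm]

theorem chiPair_sub_chiPair_left (M₁ M₂ M' : Submodule K V) (h : M₂ ≤ M₁)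
    (h1 : Module.Finite K ↥(M₁ ⊓ M')) (h2 : Module.Finite K ↥(M₂ ⊓ M'))
    (h3 : Module.Finite K (V ⧸ (M₁ ⊔ M'))) (h4 : Module.Finite K (V ⧸ (M₂ ⊔ M')))
    (h5 : Module.Finite K (↥M₁ ⧸ (M₂.comap M₁.subtype))) :
    chiPair M₁ M' - chiPair M₂ M' = (finrank K (↥M₁ ⧸ (M₂.comap M₁.subtype)) : ℤ) :=
  chi_sub_chi M₁ M₂ M' h

theorem chiPair_sub_chiPair_right (M M₁' M₂' : Submodule K V) (h : M₂' ≤ M₁')
    (h1 : Module.Finite K ↥(M ⊓ M₁')) (h2 : Module.Finite K ↥(M ⊓ M₂'))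
    (h3 : Module.Finite K (V ⧸ (M ⊔ M₁'))) (h4 : Module.Finite K (V ⧸ (M ⊔ M₂')))
    (h5 : Module.Finite K (↥M₁' ⧸ (M₂'.comap M₁'.subtype))) :
    chiPair M M₁' - chiPair M M₂' = (finrank K (↥M₁' ⧸ (M₂'.comap M₁'.subtype)) : ℤ) := by
  rw [chiPair_comm M M₁', chiPair_comm M M₂']
  have h1' : Module.Finite K ↥(M₁' ⊓ M) := by rw [inf_comm]; exact h1
  have h2' : Module.Finite K ↥(M₂' ⊓ M) := by rw [inf_comm]; exact h2
  have h3' : Module.Finite K (V ⧸ (M₁' ⊔ M)) := by rw [sup_comm]; exact h3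
  have h4' : Module.Finite K (V ⧸ (M₂' ⊔ M)) := by rw [sup_comm]; exact h4
  exact chiPair_sub_chiPair_left M₁' M₂' M h h1' h2' h3' h4' h5

variable (I J : (P →₀ ℤ) → Submodule K V) (dI dJ : (P →₀ ℤ) → ℤ)

/-- The hypotheses of the abstract Riemann–Roch argument. -/
structure RRData (W : P →₀ ℤ) : Prop where
  monoI : ∀ D D' : P →₀ ℤ, D' ≤ D → I D' ≤ I D
  monoJ : ∀ D D' : P →₀ ℤ, D' ≤ D → J D' ≤ J D
  finInf : ∀ D E : P →₀ ℤ, Module.Finite K ↥(I D ⊓ J E)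
  finQuot : ∀ D E : P →₀ ℤ, Module.Finite K (V ⧸ (I D ⊔ J E))
  quotI : ∀ D D' : P →₀ ℤ, D' ≤ D →
    Module.Finite K (↥(I D) ⧸ ((I D').comap (I D).subtype)) ∧
      (finrank K (↥(I D) ⧸ ((I D').comap (I D).subtype)) : ℤ) = dI D - dI D'
  quotJ : ∀ D D' : P →₀ ℤ, D' ≤ D →
    Module.Finite K (↥(J D) ⧸ ((J D').comap (J D).subtype)) ∧
      (finrank K (↥(J D) ⧸ ((J D').comap (J D).subtype)) : ℤ) = dJ D - dJ D'
  dual : ∀ D : P →₀ ℤ,
    finrank K (V ⧸ (I D ⊔ J D)) = finrank K ↥(I (W - D) ⊓ J (W - D))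
  h0 : finrank K ↥(I 0 ⊓ J 0) = 1

variable {I J dI dJ} {W : P →₀ ℤ}

theorem RRData.chi_sub_chi_of_le (h : RRData I J dI dJ W) {D D' : P →₀ ℤ} (hD : D' ≤ D) :
    chiPair (I D) (J D) - chiPair (I D') (J D') = (dI D - dI D') + (dJ D - dJ D') := by
  have e1 := chiPair_sub_chiPair_left (I D) (I D') (J D) (h.monoI D D' hD)
    (h.finInf D D) (h.finInf D' D) (h.finQuot D D) (h.finQuot D' D) (h.quotI D D' hD).1
  have e2 := chiPair_sub_chiPair_right (I D') (J D) (J D') (h.monoJ D D' hD)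
    (h.finInf D' D) (h.finInf D' D') (h.finQuot D' D) (h.finQuot D' D') (h.quotJ D D' hD).1
  rw [(h.quotI D D' hD).2] at e1
  rw [(h.quotJ D D' hD).2] at e2
  linarith

/-- Riemann's theorem: `χ(D) = deg D + χ(0)`. -/
theorem RRData.chi_eq (h : RRData I J dI dJ W) (D : P →₀ ℤ) :
    chiPair (I D) (J D) - chiPair (I 0) (J 0) = (dI D - dI 0) + (dJ D - dJ 0) := by
  have h1 := h.chi_sub_chi_of_le (inf_le_left : D ⊓ 0 ≤ D)
  have h2 := h.chi_sub_chi_of_le (inf_le_right : D ⊓ 0 ≤ 0)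
  linarith

/-- Riemann–Roch: `h⁰(D) - h⁰(W - D) = deg D + 1 - h⁰(W)`. -/
theorem RRData.riemann_roch (h : RRData I J dI dJ W) (D : P →₀ ℤ) :
    (finrank K ↥(I D ⊓ J D) : ℤ) - (finrank K ↥(I (W - D) ⊓ J (W - D)) : ℤ) =
      (dI D - dI 0) + (dJ D - dJ 0) + 1 - (finrank K ↥(I W ⊓ J W) : ℤ) := by
  have h1 := h.chi_eq D
  have h2 := h.dual D
  have h3 := h.dual 0
  have h4 := h.h0
  rw [sub_zero] at h3
  unfold chiPair at h1
  rw [h2, h3, h4] at h1
  push_cast at h1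
  linarith

/-- The abstract canonical-divisor identity `2 h⁰(W) = deg W + 2`. -/
theorem RRData.two_mul_finrank (h : RRData I J dI dJ W) :
    2 * (finrank K ↥(I W ⊓ J W) : ℤ) = (dI W - dI 0) + (dJ W - dJ 0) + 2 := by
  have h1 := h.riemann_roch W
  rw [sub_self, h.h0] at h1
  push_cast at h1
  linarith

end Abstract

end Fermat.Agent.S20
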