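import Mathlib
import Fermat.Agent.S20.RRAbstract
import Fermat.Agent.S20.RRDefs
import Fermat.Agent.S20.LatticeRR

/-! # S20 layer (L4.7), core of the instantiation.

The abstract Euler-characteristic argument (`RRAbstract`) applied to
`I D = Lsub (finPl K x) D`, `J D = Lsub (infPl K x) D`, with the dictionary statements
(L4.1)–(L4.5) as explicit hypotheses.  The final file `RRCanonical.lean` discharges them. -/

set_option autoImplicit false

namespace Fermat.Agent.S20

open AlgebraicCurve Module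

section Core

variable {K F : Type*} [Field K] [Field F] [Algebra K F]
  [Algebra (RatFunc K) F] [IsScalarTower K (RatFunc K) F]

/-- partial degree of a divisor on a set of places -/
noncomputable def degOn (S : Set (Place K F)) (D : Place K F →₀ ℤ) : ℤ := ∑ᶠ v ∈ S, D v

theorem degOn_zero (S : Set (Place K F)) : degOn S (0 : Place K F →₀ ℤ) = 0 := by
  unfold degOn
  simp

theorem finite_inter_support (S : Set (Place K F)) (D : Place K F →₀ ℤ) :
    (S ∩ Function.support (fun v => D v)).Finite :=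
  D.hasFiniteSupport.subset (by
    intro v hv
    exact hv.2)

theorem degOn_sub_degOn (S : Set (Place K F)) (D D' : Place K F →₀ ℤ) :
    degOn S D - degOn S D' = ∑ᶠ v ∈ S, (D v - D' v) := by
  unfold degOn
  have hsub : (S ∩ Function.support (fun v => D v - D' v)).Finite := by
    have := finite_inter_support S (D - D')
    simpa only [Finsupp.sub_apply] using this
  have h := finsum_mem_add_distrib' (finite_inter_support S D') hsub
  simp only [add_sub_cancel] at h
  rw [h]
  ring

theorem degOn_union {S T : Set (Place K F)} (hST : Disjoint S T) (D : Place K F →₀ ℤ) :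
    degOn S D + degOn T D = degOn (S ∪ T) D := by
  unfold degOn
  exact (finsum_mem_union' hST (finite_inter_support S D) (finite_inter_support T D)).symm

theorem degOn_univ (D : Place K F →₀ ℤ) : degOn Set.univ D = ∑ᶠ v, D v := by
  unfold degOn
  rw [finsum_mem_univ]

variable {ι : Type*} [Fintype ι] [DecidableEq ι]

/-- The dictionary hypotheses (L4.1)–(L4.6) produce the abstract Riemann–Roch data. -/
theorem rrData_of_dictionary (x : F) (W : Place K F →₀ ℤ) (hW : ∀ v, W v = Wdx K x v)
    (Tr : LinearMap.BilinForm (RatFunc K) F) (hTr : Tr.Nondegenerate)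
    (hbirk : BirkhoffProp K ι)
    (h41 : ∀ D : Place K F →₀ ℤ, ∃ a : Basis ι (RatFunc K) F,
      Lsub (finPl K x) (D : Place K F → ℤ) = latPoly a)
    (h42 : ∀ D : Place K F →₀ ℤ, ∃ a' : Basis ι (RatFunc K) F,
      Lsub (infPl K x) (D : Place K F → ℤ) = latInf a' 0)
    (h43 : ∀ D : Place K F →₀ ℤ,
      dualK Tr (Lsub (finPl K x) (D : Place K F → ℤ)) (polys K) =
        Lsub (finPl K x) (fun v => Wdx K x v - D v))
    (h44 : ∀ D : Place K F →₀ ℤ,
      dualK Tr (Lsub (infPl K x) (D : Place K F → ℤ)) (Linf K (-2)) =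
        Lsub (infPl K x) (fun v => Wdx K x v - D v))
    (h45f : ∀ D D' : Place K F →₀ ℤ, D' ≤ D →
      Module.Finite K (↥(Lsub (finPl K x) (D : Place K F → ℤ)) ⧸
        (Lsub (finPl K x) (D' : Place K F → ℤ)).comap (Lsub (finPl K x) (D : Place K F → ℤ)).subtype) ∧
      (finrank K (↥(Lsub (finPl K x) (D : Place K F → ℤ)) ⧸
        (Lsub (finPl K x) (D' : Place K F → ℤ)).comap
          (Lsub (finPl K x) (D : Place K F → ℤ)).subtype) : ℤ) =
        ∑ᶠ v ∈ finPl K x, (D v - D' v))
    (h45i : ∀ D D' : Place K F →₀ ℤ, D' ≤ D →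
      Module.Finite K (↥(Lsub (infPl K x) (D : Place K F → ℤ)) ⧸
        (Lsub (infPl K x) (D' : Place K F → ℤ)).comap (Lsub (infPl K x) (D : Place K F → ℤ)).subtype) ∧
      (finrank K (↥(Lsub (infPl K x) (D : Place K F → ℤ)) ⧸
        (Lsub (infPl K x) (D' : Place K F → ℤ)).comap
          (Lsub (infPl K x) (D : Place K F → ℤ)).subtype) : ℤ) =
        ∑ᶠ v ∈ infPl K x, (D v - D' v))
    (h46 : finrank K ↥(RRSpace (0 : Place K F → ℤ)) = 1) :
    RRData (K := K) (V := F) (fun D : Place K F →₀ ℤ => Lsub (finPl K x) (D : Place K F → ℤ))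
      (fun D : Place K F →₀ ℤ => Lsub (infPl K x) (D : Place K F → ℤ))
      (degOn (finPl K x)) (degOn (infPl K x)) W where
  monoI := fun D D' h => Lsub_mono _ fun v _ => h v
  monoJ := fun D D' h => Lsub_mono _ fun v _ => h v
  finInf := by
    intro D E
    obtain ⟨a, ha⟩ := h41 D
    obtain ⟨a', ha'⟩ := h42 E
    show Module.Finite K ↥(Lsub (finPl K x) (D : Place K F → ℤ) ⊓ Lsub (infPl K x) (E : Place K F → ℤ))
    rw [ha, ha']
    exact finite_latPoly_inf_latInf_of_birkhoff hbirk a a'
  finQuot := by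
    intro D E
    obtain ⟨a, ha⟩ := h41 D
    obtain ⟨a', ha'⟩ := h42 E
    show Module.Finite K (F ⧸ (Lsub (finPl K x) (D : Place K F → ℤ) ⊔ Lsub (infPl K x) (E : Place K F → ℤ)))
    rw [ha, ha']
    exact finite_quotient_latPoly_sup_latInf_of_birkhoff hbirk a a'
  quotI := by
    intro D D' h
    refine ⟨(h45f D D' h).1, ?_⟩
    rw [(h45f D D' h).2, degOn_sub_degOn]
  quotJ := by
    intro D D' h
    refine ⟨(h45i D D' h).1, ?_⟩
    rw [(h45i D D' h).2, degOn_sub_degOn]
  dual := by
    intro D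
    obtain ⟨a, ha⟩ := h41 D
    obtain ⟨a', ha'⟩ := h42 D
    show finrank K (F ⧸ (Lsub (finPl K x) (D : Place K F → ℤ) ⊔ Lsub (infPl K x) (D : Place K F → ℤ))) =
      finrank K ↥(Lsub (finPl K x) ((W - D : Place K F →₀ ℤ) : Place K F → ℤ) ⊓
        Lsub (infPl K x) ((W - D : Place K F →₀ ℤ) : Place K F → ℤ))
    have hWD : ((W - D : Place K F →₀ ℤ) : Place K F → ℤ) = fun v => Wdx K x v - D v := by
      funext v
      rw [Finsupp.sub_apply, hW]
    rw [hWD, ← h43 D, ← h44 D, ha, ha']
    exact finrank_quotient_eq_finrank_dualK_of_birkhoff hbirk Tr hTr a a'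
  h0 := by
    show finrank K ↥(Lsub (finPl K x) ((0 : Place K F →₀ ℤ) : Place K F → ℤ) ⊓
      Lsub (infPl K x) ((0 : Place K F →₀ ℤ) : Place K F → ℤ)) = 1
    rw [Finsupp.coe_zero, ← RRSpace_eq_inf K x]
    exact h46

/-- Conclusion of the abstract argument in terms of `RRSpace`. -/
theorem two_mul_finrank_RRSpace_of_rrData (x : F) (W : Place K F →₀ ℤ)
    (hW : ∀ v, W v = Wdx K x v)
    (h : RRData (K := K) (V := F)
      (fun D : Place K F →₀ ℤ => Lsub (finPl K x) (D : Place K F → ℤ))
      (fun D : Place K F →₀ ℤ => Lsub (infPl K x) (D : Place K F → ℤ))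
      (degOn (finPl K x)) (degOn (infPl K x)) W) :
    Module.Finite K ↥(RRSpace (Wdx K x)) ∧
      2 * (finrank K ↥(RRSpace (Wdx K x)) : ℤ) = (∑ᶠ v, Wdx K x v) + 2 := by
  have hWfun : (W : Place K F → ℤ) = Wdx K x := funext hW
  have hfin : Module.Finite K ↥(Lsub (finPl K x) (W : Place K F → ℤ) ⊓
      Lsub (infPl K x) (W : Place K F → ℤ)) := h.finInf W W
  have h2 : 2 * (finrank K ↥(Lsub (finPl K x) (W : Place K F → ℤ) ⊓
      Lsub (infPl K x) (W : Place K F → ℤ)) : ℤ) =
      (degOn (finPl K x) W - degOn (finPl K x) 0) +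
        (degOn (infPl K x) W - degOn (infPl K x) 0) + 2 := h.two_mul_finrank
  rw [hWfun, ← RRSpace_eq_inf K x] at hfin h2
  refine ⟨hfin, ?_⟩
  rw [h2, degOn_zero, degOn_zero, sub_zero, sub_zero, degOn_union (finPl_disjoint_infPl K x),
    finPl_union_infPl, degOn_univ]
  congr 1
  exact finsum_congr fun v => hW v

end Core

end Fermat.Agent.S20
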