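import Mathlib
import Fermat.Agent.S20.PlaceDictInf
import Fermat.Agent.S20.FracIdealBasis
import Fermat.Agent.S20.LatticeRRFinal

set_option autoImplicit false
set_option linter.unusedSectionVars false

/-!
# S20 (L4.2): the infinite chart `Lsub (infPl K x) D` is an `O_∞`-lattice `latInf a' 0`

Instance form as in `S20/PlaceDictInf.lean`.  For every divisor `D` there is a `K(X)`-basis `a'` of
`F` (indexed by `Fin n`, `n = [F : K(X)]`) with `Lsub (infPl K x) D = latInf a' (fun _ => 0)`.
-/

noncomputable section

namespace Fermat.Agent.S20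

open AlgebraicCurve Polynomial IsDedekindDomain IsDedekindDomain.HeightOneSpectrum
open Fermat.Agent.S24.FF nonZeroDivisors

variable {K F : Type*} [Field K] [Field F] [Algebra K F] [IsAlgClosed K] [CharZero K]
  [Algebra K[X] F] [Algebra (RatFunc K) F] [IsScalarTower K K[X] F]
  [IsScalarTower K[X] (RatFunc K) F] [IsScalarTower K (RatFunc K) F]
  [FiniteDimensional (RatFunc K) F]

/-- **(L4.2)**, with the span statement: `Lsub (infPl K x) D` is the `O_∞`-lattice spanned by a
`K(X)`-basis of `F`. -/
theorem exists_basis_Lsub_infPl_eq_latInf (D : Place K F →₀ ℤ) :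
    ∃ a' : Module.Basis (Fin (Module.finrank (RatFunc K) F)) (RatFunc K) F,
      Lsub (infPl K (algebraMap K[X] F X)) ⇑D = latInf a' (fun _ => 0) ∧
      Submodule.span (OInf K) (Set.range a') =
        ((idealOf (R := Binf K F) F (cinf D) :
          FractionalIdeal (Binf K F)⁰ F) : Submodule (Binf K F) F).restrictScalars (OInf K) := by
  obtain ⟨a', ha'⟩ := exists_basis_span_eq (OInf K) (RatFunc K)
    (idealOf (R := Binf K F) F (cinf D)) (idealOf_ne_zero _)
  refine ⟨a', ?_, ha'⟩
  ext f
  rw [mem_Lsub_infPl_iff]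
  have h1 : f ∈ latInf a' (fun _ => 0) ↔ f ∈ Submodule.span (OInf K) (Set.range a') := by
    have := span_OInf_eq_latInf_zero (K := K) a'
    constructor
    · intro hf
      have : f ∈ (Submodule.span (OInf K) (Set.range a') : Set F) := by
        rw [this]
        exact hf
      exact this
    · intro hf
      have h2 : f ∈ (latInf a' 0 : Set F) := by
        rw [← this]
        exact hf
      exact h2
  rw [h1, ha']
  rfl

/-- **(L4.2)** `Lsub (infPl K x) D` is an `O_∞`-lattice. -/
theorem exists_basis_Lsub_infPl (D : Place K F →₀ ℤ) :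
    ∃ a' : Module.Basis (Fin (Module.finrank (RatFunc K) F)) (RatFunc K) F,
      Lsub (infPl K (algebraMap K[X] F X)) ⇑D = latInf a' (fun _ => 0) := by
  obtain ⟨a', h, -⟩ := exists_basis_Lsub_infPl_eq_latInf D
  exact ⟨a', h⟩

end Fermat.Agent.S20
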