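import Fermat.Agent.S20.RRQuotChart
import Fermat.Agent.S20.L4Fin
import Fermat.Agent.S24.FF.PlaceA1

set_option autoImplicit false
set_option linter.unusedSectionVars false

/-!
# S20 (L4.5): quotient dimensions of `Lsub (finPl K x) D`
-/

noncomputable section

namespace Fermat.Agent.S20

open Module AlgebraicCurve Polynomial FunctionField IsDedekindDomain
open Fermat.Agent.S24.FF nonZeroDivisors

variable {K F : Type*} [Field K] [Field F] [Algebra K F] [IsAlgClosed K] [CharZero K]
  [Algebra K[X] F] [Algebra (RatFunc K) F] [IsScalarTower K K[X] F]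
  [IsScalarTower K[X] (RatFunc K) F] [IsScalarTower K (RatFunc K) F]
  [FiniteDimensional (RatFunc K) F]

attribute [local instance] fundIdAlgebra fundId_isScalarTower fundId_isSeparable

/-- the residue fields of the ring of integers are `K` (for the `K`-algebra structure
`fundIdAlgebra`) -/
theorem ringOfIntegers_exists_sub_mem (w : HeightOneSpectrum (ringOfIntegers K F))
    (b : ringOfIntegers K F) :
    ∃ a : K, b - algebraMap K (ringOfIntegers K F) a ∈ w.asIdeal := by
  have hD : IsDedekindDomain (integralClosure K[X] F) :=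
    inferInstanceAs (IsDedekindDomain (ringOfIntegers K F))
  obtain ⟨a, ha⟩ := @Fermat.Agent.S24.FF.exists_sub_mem_asIdeal K F _ _ _ _ _ _ _ _ _ _ hD w b
  refine ⟨a, ?_⟩
  have e : (algebraMap K (ringOfIntegers K F) a : ringOfIntegers K F) =
      (algebraMap K (integralClosure K[X] F) a : integralClosure K[X] F) := by
    apply Subtype.ext
    show algebraMap K[X] F (algebraMap K K[X] a) = algebraMap K F a
    rw [← IsScalarTower.algebraMap_apply]
  rw [e]
  exact ha

/-- (L4.5) quotient dimensions, finite part. -/
theorem finrank_Lsub_finPl_quotient (D D' : Place K F →₀ ℤ) (h : D' ≤ D) :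
    Lsub (finPl K (algebraMap K[X] F X)) (D' : Place K F → ℤ) ≤
        Lsub (finPl K (algebraMap K[X] F X)) (D : Place K F → ℤ) ∧
      Module.Finite K (relQuot (Lsub (finPl K (algebraMap K[X] F X)) (D : Place K F → ℤ))
        (Lsub (finPl K (algebraMap K[X] F X)) (D' : Place K F → ℤ))) ∧
      (finrank K (relQuot (Lsub (finPl K (algebraMap K[X] F X)) (D : Place K F → ℤ))
        (Lsub (finPl K (algebraMap K[X] F X)) (D' : Place K F → ℤ))) : ℤ) =
        ∑ᶠ v ∈ finPl K (algebraMap K[X] F X), (D v - D' v) :=
  finrank_Lsub_quotient_of_chart (B := ringOfIntegers K F) ringOfIntegers_exists_sub_mem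
    (finPl K (algebraMap K[X] F X)) finPlace finPlace_injective range_finPlace finExps
    finExps_apply Lsub_finPl_eq_restrictScalars D D' h

end Fermat.Agent.S20
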