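import Fermat.Agent.S20.DDQuotIdealOf
import Fermat.Agent.S20.RRDefs

set_option autoImplicit false
set_option linter.unusedSectionVars false

/-!
# S20 (L4.5), generic chart form: quotient dimensions of `Lsub S D`

If a set `S` of places of `F / K` is parametrised by the primes of a Dedekind domain `B` (with
fraction field `F` and residue fields `K`) in such a way that `Lsub S D` is the fractional ideal
with exponents `w ↦ -D (pl w)`, then for `D' ≤ D`
`dim_K (Lsub S D / Lsub S D') = ∑ v ∈ S, (D v - D' v)`.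
-/

namespace Fermat.Agent.S20

open Module IsDedekindDomain FractionalIdeal AlgebraicCurve
open scoped nonZeroDivisors

variable {K B F : Type*} [Field K] [CommRing B] [IsDedekindDomain B] [Algebra K B]
  [Field F] [Algebra B F] [IsFractionRing B F] [Algebra K F] [IsScalarTower K B F]

/-- (L4.5), chart form. -/
theorem finrank_Lsub_quotient_of_chart
    (hres : ∀ (w : HeightOneSpectrum B) (b : B), ∃ a : K, b - algebraMap K B a ∈ w.asIdeal)
    (S : Set (Place K F)) (pl : HeightOneSpectrum B → Place K F)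
    (hinj : Function.Injective pl) (hrange : Set.range pl = S)
    (c : (Place K F →₀ ℤ) → (HeightOneSpectrum B →₀ ℤ))
    (hc : ∀ (D : Place K F →₀ ℤ) (w : HeightOneSpectrum B), c D w = -D (pl w))
    (hL : ∀ D : Place K F →₀ ℤ, Lsub S (D : Place K F → ℤ) = fracSub K (idealOf F (c D)))
    (D D' : Place K F →₀ ℤ) (h : D' ≤ D) :
    Lsub S (D' : Place K F → ℤ) ≤ Lsub S (D : Place K F → ℤ) ∧
      Module.Finite K (relQuot (Lsub S (D : Place K F → ℤ)) (Lsub S (D' : Place K F → ℤ))) ∧
      (finrank K (relQuot (Lsub S (D : Place K F → ℤ)) (Lsub S (D' : Place K F → ℤ))) : ℤ) =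
        ∑ᶠ v ∈ S, (D v - D' v) := by
  have hcc : ∀ w, c D w ≤ c D' w := by
    intro w
    rw [hc, hc]
    exact neg_le_neg (h (pl w))
  have hle : Lsub S (D' : Place K F → ℤ) ≤ Lsub S (D : Place K F → ℤ) := by
    rw [hL D, hL D']
    exact fracSub_mono ((idealOf_le_idealOf_iff (c D') (c D)).mpr hcc)
  refine ⟨hle, ?_⟩
  obtain ⟨hfin, hfr⟩ := finrank_relQuot_idealOf (K := K) (F := F) hres (c D) (c D') hcc
  rw [← hL D, ← hL D'] at hfin hfr
  refine ⟨hfin, ?_⟩
  rw [hfr, ← hrange, finsum_mem_range hinj]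
  refine finsum_congr fun w => ?_
  rw [hc, hc]
  ring

end Fermat.Agent.S20
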