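import Mathlib
import Fermat.Agent.S20.PlaceDictInf
import Fermat.Agent.S20.RRQuotChart
import Fermat.Agent.S20.RRConst
import Fermat.Agent.S24.FF.PlaceA1

set_option autoImplicit false
set_option linter.unusedSectionVars false

/-!
# S20 (L4.5), infinite chart: quotient dimensions of `Lsub (infPl K x) D`

Instance form as in `S20/PlaceDictInf.lean`.  The residue fields of `Binf K F` are `K`
(`Binf_exists_sub_mem`), hence for `D' ≤ D`
`dim_K (Lsub (infPl K x) D / Lsub (infPl K x) D') = ∑ v ∈ infPl K x, (D v - D' v)`.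
-/

noncomputable section

namespace Fermat.Agent.S20

open AlgebraicCurve Polynomial IsDedekindDomain IsDedekindDomain.HeightOneSpectrum Module
open Fermat.Agent.S24.FF nonZeroDivisors

variable {K F : Type*} [Field K] [Field F] [Algebra K F] [IsAlgClosed K] [CharZero K]
  [Algebra K[X] F] [Algebra (RatFunc K) F] [IsScalarTower K K[X] F]
  [IsScalarTower K[X] (RatFunc K) F] [IsScalarTower K (RatFunc K) F]
  [FiniteDimensional (RatFunc K) F]

/-- `Binf K F` lies in the valuation ring of each of its places. -/
theorem algebraMap_Binf_mem (w : HeightOneSpectrum (Binf K F)) (b : Binf K F) :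
    algebraMap (Binf K F) F b ∈ (infPlaceOf (K := K) w).toValuationSubring :=
  algebraMap_mem_ofHeightOneSpectrum (K := K) (F := F) w b

/-- The residue fields of `Binf K F` are `K`. -/
theorem Binf_exists_sub_mem (w : HeightOneSpectrum (Binf K F)) (b : Binf K F) :
    ∃ a : K, b - algebraMap K (Binf K F) a ∈ w.asIdeal := by
  have hF : IsFF1 K F := isFF1_of_instances
  set v : Place K F := infPlaceOf (K := K) w with hv
  obtain ⟨a, ha⟩ := exists_sub_mem_maximalIdeal hF v ⟨algebraMap (Binf K F) F b,
    algebraMap_Binf_mem w b⟩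
  refine ⟨a, ?_⟩
  by_cases h0 : b - algebraMap K (Binf K F) a = 0
  · rw [h0]
    exact zero_mem _
  have hcoe : (((⟨algebraMap (Binf K F) F b, algebraMap_Binf_mem w b⟩ : v.toValuationSubring) -
      algebraMap K v.toValuationSubring a : v.toValuationSubring) : F) =
      algebraMap (Binf K F) F (b - algebraMap K (Binf K F) a) := by
    rw [map_sub, ← IsScalarTower.algebraMap_apply K (Binf K F) F]
    rfl
  have hne : algebraMap (Binf K F) F (b - algebraMap K (Binf K F) a) ≠ 0 :=
    (_root_.map_ne_zero_iff _ (IsFractionRing.injective (Binf K F) F)).mpr h0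
  have hne' : ((⟨algebraMap (Binf K F) F b, algebraMap_Binf_mem w b⟩ : v.toValuationSubring) -
      algebraMap K v.toValuationSubring a : v.toValuationSubring) ≠ 0 := by
    intro h
    apply hne
    rw [← hcoe, h]
    rfl
  have hpos := DiffOrd.ord_pos_of_mem_maximalIdeal v ha hne'
  rw [hcoe, hv, ord_infPlaceOf] at hpos
  rw [← HeightOneSpectrum.valuation_lt_one_iff_mem (K := F)]
  have hval0 : w.valuation F (algebraMap (Binf K F) F (b - algebraMap K (Binf K F) a)) ≠ 0 :=
    (Valuation.ne_zero_iff _).mpr hne
  have hlog : WithZero.log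
      (w.valuation F (algebraMap (Binf K F) F (b - algebraMap K (Binf K F) a))) < 0 := by
    omega
  rw [← WithZero.log_one] at hlog
  exact (WithZero.log_lt_log hval0 one_ne_zero).mp hlog

/-- **(L4.5)** quotient dimensions, infinite part. -/
theorem finrank_Lsub_infPl_quotient (D D' : Place K F →₀ ℤ) (h : D' ≤ D) :
    Lsub (infPl K (algebraMap K[X] F X)) (D' : Place K F → ℤ) ≤
        Lsub (infPl K (algebraMap K[X] F X)) (D : Place K F → ℤ) ∧
      Module.Finite K (relQuot (Lsub (infPl K (algebraMap K[X] F X)) (D : Place K F → ℤ))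
        (Lsub (infPl K (algebraMap K[X] F X)) (D' : Place K F → ℤ))) ∧
      (finrank K (relQuot (Lsub (infPl K (algebraMap K[X] F X)) (D : Place K F → ℤ))
        (Lsub (infPl K (algebraMap K[X] F X)) (D' : Place K F → ℤ))) : ℤ) =
        ∑ᶠ v ∈ infPl K (algebraMap K[X] F X), (D v - D' v) :=
  finrank_Lsub_quotient_of_chart (B := Binf K F) Binf_exists_sub_mem
    (infPl K (algebraMap K[X] F X)) infPlaceOf infPlaceOf_injective range_infPlaceOf cinf
    cinf_apply Lsub_infPl_eq D D' h

end Fermat.Agent.S20
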