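import Mathlib
import Fermat.Agent.S20.RRDefs
import Fermat.Agent.S24.FF.FundId

/-! # S20 layer (L4.6): `L(0) = K`.

A function without poles is constant (a non-constant function `f` is transcendental, and the
degree of its pole divisor is `[F : K(f)] > 0`). -/

set_option autoImplicit false

namespace Fermat.Agent.S20

open AlgebraicCurve IntermediateField Fermat.Agent.S24.FF

variable {K F : Type*} [Field K] [Field F] [Algebra K F] [IsAlgClosed K] [CharZero K]

/-- a function without poles is constant -/
theorem mem_range_algebraMap_of_forall_ord_nonneg (hF : IsFF1 K F) {f : F}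
    (hf : ∀ v : Place K F, 0 ≤ v.ord f) : f ∈ Set.range (algebraMap K F) := by
  by_contra hc
  have ht : Transcendental K f := transcendental_of_not_mem_range hc
  have hsum := sum_ord_polesOf hF ht
  have hempty : polesOf K f = ∅ := by
    ext v
    simp only [Set.mem_empty_iff_false, iff_false]
    intro hv
    have h1 : v.ord f < 0 := hv
    have h2 := hf v
    omega
  rw [hempty, finsum_mem_empty] at hsum
  have hfin : FiniteDimensional K⟮f⟯ F := hF.finiteDimensional ht
  have hpos : 0 < Module.finrank K⟮f⟯ F := Module.finrank_pos
  omega

/-- (L4.6) `L(0)` is the field of constants. -/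
theorem RRSpace_zero_eq (hF : IsFF1 K F) :
    RRSpace (0 : Place K F → ℤ) = LinearMap.range (Algebra.linearMap K F) := by
  ext f
  rw [mem_RRSpace, LinearMap.mem_range]
  constructor
  · rintro (rfl | hf)
    · exact ⟨0, map_zero _⟩
    · have := mem_range_algebraMap_of_forall_ord_nonneg hF (f := f) (fun v => by
        have := hf v
        simpa using this)
      obtain ⟨a, ha⟩ := this
      exact ⟨a, ha⟩
  · rintro ⟨a, rfl⟩
    by_cases ha : a = 0
    · left
      rw [ha, map_zero]
    · right
      intro v
      rw [Algebra.linearMap_apply, ord_algebraMap]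
      simp

theorem finrank_RRSpace_zero (hF : IsFF1 K F) :
    Module.finrank K ↥(RRSpace (0 : Place K F → ℤ)) = 1 := by
  rw [RRSpace_zero_eq hF,
    LinearMap.finrank_range_of_inj (f := Algebra.linearMap K F) (algebraMap K F).injective,
    Module.finrank_self]

theorem finite_RRSpace_zero (hF : IsFF1 K F) :
    Module.Finite K ↥(RRSpace (0 : Place K F → ℤ)) := by
  rw [RRSpace_zero_eq hF]
  infer_instance

end Fermat.Agent.S20
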