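import Mathlib
import Fermat.Agent.S20.RRCanonicalCore
import Fermat.Agent.S20.LatticeRRFinal
import Fermat.Agent.S20.RRQuot
import Fermat.Agent.S20.L4FinBasis
import Fermat.Agent.S20.L4FinDual
import Fermat.Agent.S20.L4Wdx
import Fermat.Agent.S20.RRLatticeInf
import Fermat.Agent.S20.RRQuotInf
import Fermat.Agent.S20.L4InfDualFinal
import Fermat.Agent.S20.RRZero
import Fermat.Agent.S20.RRConst
import Fermat.Agent.S24.FF.RHGenus
import Fermat.Agent.S24.FF.RH

/-! # S20 layer (L4.7): Riemann–Roch for the canonical divisor `div(dx)` of a function field.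

`K` algebraically closed of characteristic zero, `F / K` a function field in one variable,
`x ∈ F` transcendental.  Then `L(div dx)` is finite dimensional and
`2 * dim_K L(div dx) = deg (div dx) + 2`.

* `two_mul_finrank_RRSpace_of_instances`: instance form (`x = algebraMap K[X] F X`);
* `two_mul_finrank_RRSpace_Wdx`: element form (contract [C4]);
* `finrank_RRSpace_Wdx_eq_genus`: `dim_K L(div dx)` is the prelude genus.

Assembly of: the Dedekind–Weber lattice layer (helper22/7/10/11/14), the finite chart
(helper19/28/9), the chart at infinity (helper17/12/13/11), `RRAbstract`/`RRCanonicalCore`. -/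

set_option autoImplicit false

namespace Fermat.Agent.S20

open AlgebraicCurve Module Polynomial IntermediateField Fermat.Agent.S24.FF

section InstanceForm

variable {K F : Type*} [Field K] [Field F] [Algebra K F] [IsAlgClosed K] [CharZero K]
  [Algebra K[X] F] [Algebra (RatFunc K) F] [IsScalarTower K K[X] F]
  [IsScalarTower K[X] (RatFunc K) F] [IsScalarTower K (RatFunc K) F]
  [FiniteDimensional (RatFunc K) F]

omit [IsAlgClosed K] [Algebra K[X] F] [IsScalarTower K K[X] F]
  [IsScalarTower K[X] (RatFunc K) F] in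
/-- the trace form of `F / K(X)` is nondegenerate (characteristic zero) -/
theorem traceForm_nondegenerate_of_instances :
    (Algebra.traceForm (RatFunc K) F).Nondegenerate := by
  have : CharZero (RatFunc K) :=
    charZero_of_injective_algebraMap (algebraMap K (RatFunc K)).injective
  have : Algebra.IsSeparable (RatFunc K) F := inferInstance
  exact traceForm_nondegenerate (RatFunc K) F

/-- The abstract Riemann–Roch data of the pair of charts `finPl` / `infPl`. -/
theorem rrData_of_instances :
    RRData (K := K) (V := F)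
      (fun D : Place K F →₀ ℤ => Lsub (finPl K (algebraMap K[X] F X)) (D : Place K F → ℤ))
      (fun D : Place K F →₀ ℤ => Lsub (infPl K (algebraMap K[X] F X)) (D : Place K F → ℤ))
      (degOn (finPl K (algebraMap K[X] F X))) (degOn (infPl K (algebraMap K[X] F X)))
      (WdxDiv (K := K) (F := F)) := by
  classical
  exact rrData_of_dictionary (K := K) (F := F) (ι := Fin (finrank (RatFunc K) F))
    (algebraMap K[X] F X) WdxDiv (fun v => WdxDiv_apply v)
    (Algebra.traceForm (RatFunc K) F) traceForm_nondegenerate_of_instances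
    (birkhoffProp K (Fin (finrank (RatFunc K) F)))
    (fun D => (exists_basis_Lsub_finPl_eq_latPoly D).imp fun a ha => ha.1)
    (fun D => exists_basis_Lsub_infPl D)
    (fun D => dualK_Lsub_finPl D)
    (fun D => dualK_Lsub_infPl D)
    (fun D D' h => ⟨(finrank_Lsub_finPl_quotient D D' h).2.1,
      (finrank_Lsub_finPl_quotient D D' h).2.2⟩)
    (fun D D' h => ⟨(finrank_Lsub_infPl_quotient D D' h).2.1,
      (finrank_Lsub_infPl_quotient D D' h).2.2⟩)
    (finrank_RRSpace_zero isFF1_of_instances)

/-- Instance form of the canonical Riemann–Roch identity. -/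
theorem two_mul_finrank_RRSpace_of_instances :
    {v : Place K F | Wdx K (algebraMap K[X] F X) v ≠ 0}.Finite ∧
    Module.Finite K ↥(RRSpace (Wdx K (algebraMap K[X] F X))) ∧
      2 * (finrank K ↥(RRSpace (Wdx K (algebraMap K[X] F X))) : ℤ) =
        (∑ᶠ v, Wdx K (algebraMap K[X] F X) v) + 2 := by
  refine ⟨Wdx_support_finite, ?_⟩
  exact two_mul_finrank_RRSpace_of_rrData (algebraMap K[X] F X) WdxDiv
    (fun v => WdxDiv_apply v) rrData_of_instances

/-- Riemann–Roch for an arbitrary (finitely supported) divisor, instance form: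
`l(D) - l(W - D) = deg D + 1 - l(W)`. -/
theorem riemann_roch_of_instances (D : Place K F →₀ ℤ) :
    (finrank K ↥(RRSpace (D : Place K F → ℤ)) : ℤ) -
        (finrank K ↥(RRSpace (fun v => Wdx K (algebraMap K[X] F X) v - D v)) : ℤ) =
      (∑ᶠ v, D v) + 1 - (finrank K ↥(RRSpace (Wdx K (algebraMap K[X] F X))) : ℤ) := by
  have h : (finrank K ↥(Lsub (finPl K (algebraMap K[X] F X)) (D : Place K F → ℤ) ⊓
        Lsub (infPl K (algebraMap K[X] F X)) (D : Place K F → ℤ)) : ℤ) -
      (finrank K ↥(Lsub (finPl K (algebraMap K[X] F X))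
          ((WdxDiv - D : Place K F →₀ ℤ) : Place K F → ℤ) ⊓
        Lsub (infPl K (algebraMap K[X] F X))
          ((WdxDiv - D : Place K F →₀ ℤ) : Place K F → ℤ)) : ℤ) =
      (degOn (finPl K (algebraMap K[X] F X)) D - degOn (finPl K (algebraMap K[X] F X)) 0) +
        (degOn (infPl K (algebraMap K[X] F X)) D - degOn (infPl K (algebraMap K[X] F X)) 0) + 1 -
      (finrank K ↥(Lsub (finPl K (algebraMap K[X] F X))
          ((WdxDiv : Place K F →₀ ℤ) : Place K F → ℤ) ⊓
        Lsub (infPl K (algebraMap K[X] F X))
          ((WdxDiv : Place K F →₀ ℤ) : Place K F → ℤ)) : ℤ) :=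
    (rrData_of_instances (K := K) (F := F)).riemann_roch D
  have hWD : ((WdxDiv - D : Place K F →₀ ℤ) : Place K F → ℤ) =
      fun v => Wdx K (algebraMap K[X] F X) v - D v := by
    funext v
    rw [Finsupp.sub_apply, WdxDiv_apply]
  have hWfun : ((WdxDiv : Place K F →₀ ℤ) : Place K F → ℤ) = Wdx K (algebraMap K[X] F X) :=
    funext fun v => WdxDiv_apply v
  rw [hWD, hWfun, ← RRSpace_eq_inf K (algebraMap K[X] F X),
    ← RRSpace_eq_inf K (algebraMap K[X] F X), ← RRSpace_eq_inf K (algebraMap K[X] F X),
    degOn_zero, degOn_zero, sub_zero, sub_zero,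
    degOn_union (finPl_disjoint_infPl K (algebraMap K[X] F X)), finPl_union_infPl,
    degOn_univ] at h
  exact h

end InstanceForm

section ElementForm

variable {K F : Type*} [Field K] [Field F] [Algebra K F] [IsAlgClosed K] [CharZero K]

/-- **Contract [C4]**: Riemann–Roch for the canonical divisor `div(dx)`, element form. -/
theorem two_mul_finrank_RRSpace_Wdx (hF : IsFF1 K F) {x : F} (hx : Transcendental K x) :
    {v : Place K F | Wdx K x v ≠ 0}.Finite ∧
    Module.Finite K ↥(RRSpace (Wdx K x)) ∧
      2 * (finrank K ↥(RRSpace (Wdx K x)) : ℤ) = (∑ᶠ v, Wdx K x v) + 2 := by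
  have hfin : FiniteDimensional K⟮x⟯ F := hF.finiteDimensional hx
  obtain ⟨i1, i2, t1, t2, t3, t4, h5, -⟩ := exists_ratFunc_instances hx hfin
  have h := two_mul_finrank_RRSpace_of_instances (K := K) (F := F)
  rw [h5] at h
  exact h

/-- `dim_K L(div dx)` is the prelude genus. -/
theorem finrank_RRSpace_Wdx_eq_genus (hF : IsFF1 K F)
    [HasCanonicalDivisor (K := K) (F := F)] {x : F} (hx : Transcendental K x) :
    finrank K ↥(RRSpace (Wdx K x)) = genus K F := by
  obtain ⟨hfin, -, h2⟩ := two_mul_finrank_RRSpace_Wdx hF hx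
  symm
  apply genus_eq_of_sum hF (degree_eq_finsum hF) hx (∑ᶠ v, Wdx K x v) hfin rfl
  linarith

end ElementForm

end Fermat.Agent.S20
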