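import Mathlib

set_option autoImplicit false

namespace Fermat.Agent.S20

open Polynomial Matrix

variable {K : Type*} [Field K] {ι : Type*} [Fintype ι] [DecidableEq ι]

/-- The degree of column `j`: the maximal `natDegree` of its entries. -/
noncomputable def colDeg (G : Matrix ι ι K[X]) (j : ι) : ℕ :=
  Finset.univ.sup fun i => (G i j).natDegree

/-- The matrix of leading coefficients of the columns. -/
noncomputable def leadMat (G : Matrix ι ι K[X]) : Matrix ι ι K :=
  fun i j => (G i j).coeff (colDeg G j)

omit [DecidableEq ι] in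
theorem natDegree_le_colDeg (G : Matrix ι ι K[X]) (i j : ι) :
    (G i j).natDegree ≤ colDeg G j :=
  Finset.le_sup (f := fun i => (G i j).natDegree) (Finset.mem_univ i)

omit [DecidableEq ι] in
/-- If all entries of column `j` have `natDegree ≤ d` then `colDeg G j ≤ d`. -/
theorem colDeg_le {G : Matrix ι ι K[X]} {j : ι} {d : ℕ} (h : ∀ i, (G i j).natDegree ≤ d) :
    colDeg G j ≤ d :=
  Finset.sup_le fun i _ => h i

/-- The elementary column operation used in one reduction step. -/
noncomputable def stepVec (G : Matrix ι ι K[X]) (c : ι → K) (j0 : ι) : ι → K[X] :=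
  fun j => C (c j) * X ^ (colDeg G j0 - colDeg G j)

noncomputable def stepMat (G : Matrix ι ι K[X]) (c : ι → K) (j0 : ι) : Matrix ι ι K[X] :=
  (1 : Matrix ι ι K[X]).updateCol j0 (stepVec G c j0)

theorem det_stepMat (G : Matrix ι ι K[X]) (c : ι → K) (j0 : ι) :
    (stepMat G c j0).det = C (c j0) := by
  unfold stepMat
  rw [← Matrix.cramer_apply, Matrix.cramer_one]
  simp [stepVec]

theorem mul_stepMat (G : Matrix ι ι K[X]) (c : ι → K) (j0 : ι) :
    G * stepMat G c j0 = G.updateCol j0 (G *ᵥ stepVec G c j0) := by
  unfold stepMat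
  rw [Matrix.mul_updateCol, Matrix.mul_one]

omit [DecidableEq ι] in
theorem natDegree_mulVec_stepVec_le (G : Matrix ι ι K[X]) (c : ι → K) (j0 : ι)
    (hmax : ∀ j, c j ≠ 0 → colDeg G j ≤ colDeg G j0) (i : ι) :
    ((G *ᵥ stepVec G c j0) i).natDegree ≤ colDeg G j0 := by
  set d := colDeg G j0 with hd
  have hle : ∀ j, (G i j * stepVec G c j0 j).natDegree ≤ d := by
    intro j
    unfold stepVec
    by_cases h : c j = 0
    · simp [h]
    · have h1 : colDeg G j ≤ d := hmax j h
      calc (G i j * (C (c j) * X ^ (d - colDeg G j))).natDegree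
          ≤ (G i j).natDegree + (C (c j) * X ^ (d - colDeg G j)).natDegree := natDegree_mul_le
        _ ≤ colDeg G j + (d - colDeg G j) := by
            gcongr
            · exact natDegree_le_colDeg G i j
            · exact (natDegree_C_mul_X_pow_le _ _)
        _ = d := by omega
  unfold Matrix.mulVec dotProduct
  exact natDegree_sum_le_of_forall_le _ _ fun j _ => hle j

omit [DecidableEq ι] in
theorem coeff_mulVec_stepVec (G : Matrix ι ι K[X]) (c : ι → K) (j0 : ι)
    (hc : (leadMat G) *ᵥ c = 0) (hmax : ∀ j, c j ≠ 0 → colDeg G j ≤ colDeg G j0) (i : ι) :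
    ((G *ᵥ stepVec G c j0) i).coeff (colDeg G j0) = 0 := by
  set d := colDeg G j0 with hd
  unfold Matrix.mulVec dotProduct
  rw [finsetSum_coeff]
  have hci := congrFun hc i
  unfold Matrix.mulVec dotProduct at hci
  simp only [Pi.zero_apply] at hci
  rw [← hci]
  refine Finset.sum_congr rfl fun j _ => ?_
  unfold stepVec leadMat
  by_cases h : c j = 0
  · simp [h]
  · have h1 : colDeg G j ≤ d := hmax j h
    rw [← mul_assoc, coeff_mul_X_pow', if_pos (by omega), coeff_mul_C]
    congr 2
    omega

omit [DecidableEq ι] in
theorem mulVec_stepVec_eq_zero_of_colDeg_eq_zero (G : Matrix ι ι K[X]) (c : ι → K) (j0 : ι)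
    (hc : (leadMat G) *ᵥ c = 0) (hmax : ∀ j, c j ≠ 0 → colDeg G j ≤ colDeg G j0)
    (h0 : colDeg G j0 = 0) : G *ᵥ stepVec G c j0 = 0 := by
  funext i
  have h1 := natDegree_mulVec_stepVec_le G c j0 hmax i
  have h2 := coeff_mulVec_stepVec G c j0 hc hmax i
  rw [h0] at h1 h2
  rw [Pi.zero_apply, eq_C_of_natDegree_le_zero h1, h2, C_0]

omit [DecidableEq ι] in
/-- Key estimate: the new column has smaller degree. -/
theorem natDegree_mulVec_stepVec_lt (G : Matrix ι ι K[X]) (c : ι → K) (j0 : ι)
    (hc : (leadMat G) *ᵥ c = 0) (hmax : ∀ j, c j ≠ 0 → colDeg G j ≤ colDeg G j0)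
    (hpos : 0 < colDeg G j0) (i : ι) :
    ((G *ᵥ stepVec G c j0) i).natDegree < colDeg G j0 := by
  set d := colDeg G j0 with hd
  have hsum := natDegree_mulVec_stepVec_le G c j0 hmax i
  have hcoeff := coeff_mulVec_stepVec G c j0 hc hmax i
  rcases Nat.lt_or_ge ((G *ᵥ stepVec G c j0) i).natDegree d with h | h
  · exact h
  · exfalso
    have heq : ((G *ᵥ stepVec G c j0) i).natDegree = d := le_antisymm hsum h
    have hne : (G *ᵥ stepVec G c j0) i ≠ 0 := by
      intro h0
      rw [h0, natDegree_zero] at heq
      omega
    have := leadingCoeff_ne_zero.mpr hne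
    rw [leadingCoeff, heq] at this
    exact this hcoeff

/-- **Column reduction**: every polynomial matrix with nonzero determinant can be multiplied on
the right by a unimodular matrix so that its matrix of column-leading coefficients is invertible. -/
theorem exists_colReduced (G : Matrix ι ι K[X]) (hG : G.det ≠ 0) :
    ∃ U : Matrix ι ι K[X], IsUnit U.det ∧ (leadMat (G * U)).det ≠ 0 := by
  classical
  induction hN : (∑ j, colDeg G j) using Nat.strong_induction_on generalizing G with
  | _ N ih =>
    by_cases hL : (leadMat G).det = 0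
    · -- reduction step
      obtain ⟨c, hc0, hc⟩ := (Matrix.exists_mulVec_eq_zero_iff (M := leadMat G)).mpr hL
      have hne : (Finset.univ.filter fun j => c j ≠ 0).Nonempty := by
        by_contra hempty
        rw [Finset.not_nonempty_iff_eq_empty, Finset.filter_eq_empty_iff] at hempty
        apply hc0
        funext j
        have := hempty (Finset.mem_univ j)
        simpa using this
      obtain ⟨j0, hj0mem, hj0max⟩ := Finset.exists_max_image _ (fun j => colDeg G j) hne
      have hcj0 : c j0 ≠ 0 := (Finset.mem_filter.mp hj0mem).2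
      have hmax : ∀ j, c j ≠ 0 → colDeg G j ≤ colDeg G j0 := fun j hj =>
        hj0max j (Finset.mem_filter.mpr ⟨Finset.mem_univ j, hj⟩)
      have hdet' : (G * stepMat G c j0).det ≠ 0 := by
        rw [Matrix.det_mul, det_stepMat]
        exact mul_ne_zero hG (by simpa using hcj0)
      rcases Nat.eq_zero_or_pos (colDeg G j0) with h0 | hpos
      · exfalso
        apply hdet'
        rw [mul_stepMat, mulVec_stepVec_eq_zero_of_colDeg_eq_zero G c j0 hc hmax h0]
        exact Matrix.det_eq_zero_of_column_eq_zero j0 (fun i => by simp)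
      · -- the sum of column degrees decreases
        have hlt : (∑ j, colDeg (G * stepMat G c j0) j) < N := by
          rw [← hN]
          apply Finset.sum_lt_sum
          · intro j _
            by_cases hj : j = j0
            · subst hj
              apply colDeg_le
              intro i
              rw [mul_stepMat, Matrix.updateCol_self]
              exact (natDegree_mulVec_stepVec_lt G c j hc hmax hpos i).le
            · apply colDeg_le
              intro i
              rw [mul_stepMat, Matrix.updateCol_ne hj]
              exact natDegree_le_colDeg G i j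
          · refine ⟨j0, Finset.mem_univ _, ?_⟩
            unfold colDeg
            rw [Finset.sup_lt_iff (by exact hpos)]
            intro i _
            rw [mul_stepMat, Matrix.updateCol_self]
            exact natDegree_mulVec_stepVec_lt G c j0 hc hmax hpos i
        obtain ⟨U', hU', hL'⟩ := ih _ hlt (G * stepMat G c j0) hdet' rfl
        refine ⟨stepMat G c j0 * U', ?_, ?_⟩
        · rw [Matrix.det_mul, det_stepMat]
          exact (isUnit_C.mpr (isUnit_iff_ne_zero.mpr hcj0)).mul hU'
        · rwa [← Matrix.mul_assoc]
    · exact ⟨1, by simp, by rwa [Matrix.mul_one]⟩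

end Fermat.Agent.S20
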