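import Fermat.Prelude.Def_ModularCurve_PeriodHomPair
import Fermat.Prelude.Def_ModularCurve_GenusNumerics
import Fermat.Agent.S20.RRDefs

set_option autoImplicit false

/-!
# S20: final assembly from the integration contract

`finrank_cuspForm_of_contract` derives `dim S_2(Gamma0 N) = genusFormula N` from
* [C1] the degree of `div(dx)` on the function field of `X_0(N)` over `ℂ` (S24 pipeline over `ℂ`),
* [C4] Riemann--Roch for the canonical divisor (`2 l(W) = deg W + 2`),
* [C3] an injective map `L(W) → S_2(Gamma0 N)`,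
* [C5], [C6] the Eichler--Shimura upper bound.
-/

namespace Fermat.Agent.S20

open AlgebraicCurve ModularCurve ModularCurve.Period CongruenceSubgroup Module

/-- S20 from the integration contract [C1]-[C6]. -/
theorem finrank_cuspForm_of_contract (N : ℕ) [NeZero N]
    {F : Type} [Field F] [Algebra ℂ F] (x : F)
    -- [C1]
    (d : ℤ) (hsum : ∑ᶠ v : Place ℂ F, Wdx ℂ x v = d)
    (hd0 : 0 ≤ d + 2) (hdeven : Even (d + 2))
    (hnum : ((((d + 2).toNat / 2 : ℕ) : ℕ) : ℚ) = genusFormula N)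
    -- [C4]
    (hRR : (2 * (finrank ℂ ↥(RRSpace (Wdx ℂ x)) : ℤ)) = (∑ᶠ v : Place ℂ F, Wdx ℂ x v) + 2)
    -- [C3]
    (φ : ↥(RRSpace (Wdx ℂ x)) →ₗ[ℂ] CuspForm (Gamma0 N) 2) (hφ : Function.Injective φ)
    -- [C5]
    (hinj : Function.Injective (periodHomPair N))
    (hrange : LinearMap.range (periodHomPair N) ≤ parabolicHoms ℂ (Gamma0 N) ℂ)
    -- [C6]
    (hPfin : Module.Finite ℂ ↥(parabolicHoms ℂ (Gamma0 N) ℂ))
    (hPdim : (finrank ℂ ↥(parabolicHoms ℂ (Gamma0 N) ℂ) : ℚ) ≤ 2 * genusFormula N) :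
    (finrank ℂ (CuspForm (Gamma0 N) 2) : ℚ) = genusFormula N := by
  classical
  -- the period pairing lands in the parabolic homs
  let ψ : (CuspForm (Gamma0 N) 2 × CuspForm (Gamma0 N) 2) →ₗ[ℂ]
      ↥(parabolicHoms ℂ (Gamma0 N) ℂ) :=
    (periodHomPair N).codRestrict _ fun p => hrange (LinearMap.mem_range_self _ p)
  have hψ : Function.Injective ψ := fun a b h => hinj (congrArg Subtype.val h)
  have : Module.Finite ℂ (CuspForm (Gamma0 N) 2 × CuspForm (Gamma0 N) 2) :=
    Module.Finite.of_injective ψ hψ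
  have : Module.Finite ℂ (CuspForm (Gamma0 N) 2) :=
    Module.Finite.of_injective (LinearMap.inl ℂ _ (CuspForm (Gamma0 N) 2)) LinearMap.inl_injective
  have h1 : finrank ℂ (CuspForm (Gamma0 N) 2 × CuspForm (Gamma0 N) 2) ≤
      finrank ℂ ↥(parabolicHoms ℂ (Gamma0 N) ℂ) :=
    LinearMap.finrank_le_finrank_of_injective hψ
  rw [Module.finrank_prod] at h1
  have h2 : finrank ℂ ↥(RRSpace (Wdx ℂ x)) ≤ finrank ℂ (CuspForm (Gamma0 N) 2) :=
    LinearMap.finrank_le_finrank_of_injective hφ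
  -- numerics
  obtain ⟨m, hm⟩ := hdeven
  have hm0 : 0 ≤ m := by omega
  have hnat : (d + 2).toNat / 2 = m.toNat := by
    have : (d + 2).toNat = 2 * m.toNat := by omega
    rw [this, Nat.mul_div_cancel_left _ (by norm_num : 0 < 2)]
  have hl : (finrank ℂ ↥(RRSpace (Wdx ℂ x)) : ℤ) = m := by
    rw [hsum] at hRR
    omega
  have hg : genusFormula N = (m.toNat : ℚ) := by rw [← hnum, hnat]
  have hl' : finrank ℂ ↥(RRSpace (Wdx ℂ x)) = m.toNat := by omega
  have hup : (2 : ℚ) * finrank ℂ (CuspForm (Gamma0 N) 2) ≤ 2 * genusFormula N := by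
    have : ((finrank ℂ (CuspForm (Gamma0 N) 2) + finrank ℂ (CuspForm (Gamma0 N) 2) : ℕ) : ℚ) ≤
        finrank ℂ ↥(parabolicHoms ℂ (Gamma0 N) ℂ) := by exact_mod_cast h1
    push_cast at this
    linarith
  have hlow : genusFormula N ≤ finrank ℂ (CuspForm (Gamma0 N) 2) := by
    rw [hg]
    rw [hl'] at h2
    exact_mod_cast h2
  linarith

end Fermat.Agent.S20
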