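import Mathlib

set_option autoImplicit false
set_option linter.unusedSectionVars false

/-!
# S20 (L4), chunk (DD5): dimension of a quotient of fractional ideals

For a Dedekind domain `B` with fraction field `F`, containing a field `K` such that every residue
field `B ⧸ w` is `K`, and nonzero fractional ideals `I' ≤ I`:
`dim_K (I / I') = ∑ w, (count w I' - count w I)`.
-/

namespace Fermat.Agent.S20

open Module IsDedekindDomain FractionalIdeal
open scoped nonZeroDivisors

section chain

variable {K W : Type*} [Field K] [AddCommGroup W] [Module K W]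

/-- The relative quotient `M / N` of two subspaces of `W` (meaningful for `N ≤ M`). -/
abbrev relQuot (M N : Submodule K W) : Type _ := ↥M ⧸ (N.comap M.subtype)

/-- The projection `M / P → M / N` for `P ≤ N`. -/
noncomputable def relQuotProj (M N P : Submodule K W) (hPN : P ≤ N) :
    relQuot M P →ₗ[K] relQuot M N :=
  Submodule.mapQ _ _ LinearMap.id (by
    rw [Submodule.comap_id]
    exact Submodule.comap_mono hPN)

/-- The inclusion `N / P → M / P` for `N ≤ M`. -/
noncomputable def relQuotIncl (M N P : Submodule K W) (hNM : N ≤ M) :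
    relQuot N P →ₗ[K] relQuot M P :=
  Submodule.mapQ _ _ (Submodule.inclusion hNM) (by
    intro x hx
    exact hx)

theorem relQuotProj_surjective (M N P : Submodule K W) (hPN : P ≤ N) :
    Function.Surjective (relQuotProj M N P hPN) := by
  intro y
  obtain ⟨m, rfl⟩ := Submodule.Quotient.mk_surjective _ y
  exact ⟨Submodule.Quotient.mk m, rfl⟩

theorem relQuotIncl_injective (M N P : Submodule K W) (hNM : N ≤ M) :
    Function.Injective (relQuotIncl M N P hNM) := by
  rw [← LinearMap.ker_eq_bot, LinearMap.ker_eq_bot']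
  intro y hy
  obtain ⟨n, rfl⟩ := Submodule.Quotient.mk_surjective _ y
  have h1 : relQuotIncl M N P hNM (Submodule.Quotient.mk n) =
      Submodule.Quotient.mk (Submodule.inclusion hNM n) := rfl
  rw [h1, Submodule.Quotient.mk_eq_zero] at hy
  rw [Submodule.Quotient.mk_eq_zero]
  exact hy

theorem range_relQuotIncl (M N P : Submodule K W) (hNM : N ≤ M) (hPN : P ≤ N) :
    LinearMap.range (relQuotIncl M N P hNM) = LinearMap.ker (relQuotProj M N P hPN) := by
  ext y
  obtain ⟨m, rfl⟩ := Submodule.Quotient.mk_surjective _ y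
  constructor
  · rintro ⟨z, hz⟩
    obtain ⟨n, rfl⟩ := Submodule.Quotient.mk_surjective _ z
    rw [LinearMap.mem_ker, ← hz]
    have h1 : relQuotIncl M N P hNM (Submodule.Quotient.mk n) =
        Submodule.Quotient.mk (Submodule.inclusion hNM n) := rfl
    have h2 : relQuotProj M N P hPN (Submodule.Quotient.mk (Submodule.inclusion hNM n)) =
        Submodule.Quotient.mk (Submodule.inclusion hNM n) := rfl
    rw [h1, h2, Submodule.Quotient.mk_eq_zero]
    exact n.2
  · intro hm
    rw [LinearMap.mem_ker] at hm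
    have h2 : relQuotProj M N P hPN (Submodule.Quotient.mk m) = Submodule.Quotient.mk m := rfl
    rw [h2, Submodule.Quotient.mk_eq_zero] at hm
    exact ⟨Submodule.Quotient.mk ⟨m.1, hm⟩, rfl⟩

/-- Additivity of the dimension of relative quotients in a chain `P ≤ N ≤ M`. -/
theorem relQuot_chain (M N P : Submodule K W) (hNM : N ≤ M) (hPN : P ≤ N)
    [Module.Finite K (relQuot M N)] [Module.Finite K (relQuot N P)] :
    Module.Finite K (relQuot M P) ∧
      finrank K (relQuot M P) = finrank K (relQuot M N) + finrank K (relQuot N P) := by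
  have e : relQuot N P ≃ₗ[K] LinearMap.ker (relQuotProj M N P hPN) :=
    (LinearEquiv.ofInjective _ (relQuotIncl_injective M N P hNM)).trans
      (LinearEquiv.ofEq _ _ (range_relQuotIncl M N P hNM hPN))
  have : Module.Finite K (LinearMap.ker (relQuotProj M N P hPN)) := Module.Finite.equiv e
  have e2 : (relQuot M P ⧸ LinearMap.ker (relQuotProj M N P hPN)) ≃ₗ[K] relQuot M N :=
    (relQuotProj M N P hPN).quotKerEquivOfSurjective (relQuotProj_surjective M N P hPN)
  have : Module.Finite K (relQuot M P ⧸ LinearMap.ker (relQuotProj M N P hPN)) :=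
    Module.Finite.equiv e2.symm
  have hfin : Module.Finite K (relQuot M P) :=
    Module.Finite.of_submodule_quotient (LinearMap.ker (relQuotProj M N P hPN))
  refine ⟨hfin, ?_⟩
  have h := LinearMap.finrank_range_add_finrank_ker (relQuotProj M N P hPN)
  rw [LinearMap.range_eq_top.mpr (relQuotProj_surjective M N P hPN), finrank_top,
    ← e.finrank_eq] at h
  exact h.symm

theorem relQuot_self_finite (M : Submodule K W) :
    Module.Finite K (relQuot M M) ∧ finrank K (relQuot M M) = 0 := by
  have h : (M.comap M.subtype) = ⊤ := by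
    rw [Submodule.comap_subtype_eq_top]
  have hsub : Subsingleton (relQuot M M) := by
    unfold relQuot
    rw [h]
    infer_instance
  exact ⟨inferInstance, finrank_zero_of_subsingleton⟩

end chain

section dedekind

variable (K : Type*) {B F : Type*} [Field K] [CommRing B] [IsDedekindDomain B] [Algebra K B]
  [Field F] [Algebra B F] [IsFractionRing B F] [Algebra K F] [IsScalarTower K B F]

/-- The `K`-subspace of `F` underlying a fractional ideal. -/
def fracSub (I : FractionalIdeal B⁰ F) : Submodule K F :=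
  (I : Submodule B F).restrictScalars K

variable {K}

theorem mem_fracSub {I : FractionalIdeal B⁰ F} {x : F} : x ∈ fracSub K I ↔ x ∈ I := Iff.rfl

theorem fracSub_mono {I J : FractionalIdeal B⁰ F} (h : I ≤ J) : fracSub K I ≤ fracSub K J :=
  fun _ hx => h hx

theorem coe_mul_le (w : HeightOneSpectrum B) (M : FractionalIdeal B⁰ F) :
    (w.asIdeal : FractionalIdeal B⁰ F) * M ≤ M := by
  calc (w.asIdeal : FractionalIdeal B⁰ F) * M ≤ 1 * M :=
        mul_le_mul_left coeIdeal_le_one M
    _ = M := one_mul M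

/-- One step: `M / wM` is one-dimensional over `K` when `B ⧸ w = K`. -/
theorem relQuot_prime_mul
    (hres : ∀ (w : HeightOneSpectrum B) (b : B), ∃ a : K, b - algebraMap K B a ∈ w.asIdeal)
    (M : FractionalIdeal B⁰ F) (hM : M ≠ 0) (w : HeightOneSpectrum B) :
    Module.Finite K (relQuot (fracSub K M) (fracSub K ((w.asIdeal : FractionalIdeal B⁰ F) * M))) ∧
      finrank K (relQuot (fracSub K M)
        (fracSub K ((w.asIdeal : FractionalIdeal B⁰ F) * M))) = 1 := by
  set P : FractionalIdeal B⁰ F := (w.asIdeal : FractionalIdeal B⁰ F) * M with hP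
  have hw0 : (w.asIdeal : FractionalIdeal B⁰ F) ≠ 0 := coeIdeal_ne_zero.mpr w.ne_bot
  have hPM : P ≤ M := coe_mul_le w M
  have hP0 : P ≠ 0 := mul_ne_zero hw0 hM
  obtain ⟨x, hx⟩ := IsDedekindDomain.exists_add_spanSingleton_mul_eq hPM hP0
    (one_ne_zero : (1 : FractionalIdeal B⁰ F) ≠ 0)
  rw [mul_one] at hx
  have hxM : x ∈ M := by
    rw [← hx]
    exact (le_sup_right : spanSingleton B⁰ x ≤ P + spanSingleton B⁰ x)
      (mem_spanSingleton_self B⁰ x)
  have hxP : x ∉ P := by
    intro hxP
    have h1 : spanSingleton B⁰ x ≤ P := by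
      rw [spanSingleton_le_iff_mem]
      exact hxP
    have h2 : P = M := by
      rw [← hx]
      exact (sup_eq_left.mpr h1).symm
    have h3 : (w.asIdeal : FractionalIdeal B⁰ F) * M = 1 * M := by rw [one_mul]; exact h2
    have h4 : (w.asIdeal : FractionalIdeal B⁰ F) = 1 := mul_right_cancel₀ hM h3
    rw [coeIdeal_eq_one] at h4
    exact w.isPrime.ne_top (by rw [h4]; exact Ideal.one_eq_top)
  have hspan : ∀ y ∈ M, ∃ a : K, y - a • x ∈ P := by
    intro y hy
    rw [← hx] at hy
    obtain ⟨z, hz, t, ht, rfl⟩ := Submodule.mem_sup.mp hy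
    obtain ⟨b, rfl⟩ := (mem_spanSingleton B⁰).mp ht
    obtain ⟨a, ha⟩ := hres w b
    refine ⟨a, ?_⟩
    have h1 : z + b • x - a • x = z + algebraMap B F (b - algebraMap K B a) * x := by
      rw [Algebra.smul_def, Algebra.smul_def, IsScalarTower.algebraMap_apply K B F, map_sub]
      ring
    rw [h1]
    refine P.coeToSubmodule.add_mem hz ?_
    exact FractionalIdeal.mul_mem_mul (mem_coeIdeal_of_mem B⁰ ha) hxM
  -- the class of `x` spans the quotient
  let x' : ↥(fracSub K M) := ⟨x, hxM⟩
  let v : relQuot (fracSub K M) (fracSub K P) := Submodule.Quotient.mk x'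
  have hv : v ≠ 0 := by
    intro h0
    rw [Submodule.Quotient.mk_eq_zero] at h0
    exact hxP h0
  have hall : ∀ u : relQuot (fracSub K M) (fracSub K P), ∃ c : K, c • v = u := by
    intro u
    obtain ⟨y, rfl⟩ := Submodule.Quotient.mk_surjective _ u
    obtain ⟨a, ha⟩ := hspan y.1 y.2
    refine ⟨a, ?_⟩
    rw [← Submodule.Quotient.mk_smul, eq_comm, Submodule.Quotient.eq]
    exact ha
  have hfr : finrank K (relQuot (fracSub K M) (fracSub K P)) = 1 :=
    (finrank_eq_one_iff_of_nonzero' v hv).mpr hall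
  exact ⟨Module.finite_of_finrank_pos (by rw [hfr]; exact one_pos), hfr⟩

theorem finsum_count_coe_prime (w : HeightOneSpectrum B) :
    ∑ᶠ v : HeightOneSpectrum B, count F v (w.asIdeal : FractionalIdeal B⁰ F) = 1 := by
  rw [finsum_eq_single _ w, count_self]
  intro v hv
  exact count_maximal_coprime F v hv.symm

theorem finsum_count_mul {I J : FractionalIdeal B⁰ F} (hI : I ≠ 0) (hJ : J ≠ 0) :
    ∑ᶠ v : HeightOneSpectrum B, count F v (I * J) =
      (∑ᶠ v : HeightOneSpectrum B, count F v I) + ∑ᶠ v : HeightOneSpectrum B, count F v J := by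
  rw [← finsum_add_distrib]
  · exact finsum_congr fun v => count_mul F v hI hJ
  · exact (finite_factors I).subset (fun v hv => hv)
  · exact (finite_factors J).subset (fun v hv => hv)

/-- `dim_K (M / M J) = ∑ w, count w J` for a nonzero integral ideal `J`. -/
theorem relQuot_mul_ideal
    (hres : ∀ (w : HeightOneSpectrum B) (b : B), ∃ a : K, b - algebraMap K B a ∈ w.asIdeal)
    (J : Ideal B) : J ≠ 0 → ∀ M : FractionalIdeal B⁰ F, M ≠ 0 →
    Module.Finite K (relQuot (fracSub K M) (fracSub K (M * (J : FractionalIdeal B⁰ F)))) ∧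
      (finrank K (relQuot (fracSub K M) (fracSub K (M * (J : FractionalIdeal B⁰ F)))) : ℤ) =
        ∑ᶠ v : HeightOneSpectrum B, count F v (J : FractionalIdeal B⁰ F) := by
  induction J using UniqueFactorizationMonoid.induction_on_prime with
  | h₁ => intro h; exact absurd rfl h
  | h₂ J hJ =>
    intro _ M _
    have hJtop : J = ⊤ := Ideal.isUnit_iff.mp hJ
    subst hJtop
    have h1 : M * ((⊤ : Ideal B) : FractionalIdeal B⁰ F) = M := by
      rw [coeIdeal_top, mul_one]
    rw [h1]
    obtain ⟨hfin, hfr⟩ := relQuot_self_finite (fracSub K M)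
    refine ⟨hfin, ?_⟩
    rw [hfr, coeIdeal_top]
    simp [count_one]
  | h₃ J p hJ0 hp ih =>
    intro _ M hM
    obtain ⟨hfin1, hfr1⟩ := ih hJ0 M hM
    have hpP : p.IsPrime := Ideal.isPrime_of_prime hp
    let w : HeightOneSpectrum B := ⟨p, hpP, hp.ne_zero⟩
    have hJ0' : (J : FractionalIdeal B⁰ F) ≠ 0 := coeIdeal_ne_zero.mpr hJ0
    have hw0 : (w.asIdeal : FractionalIdeal B⁰ F) ≠ 0 := coeIdeal_ne_zero.mpr w.ne_bot
    have hMJ : M * (J : FractionalIdeal B⁰ F) ≠ 0 := mul_ne_zero hM hJ0'
    obtain ⟨hfin2, hfr2⟩ := relQuot_prime_mul hres (M * (J : FractionalIdeal B⁰ F)) hMJ w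
    have heq : M * ((p * J : Ideal B) : FractionalIdeal B⁰ F) =
        (w.asIdeal : FractionalIdeal B⁰ F) * (M * (J : FractionalIdeal B⁰ F)) := by
      rw [coeIdeal_mul]
      ring
    rw [heq]
    have hle1 : fracSub K (M * (J : FractionalIdeal B⁰ F)) ≤ fracSub K M := by
      apply fracSub_mono
      calc M * (J : FractionalIdeal B⁰ F) ≤ M * 1 := mul_le_mul_right coeIdeal_le_one M
        _ = M := mul_one M
    have hle2 : fracSub K ((w.asIdeal : FractionalIdeal B⁰ F) * (M * (J : FractionalIdeal B⁰ F))) ≤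
        fracSub K (M * (J : FractionalIdeal B⁰ F)) := fracSub_mono (coe_mul_le w _)
    obtain ⟨hfin, hfr⟩ := relQuot_chain (fracSub K M) (fracSub K (M * (J : FractionalIdeal B⁰ F)))
      (fracSub K ((w.asIdeal : FractionalIdeal B⁰ F) * (M * (J : FractionalIdeal B⁰ F)))) hle1 hle2
    refine ⟨hfin, ?_⟩
    rw [hfr, Nat.cast_add, hfr1, hfr2, coeIdeal_mul, finsum_count_mul (coeIdeal_ne_zero.mpr hp.ne_zero) hJ0']
    have h2 := finsum_count_coe_prime (F := F) w
    rw [h2]
    push_cast
    ring

/-- **(DD5)** For nonzero fractional ideals `I' ≤ I` of a Dedekind domain all of whose residue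
fields are `K`: `dim_K (I / I') = ∑ w, (count w I' - count w I)`. -/
theorem finrank_relQuot_fractionalIdeal
    (hres : ∀ (w : HeightOneSpectrum B) (b : B), ∃ a : K, b - algebraMap K B a ∈ w.asIdeal)
    (I I' : FractionalIdeal B⁰ F) (hI : I ≠ 0) (hI' : I' ≠ 0) (hle : I' ≤ I) :
    Module.Finite K (relQuot (fracSub K I) (fracSub K I')) ∧
      (finrank K (relQuot (fracSub K I) (fracSub K I')) : ℤ) =
        ∑ᶠ v : HeightOneSpectrum B, (count F v I' - count F v I) := by
  have h1 : I' * I⁻¹ ≤ 1 := by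
    calc I' * I⁻¹ ≤ I * I⁻¹ := mul_le_mul_left hle I⁻¹
      _ = 1 := mul_inv_cancel₀ hI
  obtain ⟨J, hJ⟩ := le_one_iff_exists_coeIdeal.mp h1
  have hJ0 : J ≠ 0 := by
    rintro rfl
    have h0 : ((0 : Ideal B) : FractionalIdeal B⁰ F) = 0 := coeIdeal_bot
    rw [h0] at hJ
    exact mul_ne_zero hI' (inv_ne_zero hI) hJ.symm
  have hI'eq : I' = I * (J : FractionalIdeal B⁰ F) := by
    rw [hJ, mul_comm I' I⁻¹, ← mul_assoc, mul_inv_cancel₀ hI, one_mul]
  obtain ⟨hfin, hfr⟩ := relQuot_mul_ideal hres J hJ0 I hI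
  rw [← hI'eq] at hfin hfr
  refine ⟨hfin, ?_⟩
  rw [hfr]
  refine finsum_congr fun v => ?_
  rw [hI'eq, count_mul F v hI (coeIdeal_ne_zero.mpr hJ0)]
  ring

end dedekind

end Fermat.Agent.S20
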