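import Fermat.Agent.S20.DDQuot
import Fermat.Agent.S20.DedekindCount

set_option autoImplicit false
set_option linter.unusedSectionVars false

/-!
# S20 (L4): quotient dimension for fractional ideals with prescribed counts

`dim_K (idealOf c / idealOf c') = ∑ w, (c' w - c w)` for `c ≤ c'`.
-/

namespace Fermat.Agent.S20

open Module IsDedekindDomain FractionalIdeal
open scoped nonZeroDivisors

variable {K B F : Type*} [Field K] [CommRing B] [IsDedekindDomain B] [Algebra K B]
  [Field F] [Algebra B F] [IsFractionRing B F] [Algebra K F] [IsScalarTower K B F]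

theorem finrank_relQuot_idealOf
    (hres : ∀ (w : HeightOneSpectrum B) (b : B), ∃ a : K, b - algebraMap K B a ∈ w.asIdeal)
    (c c' : HeightOneSpectrum B →₀ ℤ) (h : ∀ w, c w ≤ c' w) :
    Module.Finite K (relQuot (fracSub K (idealOf F c)) (fracSub K (idealOf F c'))) ∧
      (finrank K (relQuot (fracSub K (idealOf F c)) (fracSub K (idealOf F c'))) : ℤ) =
        ∑ᶠ w : HeightOneSpectrum B, (c' w - c w) := by
  have hle : idealOf F c' ≤ idealOf F c := (idealOf_le_idealOf_iff c' c).mpr h
  obtain ⟨hfin, hfr⟩ := finrank_relQuot_fractionalIdeal hres (idealOf F c) (idealOf F c')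
    (idealOf_ne_zero c) (idealOf_ne_zero c') hle
  refine ⟨hfin, ?_⟩
  rw [hfr]
  exact finsum_congr fun w => by rw [count_idealOf, count_idealOf]

/-- Finset form: the sum over any finset containing both supports. -/
theorem finrank_relQuot_idealOf_sum
    (hres : ∀ (w : HeightOneSpectrum B) (b : B), ∃ a : K, b - algebraMap K B a ∈ w.asIdeal)
    (c c' : HeightOneSpectrum B →₀ ℤ) (h : ∀ w, c w ≤ c' w) (s : Finset (HeightOneSpectrum B))
    (hs : c.support ⊆ s) (hs' : c'.support ⊆ s) :
    (finrank K (relQuot (fracSub K (idealOf F c)) (fracSub K (idealOf F c'))) : ℤ) =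
      ∑ w ∈ s, (c' w - c w) := by
  rw [(finrank_relQuot_idealOf hres c c' h).2]
  apply finsum_eq_sum_of_support_subset
  intro w hw
  rw [Function.mem_support] at hw
  by_contra hws
  apply hw
  have h1 : c w = 0 := by
    by_contra h0
    exact hws (hs (Finsupp.mem_support_iff.mpr h0))
  have h2 : c' w = 0 := by
    by_contra h0
    exact hws (hs' (Finsupp.mem_support_iff.mpr h0))
  rw [h1, h2, sub_zero]

end Fermat.Agent.S20
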