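/-
S20 contract [C1]: the degree of `div(dx)` from local embedding data, for a general algebraically
closed constant field of characteristic zero (copies of `S24.genus_eq_of_localData` and
`S24.genus_eq_genusFormula_of_emb` without `HasCanonicalDivisor`, with the sum of
`ordDifferential (D K F x)` as conclusion).
-/
import Mathlib
import Fermat.Agent.S24.Assembly
import Fermat.Agent.S24.Final
import Fermat.Agent.S20.RRDefs

set_option autoImplicit false

noncomputable section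

namespace Fermat.Agent.S20

open AlgebraicCurve IntermediateField Fermat.Agent.S24 Fermat.Agent.S24.FF
  Fermat.Agent.S24.LocalLemma UpperHalfPlane ModularCurve CongruenceSubgroup
open scoped Manifold MatrixGroups

section Generic

variable {K F : Type*} [Field K] [IsAlgClosed K] [CharZero K] [Field F] [Algebra K F]

/-- **Generic assembly, sum form** (no `HasCanonicalDivisor`). -/
theorem sum_Wdx_of_localData (hF : IsFF1 K F)
    {C : Type*} [Field C] [CharZero C] [Algebra K C] {I : Type*} [Fintype I]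
    {x : F} (hx : Transcendental K x)
    (hle : Module.finrank K⟮x⟯ F ≤ Fintype.card I)
    (c₀ c₁ : K) (hc : c₀ ≠ c₁)
    (hgen : ∀ c : K, c ≠ c₀ → c ≠ c₁ →
      HasLocalData (K := K) C I (x - algebraMap K F c) 1 (1 : Equiv.Perm I))
    {k₀ k₁ kI : ℕ} {ρ₀ ρ₁ ρI : Equiv.Perm I}
    (h₀ : HasLocalData (K := K) C I (x - algebraMap K F c₀) k₀ ρ₀)
    (h₁ : HasLocalData (K := K) C I (x - algebraMap K F c₁) k₁ ρ₁)
    (hinf : HasLocalData (K := K) C I x⁻¹ kI ρI) :
    {v : Place K F | v.ordDifferential (KaehlerDifferential.D K F x) ≠ 0}.Finite ∧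
      ∑ᶠ v : Place K F, v.ordDifferential (KaehlerDifferential.D K F x) =
        (Fintype.card I : ℤ) - orb ρ₀ - orb ρ₁ - orb ρI := by
  classical
  have hxc : ∀ c : K, Transcendental K (x - algebraMap K F c) := by
    intro c h
    apply hx
    have h2 : IsAlgebraic K (algebraMap K F c) := isAlgebraic_algebraMap c
    have := h.add h2
    simpa using this
  have hxinv : Transcendental K x⁻¹ := fun h => hx (IsAlgebraic.inv_iff.mp h)
  have hlec : ∀ c : K, Module.finrank K⟮x - algebraMap K F c⟯ F ≤ Fintype.card I := by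
    intro c; rw [finrank_adjoin_sub_const]; exact hle
  have hleinv : Module.finrank K⟮x⁻¹⟯ F ≤ Fintype.card I := by
    rw [finrank_adjoin_inv]; exact hle
  obtain ⟨e0, n0, -⟩ := ncard_zerosOf_eq_orb hF (hxc c₀) h₀ (hlec c₀)
  obtain ⟨e1, -, -⟩ := ncard_zerosOf_eq_orb hF (hxc c₁) h₁ (hlec c₁)
  obtain ⟨einf, -, -⟩ := ncard_zerosOf_eq_orb hF hxinv hinf hleinv
  rw [finrank_adjoin_sub_const] at n0
  have hpoles : polesOf K x = zerosOf K x⁻¹ := by
    ext v
    show v.ord x < 0 ↔ 0 < v.ord x⁻¹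
    rw [Place.ord_inv]; omega
  have hunr : ∀ c : K, c ∉ ({c₀, c₁} : Finset K) →
      ∀ v ∈ zerosOf K (x - algebraMap K F c), v.ord (x - algebraMap K F c) = 1 := by
    intro c hcc v hv
    simp only [Finset.mem_insert, Finset.mem_singleton, not_or] at hcc
    exact (ncard_zerosOf_eq_orb hF (hxc c) (hgen c hcc.1 hcc.2) (hlec c)).2.2 rfl v hv
  have hmain := sum_ordDifferential_smul_D hF hx ({c₀, c₁} : Finset K) hunr
    (h := (1 : F)) one_ne_zero
  rw [one_smul] at hmain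
  refine ⟨hmain.1, ?_⟩
  rw [hmain.2, Finset.sum_pair hc, e0, e1, hpoles, einf, n0]
  ring

end Generic

section Emb

variable (N : ℕ) [NeZero N]

/-- **[C1] from the layer (R) embeddings, general constant field.** Copy of
`S24.genus_eq_genusFormula_of_emb` for a general algebraically closed field `K` of characteristic
zero with an embedding `ι : K →+* ℂ`, without `HasCanonicalDivisor`; the conclusion is the degree of
`div(dx)` together with the numerics of `S24.comb_main_quotient`. -/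
theorem sum_Wdx_of_emb {K : Type*} [Field K] [IsAlgClosed K] [CharZero K]
    {F : Type*} [Field F] [Algebra K F]
    (ι : K →+* ℂ) (x : F)
    (hx : Transcendental K x) (hfd : FiniteDimensional K⟮x⟯ F)
    (hle : Module.finrank K⟮x⟯ F ≤ Nat.card (SL(2, ℤ) ⧸ Gamma0 N))
    -- embeddings at finite points
    (embF : ℍ → SL(2, ℤ) → (F →+* LaurentSeries ℂ))
    (hF1 : ∀ τ₀ a (c : K), embF τ₀ a (algebraMap K F c) = HahnSeries.C (ι c))
    (hF2 : ∀ τ₀ a, embF τ₀ a x = taylorL τ₀ jFun)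
    (hF3 : ∀ τ₀ a h, h ∈ Gamma0 N → embF τ₀ (a * h) = embF τ₀ a)
    (hF4 : ∀ τ₀ a b, embF τ₀ a = embF τ₀ b → a⁻¹ * b ∈ Gamma0 N)
    (hF5 : ∀ τ₀ a σ, σ • τ₀ = τ₀ → ∀ ζ : ℂˣ, (ζ : ℂ) = rotFactor σ⁻¹ τ₀ →
      ∀ f, embF τ₀ (σ * a) f = rot ζ (embF τ₀ a f))
    -- embeddings at infinity
    (embI : SL(2, ℤ) → (F →+* LaurentSeries ℂ))
    (hI1 : ∀ a (c : K), embI a (algebraMap K F c) = HahnSeries.C (ι c))
    (hI2 : ∀ a, embI a x = qExpand ℂ N jqC)
    (hI3 : ∀ a h, h ∈ Gamma0 N → embI (a * h) = embI a)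
    (hI4 : ∀ a b, embI a = embI b → a⁻¹ * b ∈ Gamma0 N)
    (σI : SL(2, ℤ)) (hσI : σI = ModularGroup.T ∨ σI = ModularGroup.T⁻¹)
    (ζI : ℂˣ) (hζI : IsPrimitiveRoot ζI N)
    (hI5 : ∀ a f, embI (σI * a) f = rot ζI (embI a f))
    (d : ℤ)
    (hd : d = (Nat.card (SL(2, ℤ) ⧸ Gamma0 N) : ℤ)
      - orb (MulAction.toPerm ModularGroup.S : Equiv.Perm (SL(2, ℤ) ⧸ Gamma0 N))
      - orb (MulAction.toPerm (ModularGroup.S * ModularGroup.T) :
          Equiv.Perm (SL(2, ℤ) ⧸ Gamma0 N))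
      - orb (MulAction.toPerm ModularGroup.T : Equiv.Perm (SL(2, ℤ) ⧸ Gamma0 N))) :
    {v : Place K F | v.ordDifferential (KaehlerDifferential.D K F x) ≠ 0}.Finite ∧
      ∑ᶠ v : Place K F, v.ordDifferential (KaehlerDifferential.D K F x) = d ∧
      0 ≤ d + 2 ∧ Even (d + 2) ∧ ((((d + 2).toNat / 2 : ℕ)) : ℚ) = genusFormula N := by
  classical
  letI : Algebra K ℂ := ι.toAlgebra
  have hιalg : ∀ c : K, algebraMap K ℂ c = ι c := fun _ => rfl
  haveI : Finite (SL(2, ℤ) ⧸ Gamma0 N) := finite_quotient_gamma0 N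
  letI : Fintype (SL(2, ℤ) ⧸ Gamma0 N) := Fintype.ofFinite _
  have hF : IsFF1 K F := ⟨x, hx, hfd⟩
  have hle' : Module.finrank K⟮x⟯ F ≤ Fintype.card (SL(2, ℤ) ⧸ Gamma0 N) := by
    rw [← Nat.card_eq_fintype_card]; exact hle
  -- value of the embeddings on `x - c`
  have hval : ∀ τ₀ a (c : K), embF τ₀ a (x - algebraMap K F c)
      = taylorL τ₀ jFun - HahnSeries.C (ι c) := by
    intro τ₀ a c
    rw [map_sub, hF2, hF1]
  -- local data at a point `τ₀` with a stabilising element `σ`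
  have hlocal : ∀ (τ₀ : ℍ) (c : K) (k : ℕ), 0 < k →
      analyticOrderAt (fun z : ℂ => jFun (ofComplex z) - ι c) (τ₀ : ℂ) = (k : ℕ∞) →
      ∀ (σ : SL(2, ℤ)), σ • τ₀ = τ₀ → ∀ ζ : ℂˣ, (ζ : ℂ) = rotFactor σ⁻¹ τ₀ →
      IsPrimitiveRoot ζ k →
      HasLocalData (K := K) ℂ (SL(2, ℤ) ⧸ Gamma0 N) (x - algebraMap K F c) k
        (MulAction.toPerm σ : Equiv.Perm (SL(2, ℤ) ⧸ Gamma0 N)) := by
    intro τ₀ c k hk hord σ hσ ζ hζ hprim
    exact hasLocalData_of_emb (K := K) (Gamma0 N) (embF τ₀)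
      (fun a c' => by rw [hF1, hιalg]) (hF3 τ₀) (hF4 τ₀)
      (fun a => hval τ₀ a c) hk (order_taylorL_sub_const mdiff_jFun (ι c) hord)
      σ ζ hprim (hF5 τ₀ · σ hσ ζ hζ)
  -- generic points
  have hgen : ∀ c : K, c ≠ 0 → c ≠ 1728 →
      HasLocalData (K := K) ℂ (SL(2, ℤ) ⧸ Gamma0 N) (x - algebraMap K F c) 1
        (1 : Equiv.Perm (SL(2, ℤ) ⧸ Gamma0 N)) := by
    intro c h0 h1
    obtain ⟨τ₀, hτ₀⟩ := jFun_surjective (ι c)
    have hc0 : ι c ≠ 0 := fun h => h0 ((map_eq_zero ι).mp h)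
    have hc1 : ι c ≠ 1728 := by
      intro h
      apply h1
      apply ι.injective
      rw [h, map_ofNat]
    have hord := analyticOrderAt_jFun_sub_of_generic hτ₀ hc0 hc1
    have h := hlocal τ₀ c 1 one_pos (by exact_mod_cast hord) 1 (one_smul _ _) 1
      (by
        simp only [Units.val_one, inv_one]
        unfold rotFactor
        rw [denom_eq_intCast]
        simp)
      (by simp)
    have hperm : (MulAction.toPerm (1 : SL(2, ℤ)) : Equiv.Perm (SL(2, ℤ) ⧸ Gamma0 N)) = 1 :=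
      map_one (MulAction.toPermHom _ _)
    rwa [hperm] at h
  -- the point `ρ` over `c = 0`
  have h0 : HasLocalData (K := K) ℂ (SL(2, ℤ) ⧸ Gamma0 N) (x - algebraMap K F 0) 3
      (MulAction.toPerm (ModularGroup.S * ModularGroup.T)⁻¹ :
        Equiv.Perm (SL(2, ℤ) ⧸ Gamma0 N)) := by
    have hfix : (ModularGroup.S * ModularGroup.T)⁻¹ • rhoPt = rhoPt := by
      rw [inv_smul_eq_iff, ST_smul_rhoPt]
    have hprim := rotFactor_ST_rho
    have hne : rotFactor (ModularGroup.S * ModularGroup.T) rhoPt ≠ 0 := rotFactor_ne_zero _ _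
    refine hlocal rhoPt 0 3 (by norm_num) ?_ _ hfix (Units.mk0 _ hne) (by simp) ?_
    · have := analyticOrderAt_jFun_rhoPt
      simpa using this
    · exact IsPrimitiveRoot.of_map_of_injective (f := Units.coeHom ℂ) (by simpa using hprim)
        Units.coeHom_injective
  -- the point `i` over `c = 1728`
  have h1 : HasLocalData (K := K) ℂ (SL(2, ℤ) ⧸ Gamma0 N) (x - algebraMap K F 1728) 2
      (MulAction.toPerm (ModularGroup.S)⁻¹ : Equiv.Perm (SL(2, ℤ) ⧸ Gamma0 N)) := by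
    have hfix : (ModularGroup.S)⁻¹ • UpperHalfPlane.I = UpperHalfPlane.I := by
      rw [inv_smul_eq_iff, S_smul_I]
    refine hlocal UpperHalfPlane.I 1728 2 (by norm_num) ?_ _ hfix (-1) ?_ ?_
    · have := analyticOrderAt_jFun_I
      simpa [map_ofNat] using this
    · simp [rotFactor_S_I]
    · have : IsPrimitiveRoot (-1 : ℂˣ) 2 := by
        rw [IsPrimitiveRoot.iff_def]
        refine ⟨by simp, fun l hl => ?_⟩
        by_contra hcon
        have hodd : Odd l := by
          rcases Nat.even_or_odd l with he | ho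
          · exact absurd (even_iff_two_dvd.mp he) hcon
          · exact ho
        rw [hodd.neg_one_pow] at hl
        have : ((-1 : ℂˣ) : ℂ) = ((1 : ℂˣ) : ℂ) := congrArg Units.val hl
        norm_num at this
      exact this
  -- infinity
  have hinf : HasLocalData (K := K) ℂ (SL(2, ℤ) ⧸ Gamma0 N) x⁻¹ N
      (MulAction.toPerm σI : Equiv.Perm (SL(2, ℤ) ⧸ Gamma0 N)) := by
    exact hasLocalData_of_emb (K := K) (Gamma0 N) embI
      (fun a c' => by rw [hI1, hιalg]) hI3 hI4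
      (fun a => by rw [map_inv₀, hI2]) (Nat.pos_of_ne_zero (NeZero.ne N))
      (order_inv_qExpand_jqC N) σI ζI hζI hI5
  -- combinatorics
  obtain ⟨hnonneg, heven, hnum⟩ := comb_main_quotient N d hd
  have horbI : orb (MulAction.toPerm σI : Equiv.Perm (SL(2, ℤ) ⧸ Gamma0 N))
      = orb (MulAction.toPerm ModularGroup.T : Equiv.Perm (SL(2, ℤ) ⧸ Gamma0 N)) := by
    rcases hσI with rfl | rfl
    · rfl
    · exact orb_toPerm_inv _
  obtain ⟨hfin, hsum⟩ := sum_Wdx_of_localData (K := K) (F := F) hF (C := ℂ)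
    (I := SL(2, ℤ) ⧸ Gamma0 N) hx hle' 0 1728 (by norm_num) hgen h0 h1 hinf
  refine ⟨hfin, ?_, hnonneg, heven, hnum⟩
  rw [hsum, hd, orb_toPerm_inv, orb_toPerm_inv, horbI, Nat.card_eq_fintype_card]
  ring

end Emb

end Fermat.Agent.S20
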