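import Mathlib
import Fermat.Agent.S20.RRDefs
import Fermat.Agent.S20.OInf
import Fermat.Agent.S24.FF.PlaceBasic

/-! # S20 (L4), infinite chart: the centre of a pole of `x` on `O_∞`.

If `v` is a place of `F / K` with `ord_v x < 0` (`x` the image of `X : K(X)`), then the valuation
ring of `v` contains `O_∞ = {r ∈ K(X) | deg r ≤ 0}`; conversely, if `O_v ⊇ O_∞` then `ord_v x < 0`
as soon as ... (only the first direction is proved here).  Route: the restriction of `v` to `K(X)`
is a valuation trivial on `K` with `1 < v X`, hence `v r = (v X) ^ intDegree r`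
(Mathlib `RatFunc.valuation_eq_valuation_X_zpow_intDegree_of_one_lt_valuation_X`). -/

set_option autoImplicit false

namespace Fermat.Agent.S20

open AlgebraicCurve Fermat.Agent.S24.FF

variable {K F : Type*} [Field K] [Field F] [Algebra K F]
  [Algebra (RatFunc K) F] [IsScalarTower K (RatFunc K) F]

/-- the restriction of a place of `F` to `K(X)` -/
noncomputable def placeRestrict (v : Place K F) :
    Valuation (RatFunc K) v.toValuationSubring.ValueGroup :=
  v.toValuationSubring.valuation.comap (algebraMap (RatFunc K) F)

theorem placeRestrict_apply (v : Place K F) (r : RatFunc K) :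
    placeRestrict v r = v.toValuationSubring.valuation (algebraMap (RatFunc K) F r) := rfl

theorem placeRestrict_le_one_iff (v : Place K F) (r : RatFunc K) :
    placeRestrict v r ≤ 1 ↔ algebraMap (RatFunc K) F r ∈ v.toValuationSubring := by
  rw [placeRestrict_apply, ValuationSubring.valuation_le_one_iff]

instance placeRestrict_isTrivialOn (v : Place K F) : (placeRestrict v).IsTrivialOn K where
  eq_one := by
    intro a ha
    rw [placeRestrict_apply, ← IsScalarTower.algebraMap_apply K (RatFunc K) F]
    have h1 : algebraMap K F a ∈ v.toValuationSubring := v.algebraMap_mem' a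
    have h2 : (algebraMap K F a)⁻¹ ∈ v.toValuationSubring := by
      rw [← map_inv₀]
      exact v.algebraMap_mem' a⁻¹
    have h3 := (ValuationSubring.valuation_le_one_iff _ _).mpr h1
    have h4 := (ValuationSubring.valuation_le_one_iff _ _).mpr h2
    have hne : algebraMap K F a ≠ 0 := (map_ne_zero _).mpr ha
    have hv0 : v.toValuationSubring.valuation (algebraMap K F a) ≠ 0 :=
      (Valuation.ne_zero_iff _).mpr hne
    rw [map_inv₀, inv_le_one₀ (zero_lt_iff.mpr hv0)] at h4
    exact le_antisymm h3 h4

/-- a pole of `x`: `1 < v X` -/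
theorem infCentre_one_lt_placeRestrict_X {v : Place K F}
    (hv : v ∈ infPl K (algebraMap (RatFunc K) F RatFunc.X)) :
    1 < placeRestrict v RatFunc.X := by
  rw [← not_le, placeRestrict_le_one_iff]
  intro hmem
  have h0 := ord_nonneg_of_mem v hmem
  have h1 : v.ord (algebraMap (RatFunc K) F RatFunc.X) < 0 := hv
  omega

/-- **centre of an infinite place**: `O_∞ ⊆ O_v` for every pole `v` of `x`. -/
theorem infCentre_algebraMap_mem {v : Place K F}
    (hv : v ∈ infPl K (algebraMap (RatFunc K) F RatFunc.X)) {r : RatFunc K}
    (hr : r ∈ Linf K 0) : algebraMap (RatFunc K) F r ∈ v.toValuationSubring := by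
  rw [← placeRestrict_le_one_iff]
  rcases hr with rfl | hr
  · rw [map_zero]
    exact zero_le_one
  by_cases h0 : r = 0
  · rw [h0, map_zero]
    exact zero_le_one
  have hlt := infCentre_one_lt_placeRestrict_X hv
  rw [RatFunc.valuation_eq_valuation_X_zpow_intDegree_of_one_lt_valuation_X hlt h0]
  exact zpow_le_one_of_nonpos₀ hlt.le hr

theorem infCentre_algebraMap_OInf_mem {v : Place K F}
    (hv : v ∈ infPl K (algebraMap (RatFunc K) F RatFunc.X)) (r : OInf K) :
    algebraMap (OInf K) F r ∈ v.toValuationSubring := by
  rw [IsScalarTower.algebraMap_apply (OInf K) (RatFunc K) F]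
  exact infCentre_algebraMap_mem hv r.2

end Fermat.Agent.S20
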