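import Mathlib
import Fermat.Agent.S20.L4Fin
import Fermat.Agent.S20.DDQuot

set_option autoImplicit false
set_option linter.unusedSectionVars false

/-!
# S20 (L4.5), finite chart: `dim_K (Lsub (finPl K x) D / Lsub (finPl K x) D')`

Instance form as in `S20/L4Fin.lean`.  For divisors `D' ≤ D`:
`dim_K (Lsub finPl D / Lsub finPl D') = degFin D - degFin D'` where
`degFin D = ∑ᶠ v ∈ finPl K x, D v`, in the quotient shape of `Chi.chi_sub_chi` /
`RRAbstract.RRData.quotI`.
-/

noncomputable section

namespace Fermat.Agent.S20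

open AlgebraicCurve Polynomial FunctionField IsDedekindDomain IsDedekindDomain.HeightOneSpectrum
open Fermat.Agent.S24.FF nonZeroDivisors Module

/-- Zariski's lemma: modulo a maximal ideal of a finite type algebra over an algebraically closed
field, every element is congruent to a constant. -/
theorem exists_sub_algebraMap_mem_of_isMaximal {K R : Type*} [Field K] [IsAlgClosed K]
    [CommRing R] [Algebra K R] [Algebra.FiniteType K R] (P : Ideal R) [P.IsMaximal] (r : R) :
    ∃ a : K, r - algebraMap K R a ∈ P := by
  let _ := Ideal.Quotient.field P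
  have : Module.Finite K (R ⧸ P) := finite_of_finite_type_of_isJacobsonRing K (R ⧸ P)
  obtain ⟨a, ha⟩ := (IsAlgClosed.algebraMap_bijective_of_isIntegral (k := K) (K := R ⧸ P)).2
    (Ideal.Quotient.mk P r)
  refine ⟨a, ?_⟩
  rw [← Ideal.Quotient.eq_zero_iff_mem, map_sub, ← ha]
  exact sub_self _

variable {K F : Type*} [Field K] [Field F] [Algebra K F] [IsAlgClosed K] [CharZero K]
  [Algebra K[X] F] [Algebra (RatFunc K) F] [IsScalarTower K K[X] F]
  [IsScalarTower K[X] (RatFunc K) F] [IsScalarTower K (RatFunc K) F]
  [FiniteDimensional (RatFunc K) F]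

attribute [local instance] fundIdAlgebra fundId_isScalarTower fundId_isSeparable

/-- the residue fields of the ring of integers are `K` -/
theorem ringOfIntegers_residue (w : HeightOneSpectrum (ringOfIntegers K F))
    (b : ringOfIntegers K F) : ∃ a : K, b - algebraMap K (ringOfIntegers K F) a ∈ w.asIdeal := by
  have hst : IsScalarTower K K[X] (ringOfIntegers K F) :=
    IsScalarTower.of_algebraMap_eq fun _ => rfl
  have hfin : Module.Finite K[X] (ringOfIntegers K F) := inferInstance
  have hft : Algebra.FiniteType K[X] (ringOfIntegers K F) := inferInstance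
  have : Algebra.FiniteType K (ringOfIntegers K F) :=
    Algebra.FiniteType.trans (inferInstance : Algebra.FiniteType K K[X]) hft
  exact exists_sub_algebraMap_mem_of_isMaximal w.asIdeal b

/-- the degree of the finite part of a divisor -/
def degFin (D : Place K F →₀ ℤ) : ℤ :=
  ∑ᶠ w : HeightOneSpectrum (ringOfIntegers K F), D (finPlace w)

theorem degFin_eq_finsum_mem (D : Place K F →₀ ℤ) :
    degFin D = ∑ᶠ v ∈ finPl K (algebraMap K[X] F X), D v := by
  rw [degFin, ← range_finPlace, finsum_mem_range finPlace_injective]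

theorem support_comp_finPlace_finite (D : Place K F →₀ ℤ) :
    (Function.support fun w : HeightOneSpectrum (ringOfIntegers K F) => D (finPlace w)).Finite := by
  have h : (Function.support fun w : HeightOneSpectrum (ringOfIntegers K F) => D (finPlace w)) =
      finPlace ⁻¹' (D.support : Set (Place K F)) := by
    ext w
    simp
  rw [h]
  exact Set.Finite.preimage finPlace_injective.injOn D.support.finite_toSet

theorem degFin_add (D D' : Place K F →₀ ℤ) : degFin (D + D') = degFin D + degFin D' := by
  unfold degFin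
  rw [← finsum_add_distrib (support_comp_finPlace_finite D) (support_comp_finPlace_finite D')]
  rfl

theorem degFin_sub (D D' : Place K F →₀ ℤ) : degFin (D - D') = degFin D - degFin D' := by
  have h := degFin_add (D - D') D'
  rw [sub_add_cancel] at h
  linarith

/-- **(L4.5), finite chart**, in the quotient shape of `Chi.chi_sub_chi`. -/
theorem finrank_quot_Lsub_finPl (D D' : Place K F →₀ ℤ) (h : D' ≤ D) :
    Module.Finite K (↥(Lsub (finPl K (algebraMap K[X] F X)) ⇑D) ⧸
      ((Lsub (finPl K (algebraMap K[X] F X)) ⇑D').comap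
        (Lsub (finPl K (algebraMap K[X] F X)) ⇑D).subtype)) ∧
    (finrank K (↥(Lsub (finPl K (algebraMap K[X] F X)) ⇑D) ⧸
      ((Lsub (finPl K (algebraMap K[X] F X)) ⇑D').comap
        (Lsub (finPl K (algebraMap K[X] F X)) ⇑D).subtype)) : ℤ) = degFin D - degFin D' := by
  have hle : idealOf (R := ringOfIntegers K F) F (finExps D') ≤
      idealOf (R := ringOfIntegers K F) F (finExps D) := by
    rw [idealOf_le_idealOf_iff]
    intro w
    rw [finExps_apply, finExps_apply]
    exact neg_le_neg (h (finPlace w))
  obtain ⟨h1, h2⟩ := finrank_relQuot_fractionalIdeal (K := K) (F := F) ringOfIntegers_residue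
    (idealOf (R := ringOfIntegers K F) F (finExps D))
    (idealOf (R := ringOfIntegers K F) F (finExps D')) (idealOf_ne_zero _) (idealOf_ne_zero _) hle
  have e1 : fracSub K (idealOf (R := ringOfIntegers K F) F (finExps D)) =
      Lsub (finPl K (algebraMap K[X] F X)) ⇑D := (Lsub_finPl_eq_restrictScalars D).symm
  have e2 : fracSub K (idealOf (R := ringOfIntegers K F) F (finExps D')) =
      Lsub (finPl K (algebraMap K[X] F X)) ⇑D' := (Lsub_finPl_eq_restrictScalars D').symm
  rw [e1, e2] at h1 h2
  refine ⟨h1, ?_⟩
  rw [h2, ← degFin_sub, degFin]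
  refine finsum_congr fun w => ?_
  rw [count_idealOf, count_idealOf, finExps_apply, finExps_apply]
  simp only [Finsupp.coe_sub, Pi.sub_apply]
  ring

/-- **(L4.5-fin)** in exactly the shape of hypothesis `h45f` of
`RRCanonicalCore.rrData_of_dictionary` (with `x = algebraMap K[X] F X`). -/
theorem finrank_quot_Lsub_finPl_finsum (D D' : Place K F →₀ ℤ) (h : D' ≤ D) :
    Module.Finite K (↥(Lsub (finPl K (algebraMap K[X] F X)) (D : Place K F → ℤ)) ⧸
      ((Lsub (finPl K (algebraMap K[X] F X)) (D' : Place K F → ℤ)).comap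
        (Lsub (finPl K (algebraMap K[X] F X)) (D : Place K F → ℤ)).subtype)) ∧
    (finrank K (↥(Lsub (finPl K (algebraMap K[X] F X)) (D : Place K F → ℤ)) ⧸
      ((Lsub (finPl K (algebraMap K[X] F X)) (D' : Place K F → ℤ)).comap
        (Lsub (finPl K (algebraMap K[X] F X)) (D : Place K F → ℤ)).subtype)) : ℤ) =
      ∑ᶠ v ∈ finPl K (algebraMap K[X] F X), (D v - D' v) := by
  obtain ⟨h1, h2⟩ := finrank_quot_Lsub_finPl D D' h
  refine ⟨h1, ?_⟩
  rw [h2, ← degFin_sub, degFin_eq_finsum_mem]
  rfl

end Fermat.Agent.S20
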